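/-
Cluster B / GoodRed, WP (M) (helper24): the `RedModel` of the modular function field.

`K = ℚ̄`, `A` a valuation subring of `K` over `ℓ`, `k` its residue field,
`F = modularFunctionFieldBar N`, `Fk = modularFunctionFieldFullC k N`, `O` = the Gauss valuation
ring `gaussValSub` of helper5 (`Lib/GaussInt/Bundle.lean`), `ρ = gaussValResTo`, `x = j`.

Everything is proved from `Lib/GaussInt` except the inputs that are delivered elsewhere and are
taken as hypotheses (`Prop`s defined here):

* `RangeAt N A` = (R3): `ρ (O) = Fk` (helper66, `Lib/GaussVal`);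
* `DegAt N A n`: `[Fk : k(j̄)] = n`, separable (helper94 / helper66).
The char `0` degree `[F : K(j)] = [SL₂(ℤ) : Γ₀(N)]` is helper19's `GoodRedBranch.finrank_jBar`.
-/
import Mathlib
import Fermat.Prelude.Def_ModularCurve_ArithmeticGalois
import Fermat.Prelude.Def_ModularCurve_X0ModL
import Fermat.Prelude.Def_FLTPrelim_Ramification
import Fermat.Agent.Lib.GoodRed.Defs
import Fermat.Agent.Lib.GaussInt.Bundle
import Fermat.Agent.S28.DescentMain
import Fermat.Agent.S24.EmbF

set_option autoImplicit false
set_option linter.unusedSectionVars false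

noncomputable section

namespace Fermat.Agent.GoodRed

open ModularCurve Fermat.Agent.GaussInt

/-- (R3) at the valuation ring `A`: the Gauss residue map of `modularFunctionFieldBar N` has
range exactly `modularFunctionFieldFullC k N`, `k` the residue field of `A`. -/
def RangeAt (N : ℕ) [NeZero N] (A : ValuationSubring (AlgebraicClosure ℚ)) : Prop :=
  (∀ f ∈ gaussSub A (modularFunctionFieldBar N),
      gaussResFun A (modularFunctionFieldBar N) f ∈
        modularFunctionFieldFullC (IsLocalRing.ResidueField A) N) ∧
  (∀ y ∈ modularFunctionFieldFullC (IsLocalRing.ResidueField A) N,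
      ∃ f ∈ gaussSub A (modularFunctionFieldBar N),
        gaussResFun A (modularFunctionFieldBar N) f = y)

/-- an element of a subfield of `k((q))` which is transcendental in `k((q))` is transcendental. -/
theorem transcendental_of_coe {k : Type*} [Field k] (E : IntermediateField k (LaurentSeries k))
    (y : E) (h : Transcendental k (y : LaurentSeries k)) : Transcendental k y := by
  intro halg
  apply h
  have := halg.algebraMap (A := LaurentSeries k)
  exact this

/-- `j` is transcendental over any field of constants. -/
theorem transcendental_jqModC (k : Type*) [Field k] : Transcendental k (jqModC k) := by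
  have hj : Fermat.Agent.S28.ordV k (jqModC k) = ((-1 : ℤ) : WithTop ℤ) :=
    Fermat.Agent.S28.ordV_muSeries (-1) constantCoeff_jNum
  have hinj := Fermat.Agent.S28.evJ_injective (jqModC k) hj
  rw [transcendental_iff_injective]
  exact hinj

variable (N : ℕ) [NeZero N] {ℓ : ℕ} (hℓ : ℓ.Prime)
  {A : ValuationSubring (AlgebraicClosure ℚ)} (hA : A.LiesOverPrime ℓ)

theorem emb_jqModC_mem : emb A (jqModC A) ∈ modularFunctionFieldBar N := by
  show coeffMap A.subtype (jqModC A) ∈ modularFunctionFieldBar N
  rw [coeffMap_jqModC, ← Fermat.Agent.S24.coe_jBar_eq_jqModC N]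
  exact (Fermat.Agent.S24.jBar N).2

theorem emb_jqModC_eq :
    emb A (jqModC A) = ((Fermat.Agent.S24.jBar N : ↥(modularFunctionFieldBar N)) :
      LaurentSeries (AlgebraicClosure ℚ)) := by
  rw [Fermat.Agent.S24.coe_jBar_eq_jqModC]
  exact coeffMap_jqModC A.subtype

theorem jBar_mem_gaussValSub :
    Fermat.Agent.S24.jBar N ∈ gaussValSub (gaussHyp_modular N hℓ hA) := by
  rw [mem_gaussValSub_iff, ← emb_jqModC_eq N]
  exact emb_mem_gaussSub (emb_jqModC_mem N)

theorem gaussResFun_jBar :
    gaussResFun A (modularFunctionFieldBar N)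
      ((Fermat.Agent.S24.jBar N : ↥(modularFunctionFieldBar N)) :
        LaurentSeries (AlgebraicClosure ℚ)) = jqModC (IsLocalRing.ResidueField A) := by
  have h := gaussResFun_emb (emb_jqModC_mem (A := A) N)
  rw [emb_jqModC_eq N] at h
  rw [h]
  exact coeffMap_jqModC (IsLocalRing.residue A)

variable (hR : RangeAt N A)

set_option synthInstance.maxHeartbeats 400000 in
set_option maxHeartbeats 1000000 in
/-- WP (M): the `RedModel` of `modularFunctionFieldBar N` at a place `A` over `ℓ`, given (R3). -/
def modularRedModel :
    RedModel (AlgebraicClosure ℚ) (IsLocalRing.ResidueField A) ↥(modularFunctionFieldBar N)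
      ↥(modularFunctionFieldFullC (IsLocalRing.ResidueField A) N) where
  A := A
  res := IsLocalRing.residue A
  res_surj := IsLocalRing.residue_surjective
  res_eq_zero a := by
    rw [IsLocalRing.residue_eq_zero_iff, IsLocalRing.mem_maximalIdeal, mem_nonunits_iff]
  O := gaussValSub (gaussHyp_modular N hℓ hA)
  rho := gaussValResTo (gaussHyp_modular N hℓ hA) _ hR.1
  rho_surj := gaussValResTo_surjective (gaussHyp_modular N hℓ hA) _ hR.1 hR.2
  rho_eq_zero := gaussValResTo_eq_zero_iff (gaussHyp_modular N hℓ hA) _ hR.1
  map_mem a := (gaussValSub_mem_iff_const (gaussHyp_modular N hℓ hA) (a : AlgebraicClosure ℚ)).mpr a.2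
  rho_map a := gaussValResTo_algebraMap (gaussHyp_modular N hℓ hA) _ hR.1 (a : AlgebraicClosure ℚ) a.2 _
  val f hf := by
    obtain ⟨c, hc, hmem, hres⟩ := valueGroupAt N ℓ hℓ A hA f hf
    refine ⟨c, hc, hmem, ?_⟩
    rw [← not_not (a := IsUnit _),
      ← gaussValResTo_eq_zero_iff (gaussHyp_modular N hℓ hA) _ hR.1]
    intro h0
    exact hres (congrArg Subtype.val h0)
  x := Fermat.Agent.S24.jBar N
  x_mem := jBar_mem_gaussValSub N hℓ hA
  x_trans := by
    apply transcendental_of_coe
    rw [coe_gaussValResTo]
    show Transcendental _ (gaussResFun A (modularFunctionFieldBar N)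
      ((Fermat.Agent.S24.jBar N : ↥(modularFunctionFieldBar N)) :
        LaurentSeries (AlgebraicClosure ℚ)))
    rw [gaussResFun_jBar]
    exact transcendental_jqModC _

set_option synthInstance.maxHeartbeats 400000 in
theorem modularRedModel_x : (modularRedModel N hℓ hA hR).x = Fermat.Agent.S24.jBar N := rfl

set_option synthInstance.maxHeartbeats 400000 in
theorem modularRedModel_A : (modularRedModel N hℓ hA hR).A = A := rfl

set_option synthInstance.maxHeartbeats 400000 in
set_option maxHeartbeats 1000000 in
theorem coe_modularRedModel_xbar :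
    (((modularRedModel N hℓ hA hR).xbar :
        ↥(modularFunctionFieldFullC (IsLocalRing.ResidueField A) N)) :
      LaurentSeries (IsLocalRing.ResidueField A)) = jqModC (IsLocalRing.ResidueField A) :=
  gaussResFun_jBar N

end Fermat.Agent.GoodRed
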