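import Fermat.Agent.Lib.GoodRed.Steps

/-!
# Cluster B / GoodRed: the WEAK branch datum (branch values in `A` only) and `FibreEq`
Architect: helper37 (request of helper93).  ONLY definitions and trivial conversions here.

The discriminant chain only ever uses branch values in `A` (roots outside `A` reduce to "infinity"
of the chart).  So `unram` is only needed for `c ∈ A`.  Example: `x = 1/j`, `ℓ ∈ {2, 3}`:
the branch values are `0`, `1/1728`, `∞`, and `1/1728 ∉ A`, so `S = {0}` is a weak branch datum.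
-/

set_option autoImplicit false

namespace Fermat.Agent.GoodRed

open Polynomial IntermediateField
open scoped IntermediateField.algebraAdjoinAdjoin

noncomputable section

variable {K k F Fk : Type} [Field K] [Field k] [Field F] [Field Fk] [Algebra K F] [Algebra k Fk]

/-- WEAK BRANCH hypothesis: outside a finite set `S ⊆ A` of branch values with pairwise distinct
residues all fibres over points `c ∈ A` have `n` points. -/
structure BranchDataA (M : RedModel K k F Fk) (n : ℕ) where
  S : Finset K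
  S_mem : ∀ c ∈ S, c ∈ M.A
  S_inj : ∀ c ∈ S, ∀ c' ∈ S, ∀ (hc : c ∈ M.A) (hc' : c' ∈ M.A),
    M.res ⟨c, hc⟩ = M.res ⟨c', hc'⟩ → c = c'
  unram : ∀ c : K, c ∈ M.A → c ∉ S → fibreCard K M.x c = n

/-- a (strong) branch datum is a weak branch datum -/
def BranchData.toA {M : RedModel K k F Fk} {n : ℕ} (BD : BranchData M n) : BranchDataA M n where
  S := BD.S
  S_mem := BD.S_mem
  S_inj := BD.S_inj
  unram := fun c _ hc => BD.unram c hc

@[simp] theorem BranchData.toA_S {M : RedModel K k F Fk} {n : ℕ} (BD : BranchData M n) :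
    BD.toA.S = BD.S := rfl

/-- (L) LIFT STEP for a weak branch datum (same statement as `LiftStep`). -/
def LiftStepA (M : RedModel K k F Fk) (n : ℕ) (BD : BranchDataA M n) : Prop :=
  ∃ bbar : Fin n → Fk, IsBbarBasis M n bbar ∧
    ∃ dbar : Algebra.adjoin k {M.xbar},
      algebraMap (Algebra.adjoin k {M.xbar}) k⟮M.xbar⟯ dbar = gramDet k⟮M.xbar⟯ Fk bbar ∧
      dbar ≠ 0 ∧
      ∀ (c : K) (hc : c ∈ M.A) (m : ℕ), piAt k M.xbar (M.res ⟨c, hc⟩) ^ m ∣ dbar →
        (c ∈ BD.S → m + fibreCard K M.x c ≤ n) ∧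
        ((∀ c' ∈ BD.S, ∀ hc' : c' ∈ M.A, M.res ⟨c', hc'⟩ ≠ M.res ⟨c, hc⟩) → m = 0)

theorem liftStep_iff_liftStepA {M : RedModel K k F Fk} {n : ℕ} (BD : BranchData M n) :
    LiftStep M n BD ↔ LiftStepA M n BD.toA := Iff.rfl

/-- (FIB=) EQUALITY of fibre cardinalities at every `c ∈ A` which is a branch value or whose
residue is not the residue of a branch value. -/
def FibreEq (M : RedModel K k F Fk) (n : ℕ) (BD : BranchDataA M n) : Prop :=
  ∀ (c : K) (hc : c ∈ M.A),
    (c ∈ BD.S ∨ ∀ c' ∈ BD.S, ∀ hc' : c' ∈ M.A, M.res ⟨c', hc'⟩ ≠ M.res ⟨c, hc⟩) →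
      fibreCard k M.xbar (M.res ⟨c, hc⟩) = fibreCard K M.x c

/-- MAIN THEOREM of the discriminant chain for weak branch data, as a `Prop`. -/
def DiscChainA : Prop :=
  ∀ (K k F Fk : Type) [Field K] [Field k] [Field F] [Field Fk] [Algebra K F] [Algebra k Fk]
    [IsAlgClosed K] [CharZero K] [IsAlgClosed k]
    (M : RedModel K k F Fk) (n : ℕ), DegData M n → ∀ BD : BranchDataA M n,
      NormalReduction M ∧ FibreBound M ∧ FibreEq M n BD

end

end Fermat.Agent.GoodRed
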