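import Mathlib

/-!
# Cluster B / GoodRed: the two PURE ALGEBRA inputs of the "discriminant chain"
Architect: helper37.  Blueprint: NOTES/blueprint-B-GoodRed.md.  Namespace `Fermat.Agent.GoodRed`.
This file contains ONLY definitions (the exact statements as `Prop`s); provers end their file with
`theorem ... : DiscLowerBound` resp. `theorem ... : DiscUpperTame`.

Setting: `R` a PID (for us `K[X]`), `Kx = Frac R`, `L / Kx` finite separable of degree `n`,
`ev : R → κ` a surjection onto an algebraically closed field with kernel `(π)`.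
For an `R`-subalgebra `B' ⊆ L`, integral over `R`, free of rank `n` with basis `b`:
`gramDet b = det (Tr_{L/Kx}(b i * b j)) ∈ R` and `numPts B' ev = #{ring homs B' → κ over ev}`
(= number of maximal ideals of `B'` over `𝔭`).
-/

set_option autoImplicit false

namespace Fermat.Agent.GoodRed

open Polynomial

noncomputable section

variable (R : Type) [CommRing R] [IsDomain R] [IsPrincipalIdealRing R]
variable (Kx : Type) [Field Kx] [Algebra R Kx] [IsFractionRing R Kx]
variable (L : Type) [Field L] [Algebra Kx L] [Algebra R L] [IsScalarTower R Kx L]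

/-- The Gram determinant of the trace form on a family `b` of elements of `L`. -/
def gramDet {n : ℕ} (b : Fin n → L) : Kx :=
  (Matrix.of fun i j => Algebra.trace Kx L (b i * b j)).det

/-- Number of points of `Spec B'` over the point `ev : R → κ` of `Spec R`
(`κ` algebraically closed: this is the number of maximal ideals of `B'` over `ker ev`). -/
def numPts {κ : Type} [Field κ] (B' : Subalgebra R L) (ev : R →+* κ) : ℕ :=
  Nat.card {χ : B' →+* κ // ∀ r : R, χ (algebraMap R B' r) = ev r}

/-- (ALG-1) lower bound, ANY characteristic.  If the `𝔭`-adic order of the Gram determinant of an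
`R`-basis of an integral `R`-subalgebra `B'` of full rank is at most `n - #pts`, then `B'` is
integrally closed at `𝔭`: every integral element of `L` is in `B'` up to a denominator prime to `𝔭`.
(Proof: `B' ⊆ B ⊆ B^∨ ⊆ B'^∨`, `ord gram = 2 δ + Σ d_Q`, `d_Q ≥ e_Q - 1` (Mathlib
`pow_sub_one_dvd_differentIdeal`), `Σ e_Q = n`, `#Q - #pts ≤ δ`.) -/
def DiscLowerBound : Prop :=
  ∀ [FiniteDimensional Kx L] [Algebra.IsSeparable Kx L] (n : ℕ) (B' : Subalgebra R L)
    (b : Fin n → L), (∀ i, b i ∈ B') → (∀ y ∈ B', IsIntegral R y) →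
    LinearIndependent Kx b → Module.finrank Kx L = n →
    (∀ y ∈ B', ∃ c : Fin n → R, y = ∑ i, c i • b i) →
    ∀ (κ : Type) [Field κ] [IsAlgClosed κ] (ev : R →+* κ), Function.Surjective ev →
    ∀ (π : R), RingHom.ker ev = Ideal.span {π} →
    ∀ (d : R) (m : ℕ), algebraMap R Kx d = gramDet Kx L b → π ^ m ∣ d → ¬ π ^ (m + 1) ∣ d →
      n ≤ m + numPts R L B' ev ∧
      (m + numPts R L B' ev = n →
        ∀ y : L, IsIntegral R y → ∃ s : R, ev s ≠ 0 ∧ s • y ∈ B')

/-- (ALG-2) upper bound, TAME case (residue characteristic `0`).  For the integral closure `B` of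
`R` in `L` with `R`-basis `β`: the order of the Gram determinant at `𝔭` is at most `n - #pts`.
(Proof: `P ^ e ∤ different`: for `z ∈ B` a unit at `P` vanishing to order `e_{P'}` at the other
`P' ∣ 𝔭`, `Tr(z) ≡ e_P z(P) ≠ 0 mod 𝔭`.) -/
def DiscUpperTame : Prop :=
  ∀ [FiniteDimensional Kx L] [Algebra.IsSeparable Kx L] (n : ℕ)
    (β : Fin n → L), (∀ i, IsIntegral R (β i)) →
    LinearIndependent Kx β → Module.finrank Kx L = n →
    (∀ y : L, IsIntegral R y → ∃ c : Fin n → R, y = ∑ i, c i • β i) →
    ∀ (κ : Type) [Field κ] [IsAlgClosed κ] [CharZero κ] (ev : R →+* κ), Function.Surjective ev →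
    ∀ (π : R), RingHom.ker ev = Ideal.span {π} →
    ∀ (d : R) (m : ℕ), algebraMap R Kx d = gramDet Kx L β → π ^ m ∣ d →
      m + numPts R L (integralClosure R L) ev ≤ n

end

end Fermat.Agent.GoodRed
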