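import Fermat.Agent.Lib.GoodRed.Defs
import Fermat.Agent.Lib.GoodRed.AlgStatements

/-!
# Cluster B / GoodRed: the three REDUCTION steps (T), (L), (P) of the discriminant chain, as `Prop`s
Architect: helper37.  Blueprint: NOTES/blueprint-B-GoodRed.md, section 2.
ONLY definitions here.  Provers: `theorem ... : CharpolyRed M n` etc. (hypotheses: `DegData M n`, ...).

Conventions.  For `x : F` we use the base ring `R_x = Algebra.adjoin K {x}` (≅ `K[X]` when `x` is
transcendental), with fraction field `K⟮x⟯ = IntermediateField.adjoin K {x}`; Mathlib provides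
`Algebra R_x K⟮x⟯`, `IsFractionRing R_x K⟮x⟯` (scoped in `IntermediateField`), `Algebra R_x F`.
-/

set_option autoImplicit false

namespace Fermat.Agent.GoodRed

open Polynomial IntermediateField
open scoped IntermediateField.algebraAdjoinAdjoin

noncomputable section

variable {K k F Fk : Type} [Field K] [Field k] [Field F] [Field Fk] [Algebra K F] [Algebra k Fk]

/-- The generator `x` of `Algebra.adjoin K {x}`. -/
def genAdj (x : F) : Algebra.adjoin K {x} := ⟨x, Algebra.subset_adjoin (Set.mem_singleton x)⟩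

variable (K) in
/-- The element `x - c` of the base ring `Algebra.adjoin K {x}`. -/
def piAt (x : F) (c : K) : Algebra.adjoin K {x} :=
  genAdj x - algebraMap K (Algebra.adjoin K {x}) c

/-- `ev : Algebra.adjoin K {x} → K` is "evaluation at `x = c`". -/
def IsEvalAt (x : F) (c : K) (ev : Algebra.adjoin K {x} →+* K) : Prop :=
  ev (genAdj x) = c ∧ ∀ a : K, ev (algebraMap K (Algebra.adjoin K {x}) a) = a

namespace RedModel

variable (M : RedModel K k F Fk)

/-- `B₀ = O ∩ (integral closure of K[x] in F)`: the integral functions of the model. -/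
def B0 : Subring F := M.O.toSubring ⊓ (intCl K M.x).toSubring

/-- `B̄ = ρ(B₀) ⊆ Fk`, as a set. -/
def BbarSet : Set Fk := {y | ∃ f : M.O, (f : F) ∈ intCl K M.x ∧ M.rho f = y}

/-- `B̄ = ρ(B₀)` as a `k`-subalgebra of `Fk`. -/
def Bbar : Subalgebra k Fk where
  carrier := M.BbarSet
  mul_mem' := by
    rintro _ _ ⟨f, hf, rfl⟩ ⟨g, hg, rfl⟩
    exact ⟨f * g, (intCl K M.x).mul_mem hf hg, map_mul _ _ _⟩
  add_mem' := by
    rintro _ _ ⟨f, hf, rfl⟩ ⟨g, hg, rfl⟩
    exact ⟨f + g, (intCl K M.x).add_mem hf hg, map_add _ _ _⟩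
  algebraMap_mem' := by
    intro a
    obtain ⟨a', rfl⟩ := M.res_surj a
    exact ⟨⟨algebraMap K F a', M.map_mem a'⟩, (intCl K M.x).algebraMap_mem _, M.rho_map a'⟩

theorem mem_Bbar {y : Fk} :
    y ∈ M.Bbar ↔ ∃ f : M.O, (f : F) ∈ intCl K M.x ∧ M.rho f = y := Iff.rfl

theorem x_mem_intCl : M.x ∈ intCl K M.x := by
  have h : (algebraMap (Algebra.adjoin K {M.x}) F) (genAdj M.x) ∈
      integralClosure (Algebra.adjoin K {M.x}) F := Subalgebra.algebraMap_mem _ _
  exact h

theorem xbar_mem_Bbar : M.xbar ∈ M.Bbar :=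
  ⟨⟨M.x, M.x_mem⟩, M.x_mem_intCl, rfl⟩

end RedModel

/-- (T) CHARPOLY REDUCTION.  For `f ∈ B₀` the characteristic polynomial of multiplication by `f`
on `F / K(x)` has coefficients in `A[x]`, and it reduces to the characteristic polynomial of
multiplication by `ρ f` on `Fk / k(x̄)`.  `Φ` is a polynomial in `T` over `A[X]`; it is mapped
by `X ↦ x`, `A ⊆ K` resp. `X ↦ x̄`, `A → k`. -/
def CharpolyRed (M : RedModel K k F Fk) : Prop :=
  ∀ [FiniteDimensional K⟮M.x⟯ F] [FiniteDimensional k⟮M.xbar⟯ Fk],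
  ∀ f : M.O, (f : F) ∈ intCl K M.x →
    ∃ Φ : Polynomial (Polynomial M.A), Φ.Monic ∧
      Φ.map ((Polynomial.aeval (⟨M.x, mem_adjoin_simple_self K M.x⟩ : K⟮M.x⟯)).toRingHom.comp
          (Polynomial.mapRingHom M.A.subtype)) =
        LinearMap.charpoly (LinearMap.mulLeft K⟮M.x⟯ (f : F)) ∧
      Φ.map ((Polynomial.aeval (⟨M.xbar, mem_adjoin_simple_self k M.xbar⟩ : k⟮M.xbar⟯)).toRingHom.comp
          (Polynomial.mapRingHom M.res)) =
        LinearMap.charpoly (LinearMap.mulLeft k⟮M.xbar⟯ (M.rho f))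

/-- (B) `B̄` is contained in the integral closure of `k[x̄]` and is a free `k[x̄]`-module of
rank `n` spanning `Fk`: a basis `b̄`. -/
structure IsBbarBasis (M : RedModel K k F Fk) (n : ℕ) (bbar : Fin n → Fk) : Prop where
  mem : ∀ i, bbar i ∈ M.Bbar
  indep : LinearIndependent k⟮M.xbar⟯ bbar
  span : ∀ y ∈ M.Bbar, ∃ c : Fin n → Algebra.adjoin k {M.xbar}, y = ∑ i, c i • bbar i

/-- (L) LIFT STEP (uses `DiscUpperTame` in characteristic `0`).  There is a `k[x̄]`-basis `b̄` of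
`B̄` whose Gram determinant `d̄ ∈ k[x̄]` vanishes at `c̄` to order at most `n - #fibre(c)` when
`c ∈ S`, and does not vanish at `c̄` when no branch value reduces to `c̄`. -/
def LiftStep (M : RedModel K k F Fk) (n : ℕ) (BD : BranchData M n) : Prop :=
  ∃ bbar : Fin n → Fk, IsBbarBasis M n bbar ∧
    ∃ dbar : Algebra.adjoin k {M.xbar},
      algebraMap (Algebra.adjoin k {M.xbar}) k⟮M.xbar⟯ dbar = gramDet k⟮M.xbar⟯ Fk bbar ∧
      dbar ≠ 0 ∧
      ∀ (c : K) (hc : c ∈ M.A) (m : ℕ), piAt k M.xbar (M.res ⟨c, hc⟩) ^ m ∣ dbar →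
        (c ∈ BD.S → m + fibreCard K M.x c ≤ n) ∧
        ((∀ c' ∈ BD.S, ∀ hc' : c' ∈ M.A, M.res ⟨c', hc'⟩ ≠ M.res ⟨c, hc⟩) → m = 0)

/-- Number of `k`-points of `Spec B̄` over `x̄ = c̄`. -/
def numPtsBbar (M : RedModel K k F Fk) (cbar : k) : ℕ :=
  Nat.card {χ : M.Bbar →ₐ[k] k // χ ⟨M.xbar, M.xbar_mem_Bbar⟩ = cbar}

/-- (P) POINTS STEP.  Every point of `Spec B̄` over `c̄` is the reduction of a place over `c`:
`#pts(B̄, c̄) ≤ #fibre(c)` for every lift `c ∈ A` of `c̄`. -/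
def PointsStep (M : RedModel K k F Fk) : Prop :=
  ∀ (c : K) (hc : c ∈ M.A), numPtsBbar M (M.res ⟨c, hc⟩) ≤ fibreCard K M.x c

end

end Fermat.Agent.GoodRed
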