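import Mathlib
import Fermat.Agent.Lib.GoodRed.Steps

/-!
# Cluster B / GoodRed: the POINTS step (P) of the discriminant chain  (helper46)

`pointsStep : CharpolyRed M → DegData M n → PointsStep M` for algebraically closed `K`, `k`:
every `k`-point `χ` of `Spec B̄` over `c̄` is the reduction `χ_ψ` of a `K`-point `ψ` of
`Spec (intCl K x)` over `c` (for ANY lift `c ∈ A` of `c̄`), and `ψ ↦ χ_ψ` is a function, so
`#pts(B̄, c̄) ≤ #fibre(c)`.

Only the characteristic polynomials provided by `CharpolyRed` are used (Cayley–Hamilton, norms).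
-/

set_option autoImplicit false

namespace Fermat.Agent.GoodRed

open Polynomial IntermediateField
open scoped IntermediateField.algebraAdjoinAdjoin

noncomputable section

variable {K k F Fk : Type} [Field K] [Field k] [Field F] [Field Fk] [Algebra K F] [Algebra k Fk]

namespace RedModel

variable (M : RedModel K k F Fk)

/-- `O ∩ K = A`. -/
theorem pts_mem_A_of_algebraMap_mem {a : K} (h : algebraMap K F a ∈ M.O) : a ∈ M.A := by
  by_contra ha
  have ha0 : a ≠ 0 := fun h0 => ha (h0 ▸ M.A.zero_mem)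
  have hinv : a⁻¹ ∈ M.A := (M.A.mem_or_inv_mem a).resolve_left ha
  have hnu : ¬ IsUnit (⟨a⁻¹, hinv⟩ : M.A) := by
    intro hu
    obtain ⟨u, hu⟩ := hu
    have h1 : ((u⁻¹ : (M.A)ˣ) : M.A) * ⟨a⁻¹, hinv⟩ = 1 := by
      rw [← hu]; exact u.inv_mul
    have h2 : (((u⁻¹ : (M.A)ˣ) : M.A) : K) * a⁻¹ = 1 := by
      have := congrArg (Subtype.val) h1
      simpa using this
    have h3 : (((u⁻¹ : (M.A)ˣ) : M.A) : K) = a := by
      field_simp at h2
      exact h2
    exact ha (h3 ▸ ((u⁻¹ : (M.A)ˣ) : M.A).2)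
  have h0 : M.res ⟨a⁻¹, hinv⟩ = 0 := (M.res_eq_zero _).mpr hnu
  have h1 : M.rho ⟨algebraMap K F a⁻¹, M.map_mem ⟨a⁻¹, hinv⟩⟩ = 0 := by
    have := M.rho_map ⟨a⁻¹, hinv⟩
    rw [h0, map_zero] at this
    exact this
  have h2 : ¬ IsUnit (⟨algebraMap K F a⁻¹, M.map_mem ⟨a⁻¹, hinv⟩⟩ : M.O) :=
    (M.rho_eq_zero _).mp h1
  apply h2
  refine ⟨⟨⟨algebraMap K F a⁻¹, M.map_mem ⟨a⁻¹, hinv⟩⟩, ⟨algebraMap K F a, h⟩, ?_, ?_⟩, rfl⟩
  · apply Subtype.ext
    show algebraMap K F a⁻¹ * algebraMap K F a = 1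
    rw [← map_mul, inv_mul_cancel₀ ha0, map_one]
  · apply Subtype.ext
    show algebraMap K F a * algebraMap K F a⁻¹ = 1
    rw [← map_mul, mul_inv_cancel₀ ha0, map_one]

/-- The base parameter is transcendental over `K` (`K` algebraically closed). -/
theorem pts_x_transcendental [IsAlgClosed K] : Transcendental K M.x := by
  intro halg
  have hint : IsIntegral K M.x := halg.isIntegral
  have hdeg : (minpoly K M.x).degree = 1 :=
    IsAlgClosed.degree_eq_one_of_irreducible K (minpoly.irreducible hint)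
  obtain ⟨a, ha⟩ := minpoly.mem_range_of_degree_eq_one K M.x hdeg
  have hO : algebraMap K F a ∈ M.O := by rw [ha]; exact M.x_mem
  have hA : a ∈ M.A := M.pts_mem_A_of_algebraMap_mem hO
  have h1 : M.rho ⟨M.x, M.x_mem⟩ = algebraMap k Fk (M.res ⟨a, hA⟩) := by
    rw [← M.rho_map ⟨a, hA⟩]
    congr 1
    exact Subtype.ext ha.symm
  apply M.x_trans
  rw [h1]
  exact isAlgebraic_algebraMap _

end RedModel

section Core

variable (M : RedModel K k F Fk)

/-- `x` as an element of `K⟮x⟯`. -/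
def ptsXKx : K⟮M.x⟯ := ⟨M.x, mem_adjoin_simple_self K M.x⟩

/-- `p ↦ p(x)`, `K[X] → K⟮x⟯`. -/
def ptsEvKx : K[X] →+* K⟮M.x⟯ := (Polynomial.aeval (ptsXKx M)).toRingHom

/-- The map `A[X] → K⟮x⟯` used in `CharpolyRed`. -/
def ptsToKx : (M.A)[X] →+* K⟮M.x⟯ := (ptsEvKx M).comp (Polynomial.mapRingHom M.A.subtype)

theorem ptsEvKx_C (a : K) : ptsEvKx M (C a) = algebraMap K K⟮M.x⟯ a := by
  simp [ptsEvKx]

theorem ptsEvKx_X : ptsEvKx M X = ptsXKx M := by
  simp [ptsEvKx]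

theorem algebraMap_ptsEvKx (p : K[X]) :
    algebraMap K⟮M.x⟯ F (ptsEvKx M p) = Polynomial.aeval M.x p := by
  induction p using Polynomial.induction_on' with
  | add p q hp hq => rw [map_add, map_add, map_add, hp, hq]
  | monomial n a =>
    rw [← C_mul_X_pow_eq_monomial, map_mul, map_pow, ptsEvKx_C, ptsEvKx_X, map_mul, map_pow,
      map_mul, map_pow, aeval_C, aeval_X, ← IsScalarTower.algebraMap_apply]
    rfl

theorem ptsEvKx_injective [IsAlgClosed K] : Function.Injective (ptsEvKx M) := by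
  rw [injective_iff_map_eq_zero]
  intro p hp
  have h := congrArg (algebraMap K⟮M.x⟯ F) hp
  rw [algebraMap_ptsEvKx, map_zero] at h
  by_contra hne
  exact M.pts_x_transcendental ⟨p, hne, h⟩

/-- `y ∈ K⟮x⟯` is a polynomial in `x` whose value at `x = c` is `e`. -/
def PtsPolyVal (c : K) (y : K⟮M.x⟯) (e : K) : Prop :=
  ∃ p : K[X], ptsEvKx M p = y ∧ p.eval c = e

variable {M}

theorem PtsPolyVal.mul {c : K} {y y' : K⟮M.x⟯} {e e' : K} (h : PtsPolyVal M c y e)
    (h' : PtsPolyVal M c y' e') : PtsPolyVal M c (y * y') (e * e') := by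
  obtain ⟨p, rfl, rfl⟩ := h
  obtain ⟨q, rfl, rfl⟩ := h'
  exact ⟨p * q, map_mul _ _ _, eval_mul⟩

theorem PtsPolyVal.pow {c : K} {y : K⟮M.x⟯} {e : K} (h : PtsPolyVal M c y e) (m : ℕ) :
    PtsPolyVal M c (y ^ m) (e ^ m) := by
  obtain ⟨p, rfl, rfl⟩ := h
  exact ⟨p ^ m, map_pow _ _ _, eval_pow m⟩

theorem PtsPolyVal.const (c a : K) : PtsPolyVal M c (algebraMap K K⟮M.x⟯ a) a :=
  ⟨C a, ptsEvKx_C M a, eval_C⟩

theorem PtsPolyVal.unique [IsAlgClosed K] {c : K} {y : K⟮M.x⟯} {e e' : K}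
    (h : PtsPolyVal M c y e) (h' : PtsPolyVal M c y e') : e = e' := by
  obtain ⟨p, hp, rfl⟩ := h
  obtain ⟨q, hq, rfl⟩ := h'
  have : p = q := ptsEvKx_injective M (hp.trans hq.symm)
  rw [this]

variable (M)

/-- norm of `a - f` = value of the characteristic polynomial of `f` at `a`. -/
theorem pts_norm_sub [FiniteDimensional K⟮M.x⟯ F] (f : F) (a : K⟮M.x⟯) :
    Algebra.norm K⟮M.x⟯ (algebraMap K⟮M.x⟯ F a - f) =
      (LinearMap.charpoly (LinearMap.mulLeft K⟮M.x⟯ f)).eval a := by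
  rw [LinearMap.eval_charpoly, Algebra.norm_apply]
  congr 1
  ext b
  simp [Algebra.smul_def]

/-- The specialisation `A[X] → A`, `X ↦ c`. -/
def ptsEvA (c : K) (hc : c ∈ M.A) : (M.A)[X] →+* M.A := Polynomial.evalRingHom ⟨c, hc⟩

theorem pts_evalRingHom_comp (c : K) (hc : c ∈ M.A) :
    (Polynomial.evalRingHom c).comp (Polynomial.mapRingHom M.A.subtype) =
      (M.A.subtype : M.A →+* K).comp (ptsEvA M c hc) := by
  apply Polynomial.ringHom_ext
  · intro a
    simp [ptsEvA]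
  · simp [ptsEvA]

/-- The specialised characteristic polynomial `Φ(c, T) ∈ K[T]`. -/
def ptsSpec (c : K) (hc : c ∈ M.A) (Φ : Polynomial (Polynomial M.A)) : K[X] :=
  (Φ.map (ptsEvA M c hc)).map (M.A.subtype : M.A →+* K)

theorem ptsSpec_monic (c : K) (hc : c ∈ M.A) {Φ : Polynomial (Polynomial M.A)} (hΦ : Φ.Monic) :
    (ptsSpec M c hc Φ).Monic := (hΦ.map _).map _

theorem ptsSpec_eq (c : K) (hc : c ∈ M.A) (Φ : Polynomial (Polynomial M.A)) :
    ptsSpec M c hc Φ = (Φ.map (Polynomial.mapRingHom M.A.subtype)).map (Polynomial.evalRingHom c) := by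
  rw [ptsSpec, Polynomial.map_map, Polynomial.map_map, pts_evalRingHom_comp]

theorem pts_hom_eval {S S' : Type} [CommRing S] [CommRing S'] (φ : S →+* S') (P : S[X]) (a : S) :
    (P.map φ).eval (φ a) = φ (P.eval a) := by
  rw [Polynomial.eval_map, Polynomial.eval₂_at_apply]

/-- Value of the characteristic polynomial at a polynomial point. -/
theorem pts_polyVal_charpoly (c : K) (hc : c ∈ M.A) (Φ : Polynomial (Polynomial M.A))
    (α : K[X]) :
    PtsPolyVal M c ((Φ.map (ptsToKx M)).eval (ptsEvKx M α)) ((ptsSpec M c hc Φ).eval (α.eval c)) := by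
  refine ⟨(Φ.map (Polynomial.mapRingHom M.A.subtype)).eval α, ?_, ?_⟩
  · rw [ptsToKx, ← Polynomial.map_map]
    exact (pts_hom_eval (ptsEvKx M) _ α).symm
  · rw [ptsSpec_eq]
    exact (pts_hom_eval (Polynomial.evalRingHom c) _ α).symm

end Core

section General

/-- Cayley–Hamilton at a point: if `Φ(x, T)` is the characteristic polynomial of `f` over `L(x)`,
`S ∋ x, f` a subalgebra and `ψ : S → Q` an `L`-algebra homomorphism with `ψ x = c₀ ∈ L`, then
`Φ(c₀, ψ f) = 0`. -/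
theorem pts_aeval_at_point {R₀ L E Q : Type} [CommRing R₀] [Field L] [Field E] [Algebra L E]
    [CommRing Q] [Algebra L Q]
    (g : R₀ →+* L) (x f : E) [FiniteDimensional L⟮x⟯ E] (S : Subalgebra L E) (hx : x ∈ S)
    (hf : f ∈ S) (Φ : Polynomial (Polynomial R₀))
    (hΦ : Φ.map ((Polynomial.aeval (⟨x, mem_adjoin_simple_self L x⟩ : L⟮x⟯)).toRingHom.comp
          (Polynomial.mapRingHom g)) = LinearMap.charpoly (LinearMap.mulLeft L⟮x⟯ f))
    (ψ : S →ₐ[L] Q) (c₀ : L) (hψ : ψ ⟨x, hx⟩ = algebraMap L Q c₀) :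
    Polynomial.aeval (ψ ⟨f, hf⟩)
      ((Φ.map (Polynomial.mapRingHom g)).map (Polynomial.evalRingHom c₀)) = 0 := by
  set h : Polynomial R₀ →+* L⟮x⟯ :=
    (Polynomial.aeval (⟨x, mem_adjoin_simple_self L x⟩ : L⟮x⟯)).toRingHom.comp
      (Polynomial.mapRingHom g) with hh
  have h1 : Polynomial.aeval f (LinearMap.charpoly (LinearMap.mulLeft L⟮x⟯ f)) = 0 :=
    Algebra.aeval_self_charpoly_lmul (R := L⟮x⟯) f
  rw [← hΦ, Polynomial.aeval_def, Polynomial.eval₂_map] at h1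
  set θ : Polynomial R₀ →+* S :=
    (Polynomial.aeval (⟨x, hx⟩ : S)).toRingHom.comp (Polynomial.mapRingHom g) with hθ
  have hθ' : (S.val : S →+* E).comp θ = (algebraMap L⟮x⟯ E).comp h := by
    apply Polynomial.ringHom_ext
    · intro a
      simp only [hθ, hh, RingHom.coe_comp, Function.comp_apply, Polynomial.coe_mapRingHom,
        Polynomial.map_C, AlgHom.toRingHom_eq_coe, RingHom.coe_coe, Polynomial.aeval_C]
      rfl
    · simp only [hθ, hh, RingHom.coe_comp, Function.comp_apply, Polynomial.coe_mapRingHom,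
        Polynomial.map_X, AlgHom.toRingHom_eq_coe, RingHom.coe_coe, Polynomial.aeval_X]
      rfl
  have h2 : Polynomial.eval₂ θ (⟨f, hf⟩ : S) Φ = 0 := by
    apply Subtype.ext
    have := Polynomial.hom_eval₂ Φ θ (S.val : S →+* E) (⟨f, hf⟩ : S)
    rw [hθ'] at this
    exact this.trans h1
  have h3 := congrArg (ψ : S →+* Q) h2
  rw [Polynomial.hom_eval₂, map_zero] at h3
  have hψθ : (ψ : S →+* Q).comp θ =
      (algebraMap L Q).comp ((Polynomial.evalRingHom c₀).comp (Polynomial.mapRingHom g)) := by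
    apply Polynomial.ringHom_ext
    · intro a
      simp only [hθ, RingHom.coe_comp, Function.comp_apply, Polynomial.coe_mapRingHom,
        Polynomial.map_C, AlgHom.toRingHom_eq_coe, RingHom.coe_coe, Polynomial.aeval_C,
        Polynomial.coe_evalRingHom, Polynomial.eval_C, AlgHom.commutes]
    · simp only [hθ, RingHom.coe_comp, Function.comp_apply, Polynomial.coe_mapRingHom,
        Polynomial.map_X, AlgHom.toRingHom_eq_coe, RingHom.coe_coe, Polynomial.aeval_X,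
        Polynomial.coe_evalRingHom, Polynomial.eval_X]
      exact hψ
  rw [hψθ] at h3
  rw [Polynomial.aeval_def, Polynomial.eval₂_map, Polynomial.eval₂_map]
  exact h3

theorem pts_eval_at_point {R₀ L E : Type} [CommRing R₀] [Field L] [Field E] [Algebra L E]
    (g : R₀ →+* L) (x f : E) [FiniteDimensional L⟮x⟯ E] (S : Subalgebra L E) (hx : x ∈ S)
    (hf : f ∈ S) (Φ : Polynomial (Polynomial R₀))
    (hΦ : Φ.map ((Polynomial.aeval (⟨x, mem_adjoin_simple_self L x⟩ : L⟮x⟯)).toRingHom.comp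
          (Polynomial.mapRingHom g)) = LinearMap.charpoly (LinearMap.mulLeft L⟮x⟯ f))
    (ψ : S →ₐ[L] L) :
    ((Φ.map (Polynomial.mapRingHom g)).map (Polynomial.evalRingHom (ψ ⟨x, hx⟩))).eval
      (ψ ⟨f, hf⟩) = 0 := by
  have := pts_aeval_at_point g x f S hx hf Φ hΦ ψ (ψ ⟨x, hx⟩) rfl
  rwa [Polynomial.coe_aeval_eq_eval] at this

theorem pts_evalRingHom_comp_map {R S : Type} [CommRing R] [CommRing S] (g : R →+* S) (a : R) :
    (Polynomial.evalRingHom (g a)).comp (Polynomial.mapRingHom g) =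
      g.comp (Polynomial.evalRingHom a) := by
  apply Polynomial.ringHom_ext
  · intro b
    simp
  · simp

end General

section Key

variable (M : RedModel K k F Fk)

/-- The map `A[X] → k⟮x̄⟯` used in `CharpolyRed`. -/
def ptsTokx : (M.A)[X] →+* k⟮M.xbar⟯ :=
  (Polynomial.aeval (⟨M.xbar, mem_adjoin_simple_self k M.xbar⟩ : k⟮M.xbar⟯)).toRingHom.comp
    (Polynomial.mapRingHom M.res)

/-- The data provided by `CharpolyRed` for one element `f`. -/
structure PtsData [FiniteDimensional K⟮M.x⟯ F] [FiniteDimensional k⟮M.xbar⟯ Fk] (f : M.O)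
    (Φ : Polynomial (Polynomial M.A)) : Prop where
  monic : Φ.Monic
  hK : Φ.map (ptsToKx M) = LinearMap.charpoly (LinearMap.mulLeft K⟮M.x⟯ (f : F))
  hk : Φ.map (ptsTokx M) = LinearMap.charpoly (LinearMap.mulLeft k⟮M.xbar⟯ (M.rho f))

variable {M}

theorem CharpolyRed.exists_ptsData [FiniteDimensional K⟮M.x⟯ F] [FiniteDimensional k⟮M.xbar⟯ Fk]
    (hT : CharpolyRed M) (f : M.O) (hf : (f : F) ∈ intCl K M.x) :
    ∃ Φ, PtsData M f Φ := by
  obtain ⟨Φ, h1, h2, h3⟩ := hT f hf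
  exact ⟨Φ, h1, h2, h3⟩

variable [FiniteDimensional K⟮M.x⟯ F] [FiniteDimensional k⟮M.xbar⟯ Fk]

/-- (D1) the value of an integral function at a point over `c` is a root of `Φ(c, T)`. -/
theorem PtsData.eval_point {f : M.O} {Φ : Polynomial (Polynomial M.A)} (h : PtsData M f Φ)
    (hf : (f : F) ∈ intCl K M.x) (c : K) (hc : c ∈ M.A)
    (ψ : intCl K M.x →ₐ[K] K) (hψ : ψ ⟨M.x, M.x_mem_intCl⟩ = c) :
    (ptsSpec M c hc Φ).eval (ψ ⟨f, hf⟩) = 0 := by
  have := pts_eval_at_point (M.A.subtype : M.A →+* K) M.x (f : F) (intCl K M.x) M.x_mem_intCl hf Φ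
    h.hK ψ
  rw [hψ] at this
  rw [ptsSpec_eq]
  exact this

/-- (D1') the same with values in a `K`-algebra. -/
theorem PtsData.aeval_point {f : M.O} {Φ : Polynomial (Polynomial M.A)} (h : PtsData M f Φ)
    (hf : (f : F) ∈ intCl K M.x) (c : K) (hc : c ∈ M.A) {Q : Type} [CommRing Q] [Algebra K Q]
    (ψ : intCl K M.x →ₐ[K] Q) (hψ : ψ ⟨M.x, M.x_mem_intCl⟩ = algebraMap K Q c) :
    Polynomial.aeval (ψ ⟨f, hf⟩) (ptsSpec M c hc Φ) = 0 := by
  have := pts_aeval_at_point (M.A.subtype : M.A →+* K) M.x (f : F) (intCl K M.x) M.x_mem_intCl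
    hf Φ h.hK ψ c hψ
  rw [ptsSpec_eq]
  exact this

/-- (D2) the value of a reduced integral function at a point over `c̄` is a root of `Φ̄(c̄, T)`. -/
theorem PtsData.eval_point_bar {f : M.O} {Φ : Polynomial (Polynomial M.A)} (h : PtsData M f Φ)
    (hf : (f : F) ∈ intCl K M.x) (c : K) (hc : c ∈ M.A)
    (χ : M.Bbar →ₐ[k] k) (hχ : χ ⟨M.xbar, M.xbar_mem_Bbar⟩ = M.res ⟨c, hc⟩) :
    ((Φ.map (ptsEvA M c hc)).map M.res).eval (χ ⟨M.rho f, ⟨f, hf, rfl⟩⟩) = 0 := by
  have := pts_eval_at_point M.res M.xbar (M.rho f) M.Bbar M.xbar_mem_Bbar ⟨f, hf, rfl⟩ Φ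
    h.hk χ
  rw [hχ, Polynomial.map_map, pts_evalRingHom_comp_map, ← Polynomial.map_map] at this
  exact this

/-- The value of an integral function of the model at a point over `c ∈ A` lies in `A`. -/
theorem PtsData.point_mem_A {f : M.O} {Φ : Polynomial (Polynomial M.A)} (h : PtsData M f Φ)
    (hf : (f : F) ∈ intCl K M.x) (c : K) (hc : c ∈ M.A)
    (ψ : intCl K M.x →ₐ[K] K) (hψ : ψ ⟨M.x, M.x_mem_intCl⟩ = c) :
    ψ ⟨f, hf⟩ ∈ M.A := by
  have h1 := h.eval_point hf c hc ψ hψ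
  have hint : IsIntegral M.A (ψ ⟨f, hf⟩) := by
    refine ⟨Φ.map (ptsEvA M c hc), h.monic.map _, ?_⟩
    rw [ptsSpec, Polynomial.eval_map] at h1
    exact h1
  obtain ⟨y, hy⟩ := IsIntegrallyClosed.isIntegral_iff.mp hint
  rw [← hy]
  exact y.2

/-- Scaling: every integral function is `c'⁻¹ •` an integral function of the model. -/
theorem pts_exists_scale (M : RedModel K k F Fk) (b : F) (hb : b ∈ intCl K M.x) :
    ∃ (c' : K) (b₀ : M.O), c' ≠ 0 ∧ (b₀ : F) ∈ intCl K M.x ∧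
      b = algebraMap K F c'⁻¹ * (b₀ : F) := by
  by_cases hb0 : b = 0
  · exact ⟨1, 0, one_ne_zero, (intCl K M.x).zero_mem, by simp [hb0]⟩
  · obtain ⟨c', hc', hmem, -⟩ := M.val b hb0
    refine ⟨c', ⟨_, hmem⟩, hc', ?_, ?_⟩
    · exact (intCl K M.x).mul_mem ((intCl K M.x).algebraMap_mem c') hb
    · show b = algebraMap K F c'⁻¹ * (algebraMap K F c' * b)
      rw [← mul_assoc, ← map_mul, inv_mul_cancel₀ hc', map_one, one_mul]

theorem pts_norm_neg (M : RedModel K k F Fk) [FiniteDimensional K⟮M.x⟯ F] (z : F) :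
    Algebra.norm K⟮M.x⟯ (-z) =
      (algebraMap K K⟮M.x⟯ (-1)) ^ Module.finrank K⟮M.x⟯ F * Algebra.norm K⟮M.x⟯ z := by
  have h : -z = algebraMap K⟮M.x⟯ F (algebraMap K K⟮M.x⟯ (-1)) * z := by
    rw [map_neg, map_neg, map_one, map_one, neg_one_mul]
  rw [h, map_mul, Algebra.norm_algebraMap]

/-- (N-α) the norm of `α(x) - b₀` is a polynomial in `x` with value `Φ(c, α(c))` at `c`. -/
theorem PtsData.polyVal_norm_sub {f : M.O} {Φ : Polynomial (Polynomial M.A)} (h : PtsData M f Φ)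
    (c : K) (hc : c ∈ M.A) (α : K[X]) :
    PtsPolyVal M c (Algebra.norm K⟮M.x⟯ (algebraMap K⟮M.x⟯ F (ptsEvKx M α) - (f : F)))
      ((ptsSpec M c hc Φ).eval (α.eval c)) := by
  rw [pts_norm_sub, ← h.hK]
  exact pts_polyVal_charpoly M c hc Φ α

/-- (N2) the norm of an integral function is a polynomial in `x`. -/
theorem pts_polyVal_norm (hT : CharpolyRed M) (c : K) (hc : c ∈ M.A) (b : F)
    (hb : b ∈ intCl K M.x) :
    ∃ e : K, PtsPolyVal M c (Algebra.norm K⟮M.x⟯ b) e := by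
  obtain ⟨c', b₀, hc', hb₀, rfl⟩ := pts_exists_scale M b hb
  obtain ⟨Φ, hΦ⟩ := hT.exists_ptsData b₀ hb₀
  have h1 := hΦ.polyVal_norm_sub c hc 0
  rw [map_zero, map_zero, zero_sub, pts_norm_neg] at h1
  have h2 : PtsPolyVal M c ((algebraMap K K⟮M.x⟯ (-1)) ^ Module.finrank K⟮M.x⟯ F)
      ((-1) ^ Module.finrank K⟮M.x⟯ F) := (PtsPolyVal.const c (-1)).pow _
  have h3 := h2.mul h1
  have h4 : ((algebraMap K K⟮M.x⟯ (-1)) ^ Module.finrank K⟮M.x⟯ F) *
      ((algebraMap K K⟮M.x⟯ (-1)) ^ Module.finrank K⟮M.x⟯ F * Algebra.norm K⟮M.x⟯ (b₀ : F)) =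
      Algebra.norm K⟮M.x⟯ (b₀ : F) := by
    rw [← mul_assoc, ← mul_pow, ← map_mul]
    simp
  rw [h4] at h3
  have h5 : PtsPolyVal M c (Algebra.norm K⟮M.x⟯ (algebraMap K F c'⁻¹))
      (c'⁻¹ ^ Module.finrank K⟮M.x⟯ F) := by
    rw [IsScalarTower.algebraMap_apply K K⟮M.x⟯ F, Algebra.norm_algebraMap]
    exact (PtsPolyVal.const c c'⁻¹).pow _
  exact ⟨_, by rw [map_mul]; exact h5.mul h3⟩

/-- (N1) if `t` is a root of `Φ(c, T)` then the norm of `f - t` vanishes at `c`. -/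
theorem PtsData.polyVal_norm_sub_const {f : M.O} {Φ : Polynomial (Polynomial M.A)}
    (h : PtsData M f Φ) (c : K) (hc : c ∈ M.A) (t : K) (ht : (ptsSpec M c hc Φ).eval t = 0) :
    PtsPolyVal M c (Algebra.norm K⟮M.x⟯ ((f : F) - algebraMap K F t)) 0 := by
  have h1 := h.polyVal_norm_sub c hc (C t)
  rw [Polynomial.eval_C, ht, ptsEvKx_C, ← IsScalarTower.algebraMap_apply K K⟮M.x⟯ F] at h1
  have h2 : (f : F) - algebraMap K F t = -(algebraMap K F t - (f : F)) := by ring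
  rw [h2, pts_norm_neg]
  have h3 := ((PtsPolyVal.const (M := M) c (-1)).pow (Module.finrank K⟮M.x⟯ F)).mul h1
  rwa [mul_zero] at h3

theorem pts_reverse_map_of_monic {S S' : Type} [CommRing S] [CommRing S'] [Nontrivial S']
    (e : S →+* S') {P : S[X]} (hP : P.Monic) : (P.map e).reverse = P.reverse.map e := by
  rw [Polynomial.reverse, Polynomial.reverse, hP.natDegree_map, Polynomial.reflect_map]

theorem pts_pow_mul_eval_inv {L : Type} [Field L] (P : L[X]) {a : L} (ha : a ≠ 0) :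
    a ^ P.natDegree * P.eval a⁻¹ = P.reverse.eval a := by
  let _ : Invertible (a⁻¹) := invertibleOfNonzero (inv_ne_zero ha)
  have h := Polynomial.eval₂_reverse_mul_pow (RingHom.id L) (a⁻¹) P
  rw [invOf_eq_inv, inv_inv] at h
  rw [← Polynomial.eval, ← Polynomial.eval] at h
  rw [← h, mul_comm (a ^ P.natDegree), mul_assoc, ← mul_pow, inv_mul_cancel₀ ha, one_pow,
    mul_one]

/-- (N3) the norm of `1 - (x - c) u` is a polynomial in `x` with value `1` at `c`. -/
theorem pts_polyVal_norm_one_sub [IsAlgClosed K] (hT : CharpolyRed M) (c : K)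
    (u : F) (hu : u ∈ intCl K M.x) :
    PtsPolyVal M c (Algebra.norm K⟮M.x⟯ (1 - (M.x - algebraMap K F c) * u)) 1 := by
  obtain ⟨c', u₀, hc', hu₀, rfl⟩ := pts_exists_scale M u hu
  obtain ⟨Φ, hΦ⟩ := hT.exists_ptsData u₀ hu₀
  set α : K[X] := (X - C c) * C c'⁻¹ with hα
  have hαc : α.eval c = 0 := by simp [hα]
  have hα0 : α ≠ 0 :=
    mul_ne_zero (Polynomial.X_sub_C_ne_zero c) (by simpa using hc')
  set a : K⟮M.x⟯ := ptsEvKx M α with ha
  have ha0 : a ≠ 0 := fun h => hα0 (ptsEvKx_injective M (h.trans (map_zero _).symm))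
  have hmul : (M.x - algebraMap K F c) * (algebraMap K F c'⁻¹ * (u₀ : F)) =
      algebraMap K⟮M.x⟯ F a * (u₀ : F) := by
    rw [ha, algebraMap_ptsEvKx, hα, map_mul, map_sub, Polynomial.aeval_X, Polynomial.aeval_C,
      Polynomial.aeval_C, mul_assoc]
  have hfac : 1 - algebraMap K⟮M.x⟯ F a * (u₀ : F) =
      algebraMap K⟮M.x⟯ F a * (algebraMap K⟮M.x⟯ F a⁻¹ - (u₀ : F)) := by
    rw [mul_sub, ← map_mul, mul_inv_cancel₀ ha0, map_one]
  rw [hmul, hfac, map_mul, Algebra.norm_algebraMap, pts_norm_sub]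
  have hnd : (LinearMap.charpoly (LinearMap.mulLeft K⟮M.x⟯ (u₀ : F))).natDegree =
      Module.finrank K⟮M.x⟯ F := LinearMap.charpoly_natDegree _
  rw [← hnd, pts_pow_mul_eval_inv _ ha0, ← hΦ.hK, ptsToKx, ← Polynomial.map_map,
    pts_reverse_map_of_monic _ (hΦ.monic.map _)]
  refine ⟨(Φ.map (Polynomial.mapRingHom M.A.subtype)).reverse.eval α, ?_, ?_⟩
  · exact (pts_hom_eval (ptsEvKx M) _ α).symm
  · have h1 := pts_hom_eval (Polynomial.evalRingHom c)
      (Φ.map (Polynomial.mapRingHom M.A.subtype)).reverse α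
    rw [Polynomial.coe_evalRingHom] at h1
    rw [← h1, hαc, ← Polynomial.coeff_zero_eq_eval_zero, Polynomial.coeff_map,
      Polynomial.coeff_zero_reverse, (hΦ.monic.map _).leadingCoeff]
    simp

/-- If `t` is a root of `Φ(c, T)`, the ideal `(x - c, f - t)` of the integral closure is proper
(norm argument). -/
theorem PtsData.span_ne_top [IsAlgClosed K] (hT : CharpolyRed M) {f : M.O}
    {Φ : Polynomial (Polynomial M.A)} (h : PtsData M f Φ) (hf : (f : F) ∈ intCl K M.x)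
    (c : K) (hc : c ∈ M.A) (t : K) (ht : (ptsSpec M c hc Φ).eval t = 0) :
    Ideal.span {(⟨M.x, M.x_mem_intCl⟩ : intCl K M.x) - algebraMap K (intCl K M.x) c,
      (⟨f, hf⟩ : intCl K M.x) - algebraMap K (intCl K M.x) t} ≠ ⊤ := by
  intro htop
  have h1 : (1 : intCl K M.x) ∈ Ideal.span
      {(⟨M.x, M.x_mem_intCl⟩ : intCl K M.x) - algebraMap K (intCl K M.x) c,
        (⟨f, hf⟩ : intCl K M.x) - algebraMap K (intCl K M.x) t} := by
    rw [htop]; trivial
  obtain ⟨u, v, huv⟩ := Ideal.mem_span_pair.mp h1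
  have hF : (v : F) * ((f : F) - algebraMap K F t) =
      1 - (M.x - algebraMap K F c) * (u : F) := by
    have h2 := congrArg (fun z : intCl K M.x => (z : F)) huv
    simp only [Subalgebra.coe_add, Subalgebra.coe_mul, Subalgebra.coe_sub,
      Subalgebra.coe_algebraMap, Subalgebra.coe_one] at h2
    linear_combination h2
  obtain ⟨e, he⟩ := pts_polyVal_norm hT c hc (v : F) v.2
  have h2 := h.polyVal_norm_sub_const c hc t ht
  have h3 := he.mul h2
  rw [← map_mul, hF] at h3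
  have h4 := pts_polyVal_norm_one_sub hT c (u : F) u.2
  have h5 := h3.unique h4
  simp at h5

/-- KEY: every root `t` of `Φ(c, T)` is the value of `f` at a point over `c`. -/
theorem PtsData.exists_point [IsAlgClosed K] (hT : CharpolyRed M) {f : M.O}
    {Φ : Polynomial (Polynomial M.A)} (h : PtsData M f Φ) (hf : (f : F) ∈ intCl K M.x)
    (c : K) (hc : c ∈ M.A) (t : K) (ht : (ptsSpec M c hc Φ).eval t = 0) :
    ∃ ψ : intCl K M.x →ₐ[K] K, ψ ⟨M.x, M.x_mem_intCl⟩ = c ∧ ψ ⟨f, hf⟩ = t := by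
  obtain ⟨P, hPmax, hle⟩ := Ideal.exists_le_maximal _ (h.span_ne_top hT hf c hc t ht)
  have := hPmax
  have hxP : Ideal.Quotient.mkₐ K P (⟨M.x, M.x_mem_intCl⟩ : intCl K M.x) =
      algebraMap K (intCl K M.x ⧸ P) c := by
    show Ideal.Quotient.mk P _ = Ideal.Quotient.mk P (algebraMap K (intCl K M.x) c)
    rw [Ideal.Quotient.mk_eq_mk_iff_sub_mem]
    exact hle (Ideal.subset_span (by simp))
  have hfP : Ideal.Quotient.mkₐ K P (⟨f, hf⟩ : intCl K M.x) =
      algebraMap K (intCl K M.x ⧸ P) t := by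
    show Ideal.Quotient.mk P _ = Ideal.Quotient.mk P (algebraMap K (intCl K M.x) t)
    rw [Ideal.Quotient.mk_eq_mk_iff_sub_mem]
    exact hle (Ideal.subset_span (by simp))
  have : Algebra.IsIntegral K (intCl K M.x ⧸ P) := by
    refine ⟨fun q => ?_⟩
    obtain ⟨b, rfl⟩ := Ideal.Quotient.mk_surjective q
    obtain ⟨c', b₀, -, hb₀, hb⟩ := pts_exists_scale M (b : F) b.2
    obtain ⟨Φ₀, hΦ₀⟩ := hT.exists_ptsData b₀ hb₀
    have hb' : b = c'⁻¹ • (⟨b₀, hb₀⟩ : intCl K M.x) := by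
      apply Subtype.ext
      rw [hb, Algebra.smul_def]
      rfl
    have hint : IsIntegral K (Ideal.Quotient.mkₐ K P (⟨b₀, hb₀⟩ : intCl K M.x)) := by
      refine ⟨ptsSpec M c hc Φ₀, ptsSpec_monic M c hc hΦ₀.monic, ?_⟩
      rw [← Polynomial.aeval_def]
      exact hΦ₀.aeval_point hb₀ c hc _ hxP
    have : Ideal.Quotient.mk P b = c'⁻¹ • Ideal.Quotient.mkₐ K P (⟨b₀, hb₀⟩ : intCl K M.x) := by
      rw [hb']
      rfl
    rw [this]
    exact hint.smul _
  have hbij := IsAlgClosed.algebraMap_bijective_of_isIntegral (k := K)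
    (K := intCl K M.x ⧸ P)
  let e : K ≃ₐ[K] (intCl K M.x ⧸ P) := AlgEquiv.ofBijective (Algebra.ofId K _) hbij
  refine ⟨(e.symm.toAlgHom).comp (Ideal.Quotient.mkₐ K P), ?_, ?_⟩
  · show e.symm (Ideal.Quotient.mkₐ K P _) = c
    rw [hxP, AlgEquiv.commutes]
    rfl
  · show e.symm (Ideal.Quotient.mkₐ K P _) = t
    rw [hfP, AlgEquiv.commutes]
    rfl

theorem PtsData.natDegree_spec {f : M.O} {Φ : Polynomial (Polynomial M.A)} (h : PtsData M f Φ)
    (c : K) (hc : c ∈ M.A) :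
    (ptsSpec M c hc Φ).natDegree = Module.finrank K⟮M.x⟯ F := by
  have h1 : (ptsSpec M c hc Φ).natDegree = Φ.natDegree := by
    rw [ptsSpec, (h.monic.map _).natDegree_map, h.monic.natDegree_map]
  have h2 : (Φ.map (ptsToKx M)).natDegree = Φ.natDegree := h.monic.natDegree_map _
  rw [h1, ← h2, h.hK]
  exact LinearMap.charpoly_natDegree _

/-- There are at most `[F : K(x)]` points over `c`. -/
theorem pts_not_injective [IsAlgClosed K] (hT : CharpolyRed M) (c : K) (hc : c ∈ M.A)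
    (ψ : Fin (Module.finrank K⟮M.x⟯ F + 1) → (intCl K M.x →ₐ[K] K))
    (hψ : ∀ i, ψ i ⟨M.x, M.x_mem_intCl⟩ = c) : ¬ Function.Injective ψ := by
  classical
  intro hinj
  set I : Fin (Module.finrank K⟮M.x⟯ F + 1) → Ideal (intCl K M.x) :=
    fun i => RingHom.ker (ψ i : intCl K M.x →+* K) with hI
  have hsurj : ∀ i, Function.Surjective (ψ i : intCl K M.x →+* K) := fun i a =>
    ⟨algebraMap K _ a, (ψ i).commutes a⟩
  have hmax : ∀ i, (I i).IsMaximal := fun i => RingHom.ker_isMaximal_of_surjective _ (hsurj i)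
  have hmem : ∀ i (b : intCl K M.x), b - algebraMap K _ (ψ i b) ∈ I i := by
    intro i b
    rw [hI, RingHom.mem_ker]
    show (ψ i) (b - algebraMap K _ (ψ i b)) = 0
    rw [map_sub, AlgHom.commutes]
    exact sub_self _
  have hne : ∀ i j, i ≠ j → I i ≠ I j := by
    intro i j hij hIij
    apply hij
    apply hinj
    apply AlgHom.ext
    intro b
    have h1 := hmem i b
    rw [hIij, hI, RingHom.mem_ker] at h1
    have h2 : (ψ j) (b - algebraMap K _ (ψ i b)) = 0 := h1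
    rw [map_sub, AlgHom.commutes, sub_eq_zero] at h2
    exact h2.symm
  have hcop : Pairwise (Function.onFun IsCoprime I) := fun i j hij =>
    Ideal.isCoprime_iff_sup_eq.mpr ((hmax i).coprime_of_ne (hmax j) (hne i j hij))
  have : Infinite K := IsAlgClosed.instInfinite
  set a : Fin (Module.finrank K⟮M.x⟯ F + 1) → K := fun i => Infinite.natEmbedding K i with ha
  have hainj : Function.Injective a := fun i j hij =>
    Fin.ext ((Infinite.natEmbedding K).injective hij)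
  obtain ⟨b, hb⟩ := Ideal.exists_forall_sub_mem_ideal hcop (fun i => algebraMap K _ (a i))
  have hval : ∀ i, ψ i b = a i := by
    intro i
    have h1 := hb i
    rw [hI, RingHom.mem_ker] at h1
    have h2 : (ψ i) (b - algebraMap K _ (a i)) = 0 := h1
    rw [map_sub, AlgHom.commutes, sub_eq_zero] at h2
    exact h2
  obtain ⟨c', b₀, hc', hb₀, hbeq⟩ := pts_exists_scale M (b : F) b.2
  obtain ⟨Φ, hΦ⟩ := hT.exists_ptsData b₀ hb₀
  have hb0 : (⟨b₀, hb₀⟩ : intCl K M.x) = c' • b := by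
    apply Subtype.ext
    show (b₀ : F) = c' • (b : F)
    rw [hbeq, Algebra.smul_def, ← mul_assoc, ← map_mul, mul_inv_cancel₀ hc', map_one, one_mul]
  have hval0 : ∀ i, ψ i ⟨b₀, hb₀⟩ = c' * a i := by
    intro i
    rw [hb0, map_smul, hval, smul_eq_mul]
  have hp0 : ptsSpec M c hc Φ ≠ 0 := (ptsSpec_monic M c hc hΦ.monic).ne_zero
  have hsub : (Finset.univ.image (fun i => c' * a i)).val ⊆ (ptsSpec M c hc Φ).roots := by
    intro t ht
    rw [Finset.mem_val, Finset.mem_image] at ht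
    obtain ⟨i, -, rfl⟩ := ht
    rw [Polynomial.mem_roots hp0, Polynomial.IsRoot, ← hval0 i]
    exact hΦ.eval_point hb₀ c hc (ψ i) (hψ i)
  have hcard := Polynomial.card_le_degree_of_subset_roots hsub
  rw [hΦ.natDegree_spec c hc, Finset.card_image_of_injective _
    (fun i j hij => hainj (mul_left_cancel₀ hc' hij)), Finset.card_univ, Fintype.card_fin] at hcard
  omega

theorem pts_finite_fibre [IsAlgClosed K] (hT : CharpolyRed M) (c : K) (hc : c ∈ M.A) :
    Finite {ψ : intCl K M.x →ₐ[K] K // ∀ h : M.x ∈ intCl K M.x, ψ ⟨M.x, h⟩ = c} := by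
  by_contra hinf
  rw [not_finite_iff_infinite] at hinf
  set emb := Infinite.natEmbedding
      {ψ : intCl K M.x →ₐ[K] K // ∀ h : M.x ∈ intCl K M.x, ψ ⟨M.x, h⟩ = c} with hemb
  refine pts_not_injective hT c hc (fun i => (emb i).1) (fun i => (emb i).2 _) ?_
  intro i j hij
  exact Fin.ext (emb.injective (Subtype.ext hij))

end Key

section Main

variable (M : RedModel K k F Fk)

/-- The points of `Spec (intCl K x)` over `x = c` (the subtype counted by `fibreCard`). -/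
abbrev PtsFibre (c : K) : Type :=
  {ψ : intCl K M.x →ₐ[K] K // ∀ h : M.x ∈ intCl K M.x, ψ ⟨M.x, h⟩ = c}

/-- The integral functions of the model, as a subring of `O`. -/
def ptsB0 : Subring M.O := (intCl K M.x).toSubring.comap M.O.subtype

/-- `B₀ → intCl K x`. -/
def ptsIota : ptsB0 M →+* intCl K M.x where
  toFun f := ⟨((f : M.O) : F), f.2⟩
  map_one' := rfl
  map_mul' _ _ := rfl
  map_zero' := rfl
  map_add' _ _ := rfl

/-- `B₀ → B̄`, the reduction. -/
def ptsRho : ptsB0 M →+* M.Bbar where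
  toFun f := ⟨M.rho (f : M.O), ⟨(f : M.O), f.2, rfl⟩⟩
  map_one' := Subtype.ext (map_one M.rho)
  map_mul' a b := Subtype.ext (map_mul M.rho (a : M.O) (b : M.O))
  map_zero' := Subtype.ext (map_zero M.rho)
  map_add' a b := Subtype.ext (map_add M.rho (a : M.O) (b : M.O))

/-- `A → B₀`, the constants. -/
def ptsConst : M.A →+* ptsB0 M where
  toFun a := ⟨⟨algebraMap K F a, M.map_mem a⟩, (intCl K M.x).algebraMap_mem (a : K)⟩
  map_one' := by
    apply Subtype.ext; apply Subtype.ext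
    show algebraMap K F ((1 : M.A) : K) = 1
    simp
  map_mul' a b := by
    apply Subtype.ext; apply Subtype.ext
    show algebraMap K F ((a * b : M.A) : K) = algebraMap K F a * algebraMap K F b
    simp
  map_zero' := by
    apply Subtype.ext; apply Subtype.ext
    show algebraMap K F ((0 : M.A) : K) = 0
    simp
  map_add' a b := by
    apply Subtype.ext; apply Subtype.ext
    show algebraMap K F ((a + b : M.A) : K) = algebraMap K F a + algebraMap K F b
    simp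

theorem ptsIota_const (a : M.A) : ptsIota M (ptsConst M a) = algebraMap K (intCl K M.x) a := rfl

theorem ptsRho_const (a : M.A) : ptsRho M (ptsConst M a) = algebraMap k M.Bbar (M.res a) := by
  apply Subtype.ext
  show M.rho ⟨algebraMap K F a, M.map_mem a⟩ = algebraMap k Fk (M.res a)
  exact M.rho_map a

variable {M}
variable [FiniteDimensional K⟮M.x⟯ F] [FiniteDimensional k⟮M.xbar⟯ Fk]

theorem pts_point_mem_A (hT : CharpolyRed M) (c : K) (hc : c ∈ M.A)
    (ψ : intCl K M.x →ₐ[K] K) (hψ : ψ ⟨M.x, M.x_mem_intCl⟩ = c) (f : ptsB0 M) :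
    ψ (ptsIota M f) ∈ M.A := by
  obtain ⟨Φ, hΦ⟩ := hT.exists_ptsData (f : M.O) f.2
  exact hΦ.point_mem_A f.2 c hc ψ hψ

/-- Every point of `Spec B̄` over `c̄` is the reduction of a point over `c`. -/
theorem pts_exists_lift [IsAlgClosed K] (hT : CharpolyRed M) (c : K) (hc : c ∈ M.A)
    (χ : M.Bbar →ₐ[k] k) (hχ : χ ⟨M.xbar, M.xbar_mem_Bbar⟩ = M.res ⟨c, hc⟩) :
    ∃ ψ : PtsFibre M c,
      ∀ (f : ptsB0 M) (hA : ψ.1 (ptsIota M f) ∈ M.A),
        χ (ptsRho M f) = M.res ⟨ψ.1 (ptsIota M f), hA⟩ := by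
  classical
  by_contra hcon
  push Not at hcon
  choose fψ hAψ hneψ using hcon
  have hfin := pts_finite_fibre hT c hc
  let _ : Fintype (PtsFibre M c) :=
    Fintype.ofFinite _
  set g : PtsFibre M c → ptsB0 M :=
    fun ψ => fψ ψ - ptsConst M ⟨ψ.1 (ptsIota M (fψ ψ)), hAψ ψ⟩ with hg
  have hg1 : ∀ ψ : PtsFibre M c, ψ.1 (ptsIota M (g ψ)) = 0 := by
    intro ψ
    rw [hg]
    simp only [map_sub, ptsIota_const, AlgHom.commutes]
    exact sub_self _
  have hg2 : ∀ ψ : PtsFibre M c, χ (ptsRho M (g ψ)) ≠ 0 := by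
    intro ψ
    rw [hg]
    simp only [map_sub, ptsRho_const, AlgHom.commutes]
    exact sub_ne_zero.mpr (hneψ ψ)
  set f₀ : ptsB0 M := ∏ ψ, g ψ with hf₀
  have h01 : ∀ ψ : PtsFibre M c,
      ψ.1 (ptsIota M f₀) = 0 := by
    intro ψ
    rw [hf₀, map_prod, map_prod]
    exact Finset.prod_eq_zero (Finset.mem_univ ψ) (hg1 ψ)
  have h02 : χ (ptsRho M f₀) ≠ 0 := by
    rw [hf₀, map_prod, map_prod]
    exact Finset.prod_ne_zero_iff.mpr (fun ψ _ => hg2 ψ)
  obtain ⟨a, ha⟩ := M.res_surj (χ (ptsRho M f₀))⁻¹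
  set f' : ptsB0 M := ptsConst M a * f₀ with hf'
  have h1' : ∀ ψ : PtsFibre M c,
      ψ.1 (ptsIota M f') = 0 := by
    intro ψ
    rw [hf', map_mul, map_mul, h01 ψ, mul_zero]
  have h2' : χ (ptsRho M f') = 1 := by
    rw [hf', map_mul, map_mul, ptsRho_const, AlgHom.commutes, ha]
    exact inv_mul_cancel₀ h02
  obtain ⟨Φ, hΦ⟩ := hT.exists_ptsData (f' : M.O) f'.2
  have hmonic := ptsSpec_monic M c hc hΦ.monic
  have hroots : ∀ t ∈ (ptsSpec M c hc Φ).roots, t = 0 := by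
    intro t ht
    rw [Polynomial.mem_roots hmonic.ne_zero] at ht
    obtain ⟨ψ, hψx, hψf⟩ := hΦ.exists_point hT f'.2 c hc t ht
    rw [← hψf]
    exact h1' ⟨ψ, fun _ => hψx⟩
  have hp1 : (ptsSpec M c hc Φ).eval 1 = 1 := by
    rw [(IsAlgClosed.splits _).eval_eq_prod_roots_of_monic hmonic]
    apply Multiset.prod_eq_one
    intro y hy
    rw [Multiset.mem_map] at hy
    obtain ⟨t, ht, rfl⟩ := hy
    rw [hroots t ht, sub_zero]
  have hA1 : (Φ.map (ptsEvA M c hc)).eval 1 = 1 := by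
    apply Subtype.ext
    have h := pts_hom_eval (M.A.subtype : M.A →+* K) (Φ.map (ptsEvA M c hc)) 1
    rw [map_one] at h
    have h' : (((Φ.map (ptsEvA M c hc)).eval (1 : M.A) : M.A) : K) =
        (ptsSpec M c hc Φ).eval 1 := h.symm
    rw [h', hp1]
    rfl
  have hD2 := hΦ.eval_point_bar f'.2 c hc χ hχ
  have hχf : χ ⟨M.rho (f' : M.O), ⟨(f' : M.O), f'.2, rfl⟩⟩ = 1 := h2'
  rw [hχf] at hD2
  have h := pts_hom_eval M.res (Φ.map (ptsEvA M c hc)) 1
  rw [map_one, hA1, map_one, hD2] at h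
  exact zero_ne_one h

/-- **(P) POINTS STEP** of the discriminant chain. -/
theorem pointsStep [IsAlgClosed K] [IsAlgClosed k] (M : RedModel K k F Fk) (n : ℕ)
    (hT : CharpolyRed M) (hdeg : DegData M n) : PointsStep M := by
  have hK : FiniteDimensional K⟮M.x⟯ F :=
    Module.finite_of_finrank_pos (by rw [hdeg.deg]; exact hdeg.pos)
  have hk : FiniteDimensional k⟮M.xbar⟯ Fk :=
    Module.finite_of_finrank_pos (by rw [hdeg.degk]; exact hdeg.pos)
  intro c hc
  unfold numPtsBbar fibreCard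
  have hfin : Finite (PtsFibre M c) := pts_finite_fibre hT c hc
  have key : ∀ χ : {χ : M.Bbar →ₐ[k] k // χ ⟨M.xbar, M.xbar_mem_Bbar⟩ = M.res ⟨c, hc⟩},
      ∃ ψ : PtsFibre M c,
        ∀ (f : ptsB0 M) (hA : ψ.1 (ptsIota M f) ∈ M.A),
          χ.1 (ptsRho M f) = M.res ⟨ψ.1 (ptsIota M f), hA⟩ :=
    fun χ => pts_exists_lift hT c hc χ.1 χ.2
  choose L hL using key
  apply Nat.card_le_card_of_injective L
  intro χ χ' hχχ'
  apply Subtype.ext
  apply AlgHom.ext
  rintro ⟨y, f, hf, rfl⟩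
  have hA := pts_point_mem_A hT c hc (L χ).1 ((L χ).2 _) ⟨f, hf⟩
  have h1 := hL χ ⟨f, hf⟩ hA
  have hA' : (L χ').1 (ptsIota M ⟨f, hf⟩) ∈ M.A := by rw [← hχχ']; exact hA
  have h2 := hL χ' ⟨f, hf⟩ hA'
  have h3 : M.res ⟨(L χ).1 (ptsIota M ⟨f, hf⟩), hA⟩ = M.res ⟨(L χ').1 (ptsIota M ⟨f, hf⟩), hA'⟩ := by
    congr 2
    rw [hχχ']
  exact h1.trans (h3.trans h2.symm)

end Main

end

end Fermat.Agent.GoodRed
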