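import Fermat.Agent.Lib.GoodRed.ChainA
import Fermat.Agent.Lib.GoodRed.LiftA
import Fermat.Agent.Lib.GoodRed.DiscTame
import Fermat.Agent.Lib.GoodRed.Points
import Fermat.Agent.Lib.GoodRed.Inv

/-!
# Cluster B / GoodRed: THE DISCRIMINANT CHAIN, unconditional (helper37, assembly)

* `discChainA : DiscChainA` — for algebraically closed `K` (char 0), `k`, a reduction model `M`,
  DEGREE `DegData M n` and a WEAK branch datum `BD : BranchDataA M n` imply
  (NORM) `NormalReduction M`, (FIB) `FibreBound M`, (FIB=) `FibreEq M n BD`.
* `discChain : DiscChain` — the same for (strong) branch data `BranchData M n`.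
* `fibreBound_inv`, `fibreBound_at_infty` — the chart at infinity.

Pieces: (ALG-1) `discLowerBound` helper59, (ALG-2) `discUpperTame` helper2, (T) `charpolyRed`
helper77, (L1) helper9, (L2) helper27, (L3) helper7, (L4) helper21, (P) `pointsStep` helper46,
`EvalAt` helper57, `Inv` helper19, (C) helper37.
-/

set_option autoImplicit false

namespace Fermat.Agent.GoodRed

open Polynomial IntermediateField
open scoped IntermediateField.algebraAdjoinAdjoin

noncomputable section

variable {K k F Fk : Type} [Field K] [Field k] [Field F] [Field Fk] [Algebra K F] [Algebra k Fk]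

/-- the discriminant chain for weak branch data, for a given model. -/
theorem discChainA_model [IsAlgClosed K] [CharZero K] [IsAlgClosed k]
    (M : RedModel K k F Fk) (n : ℕ) (hdeg : DegData M n) (BD : BranchDataA M n) :
    NormalReduction M ∧ FibreBound M ∧ FibreEq M n BD := by
  have hx : Transcendental K M.x := M.x_transcendental
  have : IsPrincipalIdealRing (Algebra.adjoin K {M.x}) := lb_isPrincipalIdealRing_adjoin hx
  have hT : CharpolyRed M := charpolyRed M n hdeg
  have hL : LiftStepA M n BD :=
    liftStepA_closed M n hdeg BD (discUpperTame (Algebra.adjoin K {M.x}) K⟮M.x⟯ F)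
  have hP : PointsStep M := pointsStep M n hT hdeg
  exact discChainA_of_steps M n hdeg BD hL hP

/-- **THE DISCRIMINANT CHAIN** (weak branch data, with equality of fibre cardinalities). -/
theorem discChainA : DiscChainA := by
  intro K k F Fk _ _ _ _ _ _ _ _ _ M n hdeg BD
  exact discChainA_model M n hdeg BD

/-- **THE DISCRIMINANT CHAIN**. -/
theorem discChain : DiscChain := by
  intro K k F Fk _ _ _ _ _ _ _ _ _ M n hdeg BD
  obtain ⟨h1, h2, -⟩ := discChainA_model M n hdeg BD.toA
  exact ⟨h1, h2⟩

/-- (NORM) for a given model. -/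
theorem normalReduction_of_branchData [IsAlgClosed K] [CharZero K] [IsAlgClosed k]
    (M : RedModel K k F Fk) (n : ℕ) (hdeg : DegData M n) (BD : BranchDataA M n) :
    NormalReduction M := (discChainA_model M n hdeg BD).1

/-- (FIB) for a given model. -/
theorem fibreBound_of_branchData [IsAlgClosed K] [CharZero K] [IsAlgClosed k]
    (M : RedModel K k F Fk) (n : ℕ) (hdeg : DegData M n) (BD : BranchDataA M n) :
    FibreBound M := (discChainA_model M n hdeg BD).2.1

/-- (FIB=) for a given model. -/
theorem fibreEq_of_branchData [IsAlgClosed K] [CharZero K] [IsAlgClosed k]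
    (M : RedModel K k F Fk) (n : ℕ) (hdeg : DegData M n) (BD : BranchDataA M n) :
    FibreEq M n BD := (discChainA_model M n hdeg BD).2.2

/-- (FIB) in the chart at infinity. -/
theorem fibreBound_inv [IsAlgClosed K] [CharZero K] [IsAlgClosed k]
    (M : RedModel K k F Fk) (n : ℕ) (hdeg : DegData M n) (BD : BranchData M n)
    (hS : ∀ c ∈ BD.S, c ≠ 0 → c⁻¹ ∈ M.A) : FibreBound M.inv :=
  fibreBound_of_branchData M.inv n hdeg.inv (BD.inv hS).toA

end

end Fermat.Agent.GoodRed
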