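import Mathlib
import Fermat.Agent.Lib.GoodRed.Defs
import Fermat.Agent.Lib.RR.Hurwitz.LocalTrace

set_option autoImplicit false
set_option linter.unusedSectionVars false
set_option linter.style.haveILetI false

/-!
# Cluster B / GoodRed, WP PL: the bridge `fibreCard` ↔ places

For `K` algebraically closed, `x` transcendental and `F / K(x)` finite separable:
* `fibreCard_eq_card_zeros`: `fibreCard K x c` is the number of places of `F` at which `x - c`
  vanishes;
* `fibreCard_inv_eq_card_poles`: `fibreCard K x⁻¹ 0` is the number of poles of `x`.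
-/

noncomputable section

open AlgebraicCurve IntermediateField IsDedekindDomain

namespace Fermat.Agent.GoodRed

open Fermat.Agent.RRHur

variable {K F : Type} [Field K] [Field F] [Algebra K F]

namespace PL

/-! ### change of generator of `K(x)` -/

theorem finiteDimensional_of_eq {E₁ E₂ : IntermediateField K F} (h : E₁ = E₂)
    [FiniteDimensional E₂ F] : FiniteDimensional E₁ F := by
  subst h
  infer_instance

theorem isSeparable_of_eq {E₁ E₂ : IntermediateField K F} (h : E₁ = E₂)
    [Algebra.IsSeparable E₂ F] : Algebra.IsSeparable E₁ F := by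
  subst h
  infer_instance

theorem adjoin_inv_eq (x : F) : K⟮x⁻¹⟯ = K⟮x⟯ := by
  apply le_antisymm
  · rw [adjoin_simple_le_iff]
    exact inv_mem (mem_adjoin_simple_self K x)
  · rw [adjoin_simple_le_iff]
    have h : (x⁻¹)⁻¹ ∈ K⟮x⁻¹⟯ := inv_mem (mem_adjoin_simple_self K x⁻¹)
    rwa [inv_inv] at h

theorem adjoin_sub_algebraMap_eq (x : F) (c : K) : K⟮x - algebraMap K F c⟯ = K⟮x⟯ := by
  apply le_antisymm
  · rw [adjoin_simple_le_iff]
    exact sub_mem (mem_adjoin_simple_self K x) (IntermediateField.algebraMap_mem _ c)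
  · rw [adjoin_simple_le_iff]
    have h : (x - algebraMap K F c) + algebraMap K F c ∈ K⟮x - algebraMap K F c⟯ :=
      add_mem (mem_adjoin_simple_self K _) (IntermediateField.algebraMap_mem _ c)
    rwa [sub_add_cancel] at h

theorem transcendental_inv {x : F} (hx : Transcendental K x) : Transcendental K x⁻¹ := by
  intro h
  exact hx (by simpa using h.inv)

theorem transcendental_sub_algebraMap {x : F} (hx : Transcendental K x) (c : K) :
    Transcendental K (x - algebraMap K F c) := by
  intro h
  apply hx
  have h2 : x = (x - algebraMap K F c) + algebraMap K F c := by ring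
  rw [h2]
  exact h.add (isAlgebraic_algebraMap c)

/-! ### `K`-points of `Spec B` and places -/

section Bridge

variable [IsAlgClosed K] {x : F}

/-- `x` as an element of `B = integralClosure K[x] F`. -/
def xInt (K : Type) {F : Type} [Field K] [Field F] [Algebra K F] (x : F) :
    integralClosure (Algebra.adjoin K {x}) F :=
  algebraMap (Algebra.adjoin K {x}) (integralClosure (Algebra.adjoin K {x}) F)
    (Fermat.Agent.S24Fib.tA K x)

@[simp] theorem coe_xInt (x : F) : ((xInt K x : integralClosure (Algebra.adjoin K {x}) F) : F) = x :=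
  rfl

theorem xInt_sub_ne_zero (hx : Transcendental K x) (c : K) :
    xInt K x - algebraMap K (integralClosure (Algebra.adjoin K {x}) F) c ≠ 0 := by
  intro h
  have h' : x - algebraMap K F c = 0 := congrArg Subtype.val h
  exact transcendental_sub_algebraMap hx c (h' ▸ isAlgebraic_zero)

theorem ker_ne_bot (hx : Transcendental K x)
    (χ : integralClosure (Algebra.adjoin K {x}) F →ₐ[K] K) :
    RingHom.ker χ.toRingHom ≠ ⊥ := by
  intro h
  apply xInt_sub_ne_zero hx (χ (xInt K x))
  have hmem : xInt K x - algebraMap K (integralClosure (Algebra.adjoin K {x}) F) (χ (xInt K x))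
      ∈ RingHom.ker χ.toRingHom := by
    rw [RingHom.mem_ker]
    show χ _ = 0
    rw [map_sub, AlgHom.commutes]
    simp
  rw [h] at hmem
  exact hmem

/-- the place attached to a `K`-point of `Spec B`. -/
def placeOfHom (hx : Transcendental K x) [FiniteDimensional K⟮x⟯ F] [Algebra.IsSeparable K⟮x⟯ F]
    (χ : integralClosure (Algebra.adjoin K {x}) F →ₐ[K] K) : Place K F :=
  haveI := isDedekindDomain_integralClosure (F := F) hx
  haveI := isFractionRing_integralClosure (K := K) x
  Place.ofHeightOneSpectrum (K := K) (F := F)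
    (⟨RingHom.ker χ.toRingHom, RingHom.ker_isPrime _, ker_ne_bot hx χ⟩ :
      HeightOneSpectrum (integralClosure (Algebra.adjoin K {x}) F))

variable [FiniteDimensional K⟮x⟯ F] [Algebra.IsSeparable K⟮x⟯ F]

theorem ord_placeOfHom_pos_iff (hx : Transcendental K x)
    (χ : integralClosure (Algebra.adjoin K {x}) F →ₐ[K] K)
    (b : integralClosure (Algebra.adjoin K {x}) F) (hb : b ≠ 0) :
    0 < (placeOfHom hx χ).ord (b : F) ↔ χ b = 0 := by
  haveI := isDedekindDomain_integralClosure (F := F) hx
  haveI := isFractionRing_integralClosure (K := K) x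
  unfold placeOfHom
  have h := Fermat.Agent.S24Bridge.mem_asIdeal_iff_ord_pos (K := K) (F := F)
    (⟨RingHom.ker χ.toRingHom, RingHom.ker_isPrime _, ker_ne_bot hx χ⟩ :
      HeightOneSpectrum (integralClosure (Algebra.adjoin K {x}) F)) b hb
  exact h.symm.trans RingHom.mem_ker

theorem ord_placeOfHom_nonneg (hx : Transcendental K x)
    (χ : integralClosure (Algebra.adjoin K {x}) F →ₐ[K] K) :
    0 ≤ (placeOfHom hx χ).ord x := by
  haveI := isDedekindDomain_integralClosure (F := F) hx
  haveI := isFractionRing_integralClosure (K := K) x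
  unfold placeOfHom
  exact ord_t_nonneg_ofHeightOneSpectrum _

theorem ord_placeOfHom_sub_pos_iff (hx : Transcendental K x)
    (χ : integralClosure (Algebra.adjoin K {x}) F →ₐ[K] K) (c : K) :
    0 < (placeOfHom hx χ).ord (x - algebraMap K F c) ↔ χ (xInt K x) = c := by
  have h := ord_placeOfHom_pos_iff hx χ _ (xInt_sub_ne_zero hx c)
  have h2 : ((xInt K x - algebraMap K (integralClosure (Algebra.adjoin K {x}) F) c :
      integralClosure (Algebra.adjoin K {x}) F) : F) = x - algebraMap K F c := rfl
  rw [h2] at h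
  rw [h, map_sub, AlgHom.commutes, sub_eq_zero]
  simp

theorem placeOfHom_injective (hx : Transcendental K x) :
    Function.Injective (placeOfHom (K := K) (F := F) hx) := by
  haveI := isDedekindDomain_integralClosure (F := F) hx
  haveI := isFractionRing_integralClosure (K := K) x
  intro χ χ' h
  unfold placeOfHom at h
  have h1 := Fermat.Agent.S24Bridge.ofHeightOneSpectrum_injective h
  have hker : RingHom.ker χ.toRingHom = RingHom.ker χ'.toRingHom :=
    congrArg HeightOneSpectrum.asIdeal h1
  apply AlgHom.ext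
  intro b
  have hmem : b - algebraMap K (integralClosure (Algebra.adjoin K {x}) F) (χ b)
      ∈ RingHom.ker χ.toRingHom := by
    rw [RingHom.mem_ker]
    show χ _ = 0
    rw [map_sub, AlgHom.commutes]
    simp
  rw [hker, RingHom.mem_ker] at hmem
  have h2 : χ' (b - algebraMap K (integralClosure (Algebra.adjoin K {x}) F) (χ b)) = 0 := hmem
  rw [map_sub, AlgHom.commutes, sub_eq_zero] at h2
  simpa using h2.symm

/-- the residue field of a height one prime of `B` is `K`. -/
theorem exists_sub_mem_asIdeal (hx : Transcendental K x)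
    [IsDedekindDomain (integralClosure (Algebra.adjoin K {x}) F)]
    [IsFractionRing (integralClosure (Algebra.adjoin K {x}) F) F]
    (𝔓 : HeightOneSpectrum (integralClosure (Algebra.adjoin K {x}) F))
    (d : integralClosure (Algebra.adjoin K {x}) F) :
    ∃ c : K, d - algebraMap K (integralClosure (Algebra.adjoin K {x}) F) c ∈ 𝔓.asIdeal := by
  set P := Place.ofHeightOneSpectrum (K := K) (F := F) 𝔓 with hP
  have hff : Fermat.Agent.S24Diff.IsFunctionFieldOver K F x := ⟨hx, inferInstance⟩
  have hPx : 0 ≤ P.ord x := ord_t_nonneg_ofHeightOneSpectrum 𝔓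
  have hdP : (d : F) ∈ P.toValuationSubring := integralClosure_mem P hPx d
  obtain ⟨c, hc⟩ := Fermat.Agent.S24Res.exists_sub_mem_maximalIdeal hff P ⟨d, hdP⟩
  refine ⟨c, ?_⟩
  by_cases h0 : d - algebraMap K (integralClosure (Algebra.adjoin K {x}) F) c = 0
  · rw [h0]; exact zero_mem _
  rw [Fermat.Agent.S24Bridge.mem_asIdeal_iff_ord_pos (K := K) (F := F) 𝔓 _ h0]
  have hne : (⟨(d : F), hdP⟩ - algebraMap K P.toValuationSubring c : P.toValuationSubring)
      ≠ 0 := by
    intro h
    apply h0
    apply Subtype.ext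
    have h' : ((⟨(d : F), hdP⟩ - algebraMap K P.toValuationSubring c :
        P.toValuationSubring) : F) = 0 := congrArg Subtype.val h
    exact h'
  exact (Fermat.Agent.S24Res.mem_maximalIdeal_iff_ord_pos P hne).mp hc

theorem placeOfHom_surjective (hx : Transcendental K x) (v : Place K F) (hv : 0 ≤ v.ord x) :
    ∃ χ : integralClosure (Algebra.adjoin K {x}) F →ₐ[K] K, placeOfHom hx χ = v := by
  haveI := isDedekindDomain_integralClosure (F := F) hx
  haveI := isFractionRing_integralClosure (K := K) x
  obtain ⟨𝔓, h𝔓⟩ := exists_heightOneSpectrum hx v hv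
  haveI : 𝔓.asIdeal.IsMaximal := 𝔓.isMaximal
  have hbij : Function.Bijective
      (Algebra.ofId K (integralClosure (Algebra.adjoin K {x}) F ⧸ 𝔓.asIdeal)) := by
    refine ⟨(algebraMap K _).injective, fun y => ?_⟩
    obtain ⟨d, rfl⟩ := Ideal.Quotient.mk_surjective y
    obtain ⟨c, hc⟩ := exists_sub_mem_asIdeal hx 𝔓 d
    refine ⟨c, ?_⟩
    show Ideal.Quotient.mk 𝔓.asIdeal (algebraMap K _ c) = _
    rw [eq_comm, Ideal.Quotient.eq]
    exact hc
  set e := AlgEquiv.ofBijective _ hbij with he
  set χ : integralClosure (Algebra.adjoin K {x}) F →ₐ[K] K :=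
    (e.symm.toAlgHom).comp (Ideal.Quotient.mkₐ K 𝔓.asIdeal) with hχ
  have hker : RingHom.ker χ.toRingHom = 𝔓.asIdeal := by
    ext b
    rw [RingHom.mem_ker]
    show e.symm (Ideal.Quotient.mk 𝔓.asIdeal b) = 0 ↔ _
    rw [map_eq_zero_iff _ e.symm.injective, Ideal.Quotient.eq_zero_iff_mem]
  refine ⟨χ, ?_⟩
  rw [h𝔓]
  unfold placeOfHom
  congr 1
  exact HeightOneSpectrum.ext hker

end Bridge

end PL

section Main

open PL

variable [IsAlgClosed K]

/-- the elements of `fibreCard` are the places at which `x - c` vanishes. -/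
theorem fibreCard_eq_card_zeros {x : F} (hx : Transcendental K x)
    [FiniteDimensional K⟮x⟯ F] [Algebra.IsSeparable K⟮x⟯ F] (c : K) :
    fibreCard K x c = Nat.card {v : Place K F // 0 < v.ord (x - algebraMap K F c)} := by
  have hxB : x ∈ intCl K x := (xInt K x).2
  unfold fibreCard
  let f : {χ : intCl K x →ₐ[K] K // ∀ h : x ∈ intCl K x, χ ⟨x, h⟩ = c} →
      {v : Place K F // 0 < v.ord (x - algebraMap K F c)} := fun χ =>
    ⟨placeOfHom hx χ.1, (ord_placeOfHom_sub_pos_iff hx χ.1 c).mpr (χ.2 hxB)⟩
  refine Nat.card_eq_of_bijective f ⟨?_, ?_⟩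
  · intro χ χ' h
    apply Subtype.ext
    exact placeOfHom_injective hx (congrArg Subtype.val h)
  · rintro ⟨v, hv⟩
    have hvx : 0 ≤ v.ord x := by
      apply Fermat.Agent.S24Res.ord_nonneg_of_mem
      have h1 : x - algebraMap K F c ∈ v.toValuationSubring :=
        Fermat.Agent.S24Res.mem_of_ord_nonneg v hv.le
      have h2 : x = (x - algebraMap K F c) + algebraMap K F c := by ring
      rw [h2]
      exact add_mem h1 (v.algebraMap_mem' c)
    obtain ⟨χ, hχ⟩ := placeOfHom_surjective hx v hvx
    refine ⟨⟨χ, fun _ => ?_⟩, ?_⟩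
    · rw [← hχ] at hv
      exact (ord_placeOfHom_sub_pos_iff hx χ c).mp hv
    · apply Subtype.ext
      exact hχ

/-- the fibre of `x⁻¹` over `0` consists of the poles of `x`. -/
theorem fibreCard_inv_eq_card_poles {x : F} (hx : Transcendental K x)
    [FiniteDimensional K⟮x⟯ F] [Algebra.IsSeparable K⟮x⟯ F] :
    fibreCard K x⁻¹ 0 = Nat.card {v : Place K F // v.ord x < 0} := by
  haveI : FiniteDimensional K⟮x⁻¹⟯ F := finiteDimensional_of_eq (adjoin_inv_eq (K := K) x)
  haveI : Algebra.IsSeparable K⟮x⁻¹⟯ F := isSeparable_of_eq (adjoin_inv_eq (K := K) x)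
  rw [fibreCard_eq_card_zeros (transcendental_inv hx) 0]
  apply Nat.card_congr
  refine Equiv.subtypeEquivRight fun v => ?_
  rw [map_zero, sub_zero, Place.ord_inv]
  omega

end Main

end Fermat.Agent.GoodRed
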