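/-
Cluster B / GoodRed, WP (M), second half (helper24): `DegData` and `BranchData` for the
`RedModel` of the modular function field (`Lib/GoodRed/Modular.lean`), `x = j`, `ℓ ≥ 5`.

* `rangeAt`: (R3) unconditionally (helper66, `Lib/GaussVal/R3Final.lean`), `ℓ ∤ N`;
* `modularRedModelOf`: the `RedModel` for `ℓ ∤ N` without hypotheses;
* `degData_modularRedModel`: `DegData` with `n = [SL₂(ℤ) : Γ₀(N)]`, from helper19's
  `GoodRedBranch.finrank_jBar` and the char-`ℓ` degree and separability (hypotheses);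
* `modularBranchData`: `BranchData` with `S = {0, 1728}` for `ℓ ∉ {2, 3}`, from helper19's
  `GoodRedBranch.card_fibre_jBar_of_ne` and helper18's bridge `fibreCard_eq_card_zeros`.
-/
import Mathlib
import Fermat.Agent.Lib.GoodRed.Modular
import Fermat.Agent.Lib.GoodRed.ModularBranch
import Fermat.Agent.Lib.GoodRed.Places
import Fermat.Agent.Lib.GaussVal.R3Final

set_option autoImplicit false
set_option linter.unusedSectionVars false
set_option linter.style.haveILetI false

noncomputable section

namespace Fermat.Agent.GoodRed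

open ModularCurve Fermat.Agent.GaussInt IntermediateField

variable (N : ℕ) [NeZero N] {ℓ : ℕ} (hℓ : ℓ.Prime)
  {A : ValuationSubring (AlgebraicClosure ℚ)} (hA : A.LiesOverPrime ℓ)

/-- (R3), unconditionally for `ℓ ∤ N` (helper66). -/
theorem rangeAt {ℓ : ℕ} (hℓ : ℓ.Prime) {A : ValuationSubring (AlgebraicClosure ℚ)}
    (hA : A.LiesOverPrime ℓ) (hℓN : ¬ ℓ ∣ N) : RangeAt N A :=
  ⟨Fermat.Agent.GaussVal.gaussResFun_mem_fullC_of_isAlgClosed A ℓ N hℓ hA hℓN,
    Fermat.Agent.GaussVal.exists_gaussResFun_eq_of_mem A N⟩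

set_option synthInstance.maxHeartbeats 400000 in
set_option maxHeartbeats 1000000 in
/-- WP (M): the `RedModel` of `modularFunctionFieldBar N` at a place `A` over `ℓ ∤ N`. -/
def modularRedModelOf (hℓN : ¬ ℓ ∣ N) :
    RedModel (AlgebraicClosure ℚ) (IsLocalRing.ResidueField A) ↥(modularFunctionFieldBar N)
      ↥(modularFunctionFieldFullC (IsLocalRing.ResidueField A) N) :=
  modularRedModel N hℓ hA (rangeAt N hℓ hA hℓN)

/-- `0 < [SL₂(ℤ) : Γ₀(N)]`. -/
theorem index_Gamma0_pos : 0 < (CongruenceSubgroup.Gamma0 N).index := by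
  rw [← Fermat.Agent.GoodRedBranch.finrank_jBar N]
  haveI := (Fermat.Agent.S24.isFunctionFieldOver_jBar N).finite
  exact Module.finrank_pos

variable (hR : RangeAt N A)

set_option synthInstance.maxHeartbeats 400000 in
set_option maxHeartbeats 1000000 in
/-- WP (M), DEGREE: `DegData` for the modular `RedModel`, `n = [SL₂(ℤ) : Γ₀(N)]`; the char `0`
degree is helper19's `finrank_jBar`, the degree and separability of the reduction are
hypotheses. -/
theorem degData_modularRedModel
    (hdegk : Module.finrank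
        (IntermediateField.adjoin (IsLocalRing.ResidueField A)
          {(modularRedModel N hℓ hA hR).xbar})
        ↥(modularFunctionFieldFullC (IsLocalRing.ResidueField A) N)
          = (CongruenceSubgroup.Gamma0 N).index)
    (hsep : Algebra.IsSeparable
        (IntermediateField.adjoin (IsLocalRing.ResidueField A)
          {(modularRedModel N hℓ hA hR).xbar})
        ↥(modularFunctionFieldFullC (IsLocalRing.ResidueField A) N)) :
    DegData (modularRedModel N hℓ hA hR) (CongruenceSubgroup.Gamma0 N).index where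
  deg := Fermat.Agent.GoodRedBranch.finrank_jBar N
  degk := hdegk
  sepk := hsep
  pos := index_Gamma0_pos N

/-- the branch values `{0, 1728}` of `j`. -/
def branchSet : Finset (AlgebraicClosure ℚ) := by
  classical
  exact {0, 1728}

theorem mem_branchSet {c : AlgebraicClosure ℚ} : c ∈ branchSet ↔ c = 0 ∨ c = 1728 := by
  classical
  unfold branchSet
  simp

/-- `1728 = 2⁶ 3³` is a unit at a place over `ℓ ∉ {2, 3}`. -/
theorem isUnit_1728 {ℓ : ℕ} (hℓ : ℓ.Prime) {A : ValuationSubring (AlgebraicClosure ℚ)}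
    (hA : A.LiesOverPrime ℓ) (h2 : ℓ ≠ 2) (h3 : ℓ ≠ 3) : IsUnit ((1728 : ℕ) : A) := by
  apply Fermat.Agent.GaussVal.natCast_isUnit_of_coprime A ℓ hA
  have e : (1728 : ℕ) = 2 ^ 6 * 3 ^ 3 := by norm_num
  rw [e]
  apply Nat.Coprime.mul_left
  · apply Nat.Coprime.pow_left
    exact (Nat.coprime_primes Nat.prime_two hℓ).mpr (Ne.symm h2)
  · apply Nat.Coprime.pow_left
    exact (Nat.coprime_primes Nat.prime_three hℓ).mpr (Ne.symm h3)

set_option synthInstance.maxHeartbeats 400000 in
set_option maxHeartbeats 1000000 in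
/-- `F_N / ℚ̄(j)` is separable (char `0`). -/
theorem isSeparable_jBar :
    Algebra.IsSeparable ↥(IntermediateField.adjoin (AlgebraicClosure ℚ)
        {Fermat.Agent.S24.jBar N}) ↥(modularFunctionFieldBar N) := by
  haveI := (Fermat.Agent.S24.isFunctionFieldOver_jBar N).finite
  haveI : CharZero ↥(IntermediateField.adjoin (AlgebraicClosure ℚ)
      {Fermat.Agent.S24.jBar N}) :=
    charZero_of_injective_algebraMap
      (algebraMap (AlgebraicClosure ℚ) ↥(IntermediateField.adjoin (AlgebraicClosure ℚ)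
        {Fermat.Agent.S24.jBar N})).injective
  exact Algebra.IsAlgebraic.isSeparable_of_perfectField

set_option synthInstance.maxHeartbeats 400000 in
set_option maxHeartbeats 1000000 in
theorem fibreCard_jBar_of_not_mem {c : AlgebraicClosure ℚ} (hc : c ∉ branchSet) :
    fibreCard (AlgebraicClosure ℚ) (Fermat.Agent.S24.jBar N) c
      = (CongruenceSubgroup.Gamma0 N).index := by
  have hff := Fermat.Agent.S24.isFunctionFieldOver_jBar N
  haveI := hff.finite
  haveI := isSeparable_jBar N
  rw [mem_branchSet, not_or] at hc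
  rw [fibreCard_eq_card_zeros hff.transcendental c,
    Fermat.Agent.GoodRedBranch.card_fibre_jBar_of_ne N hc.1 hc.2,
    Fermat.Agent.GoodRedBranch.finrank_jBar]

/-- the branch values have pairwise distinct residues at a place over `ℓ ∉ {2, 3}`. -/
theorem residue_inj_branchSet {ℓ : ℕ} (hℓ : ℓ.Prime)
    {A : ValuationSubring (AlgebraicClosure ℚ)} (hA : A.LiesOverPrime ℓ)
    (h2 : ℓ ≠ 2) (h3 : ℓ ≠ 3) :
    ∀ c ∈ branchSet, ∀ c' ∈ branchSet, ∀ (hc : c ∈ A) (hc' : c' ∈ A),
      IsLocalRing.residue A ⟨c, hc⟩ = IsLocalRing.residue A ⟨c', hc'⟩ → c = c' := by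
  have hu := isUnit_1728 hℓ hA h2 h3
  have hne : IsLocalRing.residue A ((1728 : ℕ) : A) ≠ 0 := by
    rw [Ne, IsLocalRing.residue_eq_zero_iff, IsLocalRing.mem_maximalIdeal, mem_nonunits_iff,
      not_not]
    exact hu
  have key : ∀ (h : (1728 : AlgebraicClosure ℚ) ∈ A),
      IsLocalRing.residue A ⟨1728, h⟩ ≠ 0 := by
    intro h
    have e : (⟨(1728 : AlgebraicClosure ℚ), h⟩ : A) = ((1728 : ℕ) : A) := by
      apply Subtype.ext
      show (1728 : AlgebraicClosure ℚ) = ((1728 : ℕ) : AlgebraicClosure ℚ)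
      norm_num
    rw [e]
    exact hne
  have key0 : ∀ (h : (0 : AlgebraicClosure ℚ) ∈ A),
      IsLocalRing.residue A ⟨0, h⟩ = 0 := by
    intro h
    have e0 : (⟨(0 : AlgebraicClosure ℚ), h⟩ : A) = 0 := rfl
    rw [e0, map_zero]
  intro c hc c' hc' hcA hc'A hres
  rcases mem_branchSet.mp hc with rfl | rfl <;> rcases mem_branchSet.mp hc' with rfl | rfl
  · rfl
  · exact absurd (hres.symm.trans (key0 hcA)) (key hc'A)
  · exact absurd (hres.trans (key0 hc'A)) (key hcA)
  · rfl

set_option synthInstance.maxHeartbeats 400000 in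
set_option maxHeartbeats 1000000 in
/-- WP (M), BRANCH: `BranchData` for the modular `RedModel` with `S = {0, 1728}`, `ℓ ∉ {2, 3}`. -/
def modularBranchData (h2 : ℓ ≠ 2) (h3 : ℓ ≠ 3) :
    BranchData (modularRedModel N hℓ hA hR) (CongruenceSubgroup.Gamma0 N).index where
  S := branchSet
  S_mem c hc := by
    rcases mem_branchSet.mp hc with rfl | rfl
    · exact A.zero_mem
    · have h := (((1728 : ℕ) : A)).2
      have e : ((((1728 : ℕ) : A)) : AlgebraicClosure ℚ) = 1728 := by
        show ((1728 : ℕ) : AlgebraicClosure ℚ) = 1728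
        norm_num
      rw [e] at h
      exact h
  S_inj := residue_inj_branchSet hℓ hA h2 h3
  unram c hc := fibreCard_jBar_of_not_mem N hc

set_option synthInstance.maxHeartbeats 400000 in
theorem modularBranchData_S (h2 : ℓ ≠ 2) (h3 : ℓ ≠ 3) :
    (modularBranchData N hℓ hA hR h2 h3).S = branchSet := rfl

end Fermat.Agent.GoodRed
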