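import Mathlib
import Fermat.Agent.Lib.GoodRed.Defs
import Fermat.Agent.Lib.GoodRed.Places
import Fermat.Agent.Lib.RR.Hurwitz.Fibres

set_option autoImplicit false
set_option linter.style.haveILetI false
set_option linter.unusedSectionVars false

/-!
# Cluster B / GoodRed (GE): the genus inequality `g(F) ≤ g(Fk)` from the fibre bounds

Input: `FibreBound M` (discriminant chain, finite part) and the fibre bound at `∞`
(the discriminant chain in the chart `x⁻¹`).  Output: `genusFF K F ≤ genusFF k Fk`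
(Riemann-Hurwitz on both sides, `Lib/RR/Hurwitz`).  Together with Deuring's inequality
`genusFF k Fk ≤ genusFF K F` (`Lib/Deuring`) this is the genus equality.
-/

noncomputable section

open AlgebraicCurve IntermediateField

namespace Fermat.Agent.GoodRed

variable {K k F Fk : Type} [Field K] [Field k] [Field F] [Field Fk] [Algebra K F] [Algebra k Fk]

/-- the base parameter of a reduction datum is transcendental over `K`. -/
theorem RedModel.ge_x_transcendental [IsAlgClosed K] (M : RedModel K k F Fk) :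
    Transcendental K M.x := by
  intro halg
  obtain ⟨c, hc⟩ := Fermat.Agent.S24Res.mem_range_of_isAlgebraic halg
  have htr := M.x_trans
  by_cases hcA : c ∈ M.A
  · apply htr
    have h1 : M.rho ⟨M.x, M.x_mem⟩ = algebraMap k Fk (M.res ⟨c, hcA⟩) := by
      rw [← M.rho_map ⟨c, hcA⟩]
      congr 1
      exact Subtype.ext hc.symm
    rw [h1]
    exact isAlgebraic_algebraMap _
  · have hinv : c⁻¹ ∈ M.A := (M.A.mem_or_inv_mem c).resolve_left hcA
    have hc0 : c ≠ 0 := fun h0 => hcA (h0 ▸ M.A.zero_mem)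
    have hnu : ¬ IsUnit (⟨c⁻¹, hinv⟩ : M.A) := by
      intro hu
      obtain ⟨u, hu⟩ := hu
      apply hcA
      have h2 : ((u⁻¹ : (M.A)ˣ) : M.A) * ⟨c⁻¹, hinv⟩ = 1 := by
        rw [← hu]
        exact u.inv_mul
      have h3 : (((u⁻¹ : (M.A)ˣ) : M.A) : K) * c⁻¹ = 1 := congrArg Subtype.val h2
      have h4 : (((u⁻¹ : (M.A)ˣ) : M.A) : K) = c := by
        field_simp at h3
        exact h3
      rw [← h4]
      exact ((u⁻¹ : (M.A)ˣ) : M.A).2
    have hres : M.res ⟨c⁻¹, hinv⟩ = 0 := (M.res_eq_zero _).mpr hnu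
    have h5 := M.rho_map ⟨c⁻¹, hinv⟩
    rw [hres, map_zero] at h5
    have h6 : (⟨M.x, M.x_mem⟩ : M.O) * ⟨algebraMap K F c⁻¹, M.map_mem ⟨c⁻¹, hinv⟩⟩ = 1 := by
      apply Subtype.ext
      show M.x * algebraMap K F c⁻¹ = 1
      rw [← hc, ← map_mul, mul_inv_cancel₀ hc0, map_one]
    have h7 := congrArg M.rho h6
    rw [map_mul, h5, mul_zero, map_one] at h7
    exact zero_ne_one h7

/-- the residue map of the constants as a total function (`0` outside `A`). -/
def RedModel.resFun (M : RedModel K k F Fk) (c : K) : k :=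
  open Classical in if hc : c ∈ M.A then M.res ⟨c, hc⟩ else 0

theorem RedModel.resFun_of_mem (M : RedModel K k F Fk) {c : K} (hc : c ∈ M.A) :
    M.resFun c = M.res ⟨c, hc⟩ := by
  unfold RedModel.resFun
  rw [dif_pos hc]

/-- **GE, inequality `g(F) ≤ g(Fk)`**: Riemann-Hurwitz comparison from the fibre bounds
(finite part: `FibreBound M`; at `∞`: the fibre bound in the chart `x⁻¹`). -/
theorem genusFF_le_of_fibreBound [IsAlgClosed K] [CharZero K] [IsAlgClosed k]
    (M : RedModel K k F Fk) (n : ℕ) (hdeg : DegData M n) (BD : BranchData M n)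
    (hK : Fermat.Agent.RR.IsRRField K F) (hk : Fermat.Agent.RR.IsRRField k Fk)
    (hfib : FibreBound M)
    (hinf : fibreCard k M.xbar⁻¹ 0 ≤ fibreCard K M.x⁻¹ 0) :
    genusFF K F ≤ genusFF k Fk := by
  have hx := M.ge_x_transcendental
  have hxk : Transcendental k M.xbar := M.x_trans
  haveI : FiniteDimensional K⟮M.x⟯ F :=
    Module.finite_of_finrank_pos (by rw [hdeg.deg]; exact hdeg.pos)
  haveI : FiniteDimensional k⟮M.xbar⟯ Fk :=
    Module.finite_of_finrank_pos (by rw [hdeg.degk]; exact hdeg.pos)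
  haveI : Algebra.IsSeparable k⟮M.xbar⟯ Fk := hdeg.sepk
  haveI : Algebra.IsSeparable K⟮M.x⟯ F := Algebra.IsSeparable.of_integral _ _
  refine Fermat.Agent.RRHur.genusFF_le_of_fibres hK hk hx hxk (by rw [hdeg.deg, hdeg.degk])
    BD.S M.resFun ?_ ?_ ?_ ?_
  · intro c hc c' hc' hcc
    have hcA := BD.S_mem c hc
    have hcA' := BD.S_mem c' hc'
    rw [M.resFun_of_mem hcA, M.resFun_of_mem hcA'] at hcc
    exact BD.S_inj c hc c' hc' hcA hcA' hcc
  · intro c hc
    rw [← fibreCard_eq_card_zeros hx, BD.unram c hc, hdeg.deg]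
  · intro c hc
    have hcA := BD.S_mem c hc
    rw [← fibreCard_eq_card_zeros hx, ← fibreCard_eq_card_zeros hxk, M.resFun_of_mem hcA]
    exact hfib c hcA
  · rw [← fibreCard_inv_eq_card_poles hx, ← fibreCard_inv_eq_card_poles hxk]
    exact hinf

end Fermat.Agent.GoodRed
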