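/-
Cluster B / GoodRed, WP (M) + (GE), modular assembly (helper24).

For a place `A` of `ℚ̄` over a prime `ℓ ∉ {2, 3}`, `ℓ ∤ N`, `k` its residue field,
`F = modularFunctionFieldBar N`, `Fk = modularFunctionFieldFullC k N`:

* `modularRedModel_xbar`: the reduced base parameter is `j̄ = jC k N`;
* `modularDegData`: `DegData` for the modular `RedModel`, from the single input
  `hdegk : [Fk : k(j̄)] = [SL₂(ℤ) : Γ₀(N)]` (separability is `RRMod.isSeparable_fullC'`);
* `modular_fibreBound`, `modular_fibreBound_inv`: the fibre bounds of the discriminant chain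
  (finite chart and chart at infinity);
* `genusFF_modular_le`: `g(F) ≤ g(Fk)` (Riemann-Hurwitz, helper40);
* `genusFF_modular_eq`: `g(F) = g(Fk)` (with Deuring's inequality, helper79 / helper5).
-/
import Mathlib
import Fermat.Agent.Lib.GoodRed.ModularData
import Fermat.Agent.Lib.GoodRed.Final
import Fermat.Agent.Lib.GoodRed.Genus
import Fermat.Agent.Lib.GaussInt.ModularInst
import Fermat.Agent.Lib.Deuring.FundIneq
import Fermat.Agent.Lib.GaussVal.Degree

set_option autoImplicit false
set_option linter.unusedSectionVars false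
set_option linter.style.haveILetI false

noncomputable section

namespace Fermat.Agent.GoodRed

open ModularCurve Fermat.Agent.GaussInt IntermediateField AlgebraicCurve
open scoped IntermediateField.algebraAdjoinAdjoin


section Modular

set_option synthInstance.maxHeartbeats 400000
set_option maxHeartbeats 1000000

variable (N : ℕ) [NeZero N] {ℓ : ℕ} (hℓ : ℓ.Prime)
  {A : ValuationSubring (AlgebraicClosure ℚ)} (hA : A.LiesOverPrime ℓ) (hR : RangeAt N A)

/-- the reduced base parameter of the modular `RedModel` is `j̄`. -/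
theorem modularRedModel_xbar :
    (modularRedModel N hℓ hA hR).xbar = Fermat.Agent.RRMod.jC (IsLocalRing.ResidueField A) N :=
  Subtype.ext (coe_modularRedModel_xbar N hℓ hA hR)

/-- `F_k / k(j̄)` is separable. -/
theorem isSeparable_modularRedModel :
    Algebra.IsSeparable
      (IntermediateField.adjoin (IsLocalRing.ResidueField A)
        {(modularRedModel N hℓ hA hR).xbar})
      ↥(modularFunctionFieldFullC (IsLocalRing.ResidueField A) N) := by
  haveI := isAlgClosed_residue A
  rw [modularRedModel_xbar]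
  exact Fermat.Agent.RRMod.isSeparable_fullC' (IsLocalRing.ResidueField A) N

/-- `[F_k : k(j̄)] = [SL₂(ℤ) : Γ₀(N)]` for `ℓ ∤ N` (helper66's degrees + helper19's index). -/
theorem finrank_modularRedModel_xbar (hℓN : ¬ ℓ ∣ N) :
    Module.finrank
      (IntermediateField.adjoin (IsLocalRing.ResidueField A)
        {(modularRedModel N hℓ hA hR).xbar})
      ↥(modularFunctionFieldFullC (IsLocalRing.ResidueField A) N)
        = (CongruenceSubgroup.Gamma0 N).index :=
  (Fermat.Agent.GaussVal.finrank_fullC_of_isAlgClosed A ℓ N hℓ hA hℓN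
      (modularRedModel N hℓ hA hR).xbar (coe_modularRedModel_xbar N hℓ hA hR)).trans
    ((Fermat.Agent.GaussVal.finrank_fullL_of_isAlgClosed A ℓ N hℓ hA hℓN
        (Fermat.Agent.S24.jBar N) (Fermat.Agent.S24.coe_jBar_eq_jqModC N)).symm.trans
      (Fermat.Agent.GoodRedBranch.finrank_jBar N))

/-- WP (M), DEGREE, unconditional: `DegData` for the modular `RedModel`, `ℓ ∤ N`. -/
theorem modularDegData (hℓN : ¬ ℓ ∣ N) :
    DegData (modularRedModel N hℓ hA hR) (CongruenceSubgroup.Gamma0 N).index :=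
  degData_modularRedModel N hℓ hA hR (finrank_modularRedModel_xbar N hℓ hA hR hℓN)
    (isSeparable_modularRedModel N hℓ hA hR)

/-- the nonzero branch values are units at a place over `ℓ ∉ {2, 3}`. -/
theorem inv_mem_of_mem_branchSet (h2 : ℓ ≠ 2) (h3 : ℓ ≠ 3) :
    ∀ c ∈ (modularBranchData N hℓ hA hR h2 h3).S, c ≠ 0 →
      c⁻¹ ∈ (modularRedModel N hℓ hA hR).A := by
  intro c hc h0
  rw [modularBranchData_S, mem_branchSet] at hc
  rcases hc with rfl | rfl
  · exact absurd rfl h0
  · obtain ⟨u, hu⟩ := isUnit_1728 hℓ hA h2 h3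
    have h1 : (((u⁻¹ : Aˣ) : A) : AlgebraicClosure ℚ) = (1728 : AlgebraicClosure ℚ)⁻¹ := by
      have h2 : ((u : A) : AlgebraicClosure ℚ) * (((u⁻¹ : Aˣ) : A) : AlgebraicClosure ℚ) = 1 := by
        have := congrArg (Subtype.val : A → AlgebraicClosure ℚ) (u.mul_inv)
        exact this
      rw [hu] at h2
      have h3 : (((1728 : ℕ) : A) : AlgebraicClosure ℚ) = 1728 := by
        show ((1728 : ℕ) : AlgebraicClosure ℚ) = 1728
        norm_num
      rw [h3] at h2
      exact eq_inv_of_mul_eq_one_right h2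
    show (1728 : AlgebraicClosure ℚ)⁻¹ ∈ A
    rw [← h1]
    exact ((u⁻¹ : Aˣ) : A).2

/-- (FIB) for the modular curve, finite chart: the fibre of `j̄` over `c̄` has at most as many
points as the fibre of `j` over `c`. -/
theorem modular_fibreBound (hℓN : ¬ ℓ ∣ N) (h2 : ℓ ≠ 2) (h3 : ℓ ≠ 3) :
    FibreBound (modularRedModel N hℓ hA hR) := by
  haveI := isAlgClosed_residue A
  exact (discChain _ _ _ _ _ _ (modularDegData N hℓ hA hR hℓN)
    (modularBranchData N hℓ hA hR h2 h3)).2

/-- (NORM) for the modular curve, finite chart. -/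
theorem modular_normalReduction (hℓN : ¬ ℓ ∣ N) (h2 : ℓ ≠ 2) (h3 : ℓ ≠ 3) :
    NormalReduction (modularRedModel N hℓ hA hR) := by
  haveI := isAlgClosed_residue A
  exact (discChain _ _ _ _ _ _ (modularDegData N hℓ hA hR hℓN)
    (modularBranchData N hℓ hA hR h2 h3)).1

/-- (FIB) for the modular curve, chart at infinity. -/
theorem modular_fibreBound_inv (hℓN : ¬ ℓ ∣ N) (h2 : ℓ ≠ 2) (h3 : ℓ ≠ 3) :
    FibreBound (modularRedModel N hℓ hA hR).inv := by
  haveI := isAlgClosed_residue A
  exact fibreBound_inv _ _ (modularDegData N hℓ hA hR hℓN)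
    (modularBranchData N hℓ hA hR h2 h3) (inv_mem_of_mem_branchSet N hℓ hA hR h2 h3)

/-- (NORM) for the modular curve, chart at infinity. -/
theorem modular_normalReduction_inv (hℓN : ¬ ℓ ∣ N) (h2 : ℓ ≠ 2) (h3 : ℓ ≠ 3) :
    NormalReduction (modularRedModel N hℓ hA hR).inv := by
  haveI := isAlgClosed_residue A
  exact (discChain _ _ _ _ _ _ (modularDegData N hℓ hA hR hℓN).inv
    ((modularBranchData N hℓ hA hR h2 h3).inv
      (inv_mem_of_mem_branchSet N hℓ hA hR h2 h3))).1

/-- **GE, `≤`**: `g(X₀(N)_{ℚ̄}) ≤ g(F_k)` for `ℓ ∤ N`, `ℓ ∉ {2, 3}`. -/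
theorem genusFF_modular_le {ℓ : ℕ} (hℓ : ℓ.Prime)
    {A : ValuationSubring (AlgebraicClosure ℚ)} (hA : A.LiesOverPrime ℓ)
    (hℓN : ¬ ℓ ∣ N) (h2 : ℓ ≠ 2) (h3 : ℓ ≠ 3) :
    genusFF (AlgebraicClosure ℚ) ↥(modularFunctionFieldBar N) ≤
      genusFF (IsLocalRing.ResidueField A)
        ↥(modularFunctionFieldFullC (IsLocalRing.ResidueField A) N) := by
  haveI := isAlgClosed_residue A
  have hR := rangeAt N hℓ hA hℓN
  exact genusFF_le_of_fibreBound (modularRedModel N hℓ hA hR) _
    (modularDegData N hℓ hA hR hℓN) (modularBranchData N hℓ hA hR h2 h3)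
    (Fermat.Agent.RRMod.isRRField_bar N)
    (Fermat.Agent.RRMod.isRRField_fullC' (IsLocalRing.ResidueField A) N)
    (modular_fibreBound N hℓ hA hR hℓN h2 h3)
    (FibreBound.at_infty (modular_fibreBound_inv N hℓ hA hR hℓN h2 h3))

/-- **GE**: the genus of the reduction of `X₀(N)` at a place over `ℓ ∤ N`, `ℓ ∉ {2, 3}` is the
genus of `X₀(N)`. -/
theorem genusFF_modular_eq {ℓ : ℕ} (hℓ : ℓ.Prime)
    {A : ValuationSubring (AlgebraicClosure ℚ)} (hA : A.LiesOverPrime ℓ)
    (hℓN : ¬ ℓ ∣ N) (h2 : ℓ ≠ 2) (h3 : ℓ ≠ 3) :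
    genusFF (AlgebraicClosure ℚ) ↥(modularFunctionFieldBar N) =
      genusFF (IsLocalRing.ResidueField A)
        ↥(modularFunctionFieldFullC (IsLocalRing.ResidueField A) N) := by
  haveI := infinite_residue A
  exact le_antisymm (genusFF_modular_le N hℓ hA hℓN h2 h3)
    (Fermat.Agent.Deuring.genusFF_le (modularValSetup A ℓ N hℓ hA hℓN)
      (hasLattice_modularValSetup A ℓ N hℓ hA hℓN))

end Modular

end Fermat.Agent.GoodRed
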