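import Fermat.Agent.Lib.GoodRed.Steps

/-!
# Cluster B / GoodRed: evaluation `K[x] → K` at `x = c` (helper57; architect helper37)

`evalAt hx c : K[x] → K` for a transcendental `x`, its kernel `(x - c)`, the maximal ideals of
`K[x]` for algebraically closed `K`, and the comparison of `numPts` (points of a `K[x]`-subalgebra
over `ev`) with the `K`-algebra homomorphisms sending `x` to `c` (`fibreCard`).
-/

set_option autoImplicit false

namespace Fermat.Agent.GoodRed

open Polynomial IntermediateField
open scoped IntermediateField.algebraAdjoinAdjoin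

noncomputable section

variable {K F : Type} [Field K] [Field F] [Algebra K F] {x : F}

/-- evaluation at `x = c`. -/
def evalAt (hx : Transcendental K x) (c : K) : Algebra.adjoin K {x} →ₐ[K] K :=
  (Polynomial.aeval c).comp (Polynomial.algEquivOfTranscendental K x hx).symm.toAlgHom

theorem evalAt_apply (hx : Transcendental K x) (c : K) (y : Algebra.adjoin K {x}) :
    evalAt hx c y = ((Polynomial.algEquivOfTranscendental K x hx).symm y).eval c := by
  simp only [evalAt, AlgHom.comp_apply, coe_aeval_eq_eval]
  rfl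

theorem evalAt_equiv (hx : Transcendental K x) (c : K) (p : K[X]) :
    evalAt hx c (Polynomial.algEquivOfTranscendental K x hx p) = p.eval c := by
  rw [evalAt_apply, AlgEquiv.symm_apply_apply]

theorem equiv_X_sub_C (hx : Transcendental K x) (c : K) :
    Polynomial.algEquivOfTranscendental K x hx (X - C c) = piAt K x c := by
  rw [map_sub, algEquivOfTranscendental_apply_X]
  have : Polynomial.algEquivOfTranscendental K x hx (C c) =
      algebraMap K (Algebra.adjoin K {x}) c := by
    rw [← Polynomial.algebraMap_eq, AlgEquiv.commutes]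
  rw [this]
  rfl

theorem evalAt_genAdj (hx : Transcendental K x) (c : K) : evalAt hx c (genAdj x) = c := by
  have h : genAdj x = Polynomial.algEquivOfTranscendental K x hx X := by
    rw [algEquivOfTranscendental_apply_X]
    rfl
  rw [h, evalAt_equiv, eval_X]

theorem isEvalAt_evalAt (hx : Transcendental K x) (c : K) :
    IsEvalAt x c (evalAt hx c).toRingHom :=
  ⟨evalAt_genAdj hx c, fun a => (evalAt hx c).commutes a⟩

theorem evalAt_surjective (hx : Transcendental K x) (c : K) :
    Function.Surjective (evalAt hx c) :=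
  fun a => ⟨algebraMap K _ a, (evalAt hx c).commutes a⟩

theorem ker_evalAt (hx : Transcendental K x) (c : K) :
    RingHom.ker (evalAt hx c).toRingHom = Ideal.span {piAt K x c} := by
  ext y
  rw [RingHom.mem_ker, Ideal.mem_span_singleton]
  obtain ⟨p, rfl⟩ := (Polynomial.algEquivOfTranscendental K x hx).surjective y
  rw [← equiv_X_sub_C hx c]
  show evalAt hx c _ = 0 ↔ _
  rw [evalAt_equiv, map_dvd_iff, dvd_iff_isRoot]
  rfl

theorem prime_piAt (hx : Transcendental K x) (c : K) : Prime (piAt K x c) := by
  rw [← equiv_X_sub_C hx c]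
  exact (MulEquiv.prime_iff (Polynomial.algEquivOfTranscendental K x hx).toMulEquiv).mpr
    (prime_X_sub_C c)

theorem exists_piAt_of_isMaximal [IsAlgClosed K] (hx : Transcendental K x)
    (I : Ideal (Algebra.adjoin K {x})) (hI : I.IsMaximal) :
    ∃ c : K, I = Ideal.span {piAt K x c} := by
  set e := Polynomial.algEquivOfTranscendental K x hx with he
  -- the pulled back ideal of `K[X]`
  have hJ : (Ideal.comap e.toRingEquiv I).IsMaximal := Ideal.comap_isMaximal_of_equiv e.toRingEquiv
  obtain ⟨p, hp⟩ := (IsPrincipalIdealRing.principal (Ideal.comap e.toRingEquiv I)).principal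
  have hp' : Ideal.comap e.toRingEquiv I = Ideal.span {p} := hp
  have hp0 : p ≠ 0 := by
    rintro rfl
    rw [Ideal.span_singleton_zero] at hp'
    rw [hp'] at hJ
    exact Polynomial.not_isField K (Ring.isField_iff_maximal_bot.mpr hJ)
  have hpu : ¬ IsUnit p := by
    intro hu
    apply hJ.ne_top
    rw [hp']
    exact Ideal.span_singleton_eq_top.mpr hu
  have hdeg : p.degree ≠ 0 := by
    intro h0
    apply hpu
    rw [Polynomial.eq_C_of_degree_eq_zero h0]
    refine Polynomial.isUnit_C.mpr (IsUnit.mk0 _ ?_)
    intro hc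
    apply hp0
    rw [Polynomial.eq_C_of_degree_eq_zero h0, hc, map_zero]
  obtain ⟨c, hc⟩ := IsAlgClosed.exists_root p hdeg
  refine ⟨c, ?_⟩
  have hle : I ≤ Ideal.span {piAt K x c} := by
    intro y hy
    obtain ⟨q, rfl⟩ := e.surjective y
    have hq : q ∈ Ideal.comap e.toRingEquiv I := hy
    rw [hp', Ideal.mem_span_singleton] at hq
    rw [Ideal.mem_span_singleton, ← equiv_X_sub_C hx c, map_dvd_iff]
    exact (dvd_iff_isRoot.mpr hc).trans hq
  have hne : Ideal.span {piAt K x c} ≠ (⊤ : Ideal (Algebra.adjoin K {x})) := by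
    rw [Ne, Ideal.span_singleton_eq_top]
    exact (prime_piAt hx c).not_isUnit
  exact hI.eq_of_le hne hle

/-- a `K`-subalgebra containing `x`, viewed over `K[x]` -/
def overAdjoin (B : Subalgebra K F) (hxB : x ∈ B) : Subalgebra (Algebra.adjoin K {x}) F where
  carrier := B
  mul_mem' := B.mul_mem
  add_mem' := B.add_mem
  algebraMap_mem' := fun r => (Algebra.adjoin_le (Set.singleton_subset_iff.mpr hxB)) r.2

theorem mem_overAdjoin (B : Subalgebra K F) (hxB : x ∈ B) {y : F} :
    y ∈ overAdjoin B hxB ↔ y ∈ B := Iff.rfl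

/-- a `K`-algebra homomorphism `B → K` with `x ↦ c` restricts to `evalAt` on `K[x]`. -/
theorem algHom_eq_evalAt (hx : Transcendental K x) (B : Subalgebra K F) (hxB : x ∈ B) (c : K)
    (ψ : B →ₐ[K] K) (hψ : ψ ⟨x, hxB⟩ = c) (r : Algebra.adjoin K {x}) :
    ψ ⟨(r : F), (Algebra.adjoin_le (Set.singleton_subset_iff.mpr hxB)) r.2⟩ = evalAt hx c r := by
  have hle : Algebra.adjoin K {x} ≤ B := Algebra.adjoin_le (Set.singleton_subset_iff.mpr hxB)
  obtain ⟨p, rfl⟩ := (Polynomial.algEquivOfTranscendental K x hx).surjective r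
  rw [evalAt_equiv]
  have h1 : (ψ.comp (Subalgebra.inclusion hle))
      (Polynomial.algEquivOfTranscendental K x hx p) = p.eval c := by
    rw [algEquivOfTranscendental_apply, ← Polynomial.aeval_algHom_apply, AlgHom.comp_apply]
    have : (Subalgebra.inclusion hle) ⟨x, Algebra.self_mem_adjoin_singleton K x⟩ = ⟨x, hxB⟩ := rfl
    rw [this, hψ, coe_aeval_eq_eval]
  exact h1

theorem numPts_overAdjoin (hx : Transcendental K x) (B : Subalgebra K F) (hxB : x ∈ B) (c : K) :
    numPts (Algebra.adjoin K {x}) F (overAdjoin B hxB) (evalAt hx c).toRingHom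
      = Nat.card {χ : B →ₐ[K] K // χ ⟨x, hxB⟩ = c} := by
  unfold numPts
  refine Nat.card_congr ?_
  refine
    { toFun := fun χ => ⟨
        { toFun := fun y => χ.1 ⟨(y : F), y.2⟩
          map_one' := χ.1.map_one
          map_mul' := fun y z => χ.1.map_mul ⟨(y : F), y.2⟩ ⟨(z : F), z.2⟩
          map_zero' := χ.1.map_zero
          map_add' := fun y z => χ.1.map_add ⟨(y : F), y.2⟩ ⟨(z : F), z.2⟩
          commutes' := fun a => by
            have h := χ.2 (algebraMap K (Algebra.adjoin K {x}) a)
            exact h.trans ((evalAt hx c).commutes a) },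
        (χ.2 (genAdj x)).trans (evalAt_genAdj hx c)⟩
      invFun := fun ψ => ⟨
        { toFun := fun y => ψ.1 ⟨(y : F), y.2⟩
          map_one' := ψ.1.map_one
          map_mul' := fun y z => ψ.1.map_mul ⟨(y : F), y.2⟩ ⟨(z : F), z.2⟩
          map_zero' := ψ.1.map_zero
          map_add' := fun y z => ψ.1.map_add ⟨(y : F), y.2⟩ ⟨(z : F), z.2⟩ },
        fun r => algHom_eq_evalAt hx B hxB c ψ.1 ψ.2 r⟩
      left_inv := fun χ => by
        apply Subtype.ext
        ext y
        rfl
      right_inv := fun ψ => by
        apply Subtype.ext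
        ext y
        rfl }

theorem overAdjoin_intCl (hxB : x ∈ intCl K x) :
    overAdjoin (intCl K x) hxB = integralClosure (Algebra.adjoin K {x}) F :=
  SetLike.ext fun _ => Iff.rfl

theorem numPts_integralClosure_eq_fibreCard (hx : Transcendental K x) (c : K) :
    numPts (Algebra.adjoin K {x}) F (integralClosure (Algebra.adjoin K {x}) F)
        (evalAt hx c).toRingHom
      = fibreCard K x c := by
  have hxB : x ∈ intCl K x := by
    have h : (algebraMap (Algebra.adjoin K {x}) F) (genAdj x) ∈
        integralClosure (Algebra.adjoin K {x}) F := Subalgebra.algebraMap_mem _ _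
    exact h
  rw [← overAdjoin_intCl hxB, numPts_overAdjoin hx (intCl K x) hxB c]
  unfold fibreCard
  refine Nat.card_congr (Equiv.subtypeEquivRight fun χ => ?_)
  exact ⟨fun h _ => h, fun h => h hxB⟩

end

end Fermat.Agent.GoodRed
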