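/-
Cluster B / GoodRed, step (L1): the lifted basis.  (helper9; architect helper37)
From `CharpolyRed M` and `DegData M n`: a `k[x̄]`-basis of `B̄ = ρ(B₀)` which is a `k(x̄)`-basis of
`Fk`, lifts `b i ∈ B₀`, and the Gram determinant of `b` as a polynomial `D ∈ A[X]` reducing to the
Gram determinant of `b̄`.
-/
import Fermat.Agent.Lib.GoodRed.LiftStatements

set_option autoImplicit false
set_option linter.style.haveILetI false
set_option linter.unusedVariables false
set_option linter.unusedSectionVars false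

namespace Fermat.Agent.GoodRed

open Polynomial IntermediateField
open scoped IntermediateField.algebraAdjoinAdjoin

noncomputable section

variable {K k F Fk : Type} [Field K] [Field k] [Field F] [Field Fk] [Algebra K F] [Algebra k Fk]

/-- Scaling a nonzero polynomial over `K` to a polynomial over the valuation ring `A` with a unit
coefficient. -/
theorem lb_exists_scale (A : ValuationSubring K) (P : K[X]) (hP : P ≠ 0) :
    ∃ (c : K) (Q : A[X]), c ≠ 0 ∧ Q.map A.subtype = C c * P ∧ ∃ i, IsUnit (Q.coeff i) := by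
  classical
  have hne : P.support.Nonempty := by
    rwa [Finset.nonempty_iff_ne_empty, Ne, Polynomial.support_eq_empty]
  obtain ⟨j, hj, hmax⟩ := Finset.exists_max_image P.support (fun i => A.valuation (P.coeff i)) hne
  have hj0 : P.coeff j ≠ 0 := Polynomial.mem_support_iff.mp hj
  have hmem : ∀ i, (P.coeff j)⁻¹ * P.coeff i ∈ A := by
    intro i
    by_cases hi : i ∈ P.support
    · rw [← A.valuation_le_one_iff, map_mul, map_inv₀]
      have h1 := hmax i hi
      have h2 : A.valuation (P.coeff j) ≠ 0 := (Valuation.ne_zero_iff _).mpr hj0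
      rw [inv_mul_le_iff₀ (zero_lt_iff.mpr h2), mul_one]
      exact h1
    · rw [Polynomial.notMem_support_iff.mp hi, mul_zero]; exact A.zero_mem
  have hlift : C (P.coeff j)⁻¹ * P ∈ Polynomial.lifts A.subtype := by
    rw [Polynomial.lifts_iff_coeff_lifts]
    intro i
    rw [Polynomial.coeff_C_mul]
    exact ⟨⟨_, hmem i⟩, rfl⟩
  obtain ⟨Q, hQ'⟩ := hlift
  have hQ : Q.map A.subtype = C (P.coeff j)⁻¹ * P := hQ'
  refine ⟨(P.coeff j)⁻¹, Q, inv_ne_zero hj0, hQ, j, ?_⟩
  have hc : ((Q.coeff j : A) : K) = 1 := by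
    have := congrArg (fun R : K[X] => R.coeff j) hQ
    simp only [Polynomial.coeff_map, Polynomial.coeff_C_mul] at this
    rw [inv_mul_cancel₀ hj0] at this
    exact this
  have : Q.coeff j = 1 := Subtype.ext hc
  rw [this]; exact isUnit_one

namespace RedModel

variable (M : RedModel K k F Fk)

/-- The inclusion `A → O`. -/
def lb_AtoO : M.A →+* M.O where
  toFun a := ⟨algebraMap K F a, M.map_mem a⟩
  map_one' := by ext; simp
  map_mul' a b := by ext; simp
  map_zero' := by ext; simp
  map_add' a b := by ext; simp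

@[simp] theorem lb_coe_AtoO (a : M.A) : ((M.lb_AtoO a : M.O) : F) = algebraMap K F a := rfl

theorem lb_rho_AtoO (a : M.A) : M.rho (M.lb_AtoO a) = algebraMap k Fk (M.res a) := M.rho_map a

/-- Evaluation `A[X] → O`, `X ↦ x`. -/
def lb_evO : M.A[X] →+* M.O := Polynomial.eval₂RingHom M.lb_AtoO ⟨M.x, M.x_mem⟩

theorem lb_coe_evO (Q : M.A[X]) : ((M.lb_evO Q : M.O) : F) = aeval M.x (Q.map M.A.subtype) := by
  induction Q using Polynomial.induction_on' with
  | add p q hp hq => simp only [map_add, Polynomial.map_add, hp, hq, AddMemClass.coe_add]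
  | monomial n a =>
    simp [lb_evO, Polynomial.eval₂_monomial, Polynomial.map_monomial, Polynomial.aeval_monomial]

theorem lb_rho_evO (Q : M.A[X]) : M.rho (M.lb_evO Q) = aeval M.xbar (Q.map M.res) := by
  induction Q using Polynomial.induction_on' with
  | add p q hp hq => simp only [map_add, Polynomial.map_add, hp, hq]
  | monomial n a =>
    simp only [lb_evO, Polynomial.coe_eval₂RingHom, Polynomial.eval₂_monomial, map_mul, map_pow,
      Polynomial.map_monomial, Polynomial.aeval_monomial, lb_rho_AtoO]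
    rfl

/-- `x` is transcendental over `K`. -/
theorem lb_x_transcendental : Transcendental K M.x := by
  intro halg
  obtain ⟨P, hP0, hP⟩ := halg
  obtain ⟨c, Q, hc, hQ, i, hi⟩ := lb_exists_scale M.A P hP0
  have h1 : ((M.lb_evO Q : M.O) : F) = 0 := by
    rw [lb_coe_evO, hQ, map_mul, hP, mul_zero]
  have h2 : M.lb_evO Q = 0 := Subtype.ext h1
  have h3 : aeval M.xbar (Q.map M.res) = 0 := by rw [← lb_rho_evO, h2, map_zero]
  have h4 : Q.map M.res ≠ 0 := by
    intro h
    have := congrArg (fun R : k[X] => R.coeff i) h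
    simp only [Polynomial.coeff_map, Polynomial.coeff_zero] at this
    exact ((M.res_eq_zero _).mp this) hi
  exact M.x_trans ⟨_, h4, h3⟩

end RedModel

namespace RedModel

variable (M : RedModel K k F Fk)

/-- `A[X] → k[x̄]`. -/
def lb_toAdjbar : M.A[X] →+* Algebra.adjoin k {M.xbar} :=
  (Polynomial.aeval (genAdj (K := k) M.xbar)).toRingHom.comp (Polynomial.mapRingHom M.res)

theorem lb_coe_toKx (Q : M.A[X]) : ((M.toKx Q : K⟮M.x⟯) : F) = aeval M.x (Q.map M.A.subtype) := by
  show ((aeval (⟨M.x, mem_adjoin_simple_self K M.x⟩ : K⟮M.x⟯) (Q.map M.A.subtype) : K⟮M.x⟯) : F) = _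
  rw [← IntermediateField.algebraMap_apply, ← Polynomial.aeval_algebraMap_apply]
  rfl

theorem lb_coe_toKxbar (Q : M.A[X]) : ((M.toKxbar Q : k⟮M.xbar⟯) : Fk) = aeval M.xbar (Q.map M.res) := by
  show ((aeval (⟨M.xbar, mem_adjoin_simple_self k M.xbar⟩ : k⟮M.xbar⟯) (Q.map M.res) :
    k⟮M.xbar⟯) : Fk) = _
  rw [← IntermediateField.algebraMap_apply, ← Polynomial.aeval_algebraMap_apply]
  rfl

theorem lb_coe_toAdjbar (Q : M.A[X]) :
    ((M.lb_toAdjbar Q : Algebra.adjoin k {M.xbar}) : Fk) = aeval M.xbar (Q.map M.res) := by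
  show ((aeval (genAdj (K := k) M.xbar) (Q.map M.res) : Algebra.adjoin k {M.xbar}) : Fk) = _
  have : ((aeval (genAdj (K := k) M.xbar) (Q.map M.res) : Algebra.adjoin k {M.xbar}) : Fk)
      = algebraMap (Algebra.adjoin k {M.xbar}) Fk (aeval (genAdj (K := k) M.xbar) (Q.map M.res)) :=
    rfl
  rw [this, ← Polynomial.aeval_algebraMap_apply]
  rfl

theorem lb_algebraMap_toAdjbar (Q : M.A[X]) :
    algebraMap (Algebra.adjoin k {M.xbar}) k⟮M.xbar⟯ (M.lb_toAdjbar Q) = M.toKxbar Q := by
  apply Subtype.ext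
  rw [lb_coe_toKxbar]
  exact M.lb_coe_toAdjbar Q

theorem lb_algebraMap_toKxbar (Q : M.A[X]) :
    algebraMap k⟮M.xbar⟯ Fk (M.toKxbar Q) = M.rho (M.lb_evO Q) := by
  rw [lb_rho_evO, ← lb_coe_toKxbar]; rfl

theorem lb_algebraMap_toKx (Q : M.A[X]) :
    algebraMap K⟮M.x⟯ F (M.toKx Q) = ((M.lb_evO Q : M.O) : F) := by
  rw [lb_coe_evO, ← lb_coe_toKx]; rfl

end RedModel

/-- The trace of a linear endomorphism of a finite-dimensional vector space is minus the next
coefficient of its characteristic polynomial. -/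
theorem lb_trace_eq_neg_nextCoeff {R V : Type*} [Field R] [AddCommGroup V] [Module R V]
    [FiniteDimensional R V] (f : V →ₗ[R] V) :
    LinearMap.trace R V f = -(LinearMap.charpoly f).nextCoeff := by
  classical
  rw [LinearMap.charpoly_def, LinearMap.trace_eq_matrix_trace R (Module.Free.chooseBasis R V) f,
    Matrix.trace_eq_neg_charpoly_nextCoeff]

/-- `Algebra.trace` as minus the next coefficient of the characteristic polynomial of the
multiplication map. -/
theorem lb_algebra_trace_eq {R S : Type*} [Field R] [Field S] [Algebra R S]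
    [FiniteDimensional R S] (y : S) :
    Algebra.trace R S y = -(LinearMap.charpoly (LinearMap.mulLeft R y)).nextCoeff := by
  rw [Algebra.trace_apply, ← lb_trace_eq_neg_nextCoeff]
  rfl

/-- Cayley-Hamilton for the multiplication map, evaluated at `1`. -/
theorem lb_aeval_charpoly_mulLeft {R S : Type*} [Field R] [Field S] [Algebra R S]
    [FiniteDimensional R S] (y : S) :
    aeval y (LinearMap.charpoly (LinearMap.mulLeft R y)) = 0 := by
  have h := LinearMap.aeval_self_charpoly (LinearMap.mulLeft R y)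
  have h2 : aeval (Algebra.lmul R S y) (LinearMap.charpoly (LinearMap.mulLeft R y))
      = Algebra.lmul R S (aeval y (LinearMap.charpoly (LinearMap.mulLeft R y))) :=
    Polynomial.aeval_algHom_apply (Algebra.lmul R S) y _
  have h3 : Algebra.lmul R S (aeval y (LinearMap.charpoly (LinearMap.mulLeft R y))) = 0 := by
    rw [← h2]; exact h
  have h4 := congrArg (fun g : S →ₗ[R] S => g 1) h3
  simpa using h4

namespace RedModel

variable (M : RedModel K k F Fk)

section withT

variable [FiniteDimensional K⟮M.x⟯ F] [FiniteDimensional k⟮M.xbar⟯ Fk] (hT : CharpolyRed M)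

include hT

/-- (L1a) `B̄ ⊆ C`: the reduction of an integral function is integral over `k[x̄]`. -/
theorem lb_isIntegral_rho (f : M.O) (hf : (f : F) ∈ intCl K M.x) :
    IsIntegral (Algebra.adjoin k {M.xbar}) (M.rho f) := by
  obtain ⟨Φ, hmonic, -, hk⟩ := hT f hf
  refine ⟨Φ.map M.lb_toAdjbar, hmonic.map _, ?_⟩
  have h1 : (Φ.map M.lb_toAdjbar).map (algebraMap (Algebra.adjoin k {M.xbar}) k⟮M.xbar⟯)
      = LinearMap.charpoly (LinearMap.mulLeft k⟮M.xbar⟯ (M.rho f)) := by
    rw [← hk, Polynomial.map_map]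
    congr 1
    ext Q
    · simp only [RingHom.comp_apply]
      rw [M.lb_algebraMap_toAdjbar]
      rfl
    · simp only [RingHom.comp_apply]
      rw [M.lb_algebraMap_toAdjbar]
      rfl
  have h2 := lb_aeval_charpoly_mulLeft (R := k⟮M.xbar⟯) (M.rho f)
  rw [← h1, Polynomial.aeval_def, Polynomial.eval₂_map] at h2
  rw [← h2]
  congr 1

/-- (L1b) trace reduction. -/
theorem lb_exists_trace_poly (f : M.O) (hf : (f : F) ∈ intCl K M.x) :
    ∃ P : M.A[X], M.toKx P = Algebra.trace K⟮M.x⟯ F (f : F) ∧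
      M.toKxbar P = Algebra.trace k⟮M.xbar⟯ Fk (M.rho f) := by
  obtain ⟨Φ, hmonic, hK, hk⟩ := hT f hf
  refine ⟨-Φ.nextCoeff, ?_, ?_⟩
  · rw [lb_algebra_trace_eq, ← hK, map_neg]
    congr 1
    exact (Polynomial.nextCoeff_map_eq_of_isUnit_leadingCoeff _ (by rw [hmonic.leadingCoeff]; exact isUnit_one)).symm
  · rw [lb_algebra_trace_eq, ← hk, map_neg]
    congr 1
    exact (Polynomial.nextCoeff_map_eq_of_isUnit_leadingCoeff _ (by rw [hmonic.leadingCoeff]; exact isUnit_one)).symm

end withT

end RedModel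

theorem lb_mem_intCl_iff {x f : F} :
    f ∈ intCl K x ↔ IsIntegral (Algebra.adjoin K {x}) f := Iff.rfl

theorem lb_isPrincipalIdealRing_adjoin {t : F} (ht : Transcendental K t) :
    IsPrincipalIdealRing (Algebra.adjoin K {t}) :=
  IsPrincipalIdealRing.of_surjective (algEquivOfTranscendental K t ht).toRingEquiv.toRingHom
    (algEquivOfTranscendental K t ht).surjective

namespace RedModel

variable (M : RedModel K k F Fk)

/-- Every element of `F` has a multiple by a "primitive" polynomial in `x` which is integral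
over `K[x]`. -/
theorem lb_exists_primitive_mul_mem_intCl [FiniteDimensional K⟮M.x⟯ F] (f : F) :
    ∃ Q : M.A[X], Q.map M.res ≠ 0 ∧ ((M.lb_evO Q : M.O) : F) * f ∈ intCl K M.x := by
  have halg : IsAlgebraic (Algebra.adjoin K {M.x}) f := by
    rw [IsFractionRing.isAlgebraic_iff (Algebra.adjoin K {M.x}) K⟮M.x⟯ F]
    exact Algebra.IsAlgebraic.isAlgebraic f
  obtain ⟨y, hy0, hy⟩ := halg.exists_integral_multiple
  obtain ⟨y, hymem⟩ := y
  have hymem' := hymem
  rw [Algebra.adjoin_singleton_eq_range_aeval] at hymem'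
  obtain ⟨P, hP⟩ := hymem'
  have hP0 : P ≠ 0 := by
    rintro rfl
    apply hy0
    apply Subtype.ext
    simp only [AlgHom.toRingHom_eq_coe, RingHom.coe_coe, map_zero] at hP
    exact hP.symm
  obtain ⟨c, Q, hc, hQ, i, hi⟩ := lb_exists_scale M.A P hP0
  refine ⟨Q, ?_, ?_⟩
  · intro h
    have := congrArg (fun R : k[X] => R.coeff i) h
    simp only [Polynomial.coeff_map, Polynomial.coeff_zero] at this
    exact ((M.res_eq_zero _).mp this) hi
  · rw [lb_coe_evO, hQ, map_mul, Polynomial.aeval_C, lb_mem_intCl_iff]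
    have h1 : (aeval M.x) P = y := hP
    rw [h1, mul_assoc]
    have h2 : y * f = (⟨y, hymem⟩ : Algebra.adjoin K {M.x}) • f := rfl
    rw [h2]
    have h3 : algebraMap K F c * ((⟨y, hymem⟩ : Algebra.adjoin K {M.x}) • f)
        = (algebraMap K (Algebra.adjoin K {M.x}) c) • ((⟨y, hymem⟩ : Algebra.adjoin K {M.x}) • f) :=
      rfl
    rw [h3]
    exact IsIntegral.smul _ hy

end RedModel

namespace RedModel

variable (M : RedModel K k F Fk)

theorem lb_xbar_trans : Transcendental k M.xbar := M.x_trans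

theorem lb_adjoin_xbar_le_Bbar : Algebra.adjoin k {M.xbar} ≤ M.Bbar :=
  Algebra.adjoin_le (by
    intro y hy
    rw [Set.mem_singleton_iff] at hy
    rw [hy]
    exact M.xbar_mem_Bbar)

/-- `B̄` as a `k[x̄]`-submodule of `Fk`. -/
def lb_BbarSub : Submodule (Algebra.adjoin k {M.xbar}) Fk where
  carrier := M.Bbar
  add_mem' := M.Bbar.add_mem
  zero_mem' := M.Bbar.zero_mem
  smul_mem' := fun r y hy => M.Bbar.mul_mem (M.lb_adjoin_xbar_le_Bbar r.2) hy

theorem lb_mem_BbarSub {y : Fk} : y ∈ M.lb_BbarSub ↔ y ∈ M.Bbar := Iff.rfl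

section withT

variable [FiniteDimensional K⟮M.x⟯ F] [FiniteDimensional k⟮M.xbar⟯ Fk] (hT : CharpolyRed M)

include hT

theorem lb_BbarSub_le :
    M.lb_BbarSub ≤ Subalgebra.toSubmodule (integralClosure (Algebra.adjoin k {M.xbar}) Fk) := by
  rintro y ⟨f, hf, rfl⟩
  exact M.lb_isIntegral_rho hT f hf

theorem lb_finite_BbarSub [Algebra.IsSeparable k⟮M.xbar⟯ Fk] :
    Module.Finite (Algebra.adjoin k {M.xbar}) M.lb_BbarSub := by
  haveI := lb_isPrincipalIdealRing_adjoin M.lb_xbar_trans
  haveI : IsNoetherian (Algebra.adjoin k {M.xbar})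
      (integralClosure (Algebra.adjoin k {M.xbar}) Fk) :=
    IsIntegralClosure.isNoetherian (Algebra.adjoin k {M.xbar}) k⟮M.xbar⟯ Fk _
  haveI : IsNoetherian (Algebra.adjoin k {M.xbar})
      (Subalgebra.toSubmodule (integralClosure (Algebra.adjoin k {M.xbar}) Fk)) := this
  haveI : IsNoetherian (Algebra.adjoin k {M.xbar}) M.lb_BbarSub :=
    isNoetherian_of_le (M.lb_BbarSub_le hT)
  infer_instance

/-- `B̄` spans `Fk` over `k(x̄)`. -/
theorem lb_exists_mul_mem_Bbar (y : Fk) :
    ∃ r : Algebra.adjoin k {M.xbar}, r ≠ 0 ∧ r • y ∈ M.lb_BbarSub := by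
  obtain ⟨f, rfl⟩ := M.rho_surj y
  obtain ⟨Q, hQ0, hQ⟩ := M.lb_exists_primitive_mul_mem_intCl (f : F)
  refine ⟨M.lb_toAdjbar Q, ?_, ?_⟩
  · intro h
    have h1 := congrArg (fun r : Algebra.adjoin k {M.xbar} => (r : Fk)) h
    simp only [lb_coe_toAdjbar] at h1
    exact M.lb_xbar_trans ⟨_, hQ0, h1⟩
  · refine ⟨M.lb_evO Q * f, hQ, ?_⟩
    rw [map_mul, lb_rho_evO]
    show _ = ((M.lb_toAdjbar Q : Algebra.adjoin k {M.xbar}) : Fk) * _
    rw [lb_coe_toAdjbar]

omit [FiniteDimensional K⟮M.x⟯ F] in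
theorem lb_isTorsionFree_BbarSub :
    Module.IsTorsionFree (Algebra.adjoin k {M.xbar}) M.lb_BbarSub := by
  haveI : Module.IsTorsionFree (Algebra.adjoin k {M.xbar}) Fk := by
    rw [Module.isTorsionFree_iff_algebraMap_injective]
    intro a b hab
    exact Subtype.ext hab
  infer_instance

/-- (L1c) a `k[x̄]`-basis of `B̄`, which is a `k(x̄)`-basis of `Fk`. -/
theorem lb_exists_bbar_basis [Algebra.IsSeparable k⟮M.xbar⟯ Fk] {n : ℕ}
    (hn : Module.finrank k⟮M.xbar⟯ Fk = n) :
    ∃ bbar : Fin n → Fk, IsBbarBasis M n bbar := by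
  classical
  haveI := lb_isPrincipalIdealRing_adjoin M.lb_xbar_trans
  haveI := M.lb_finite_BbarSub hT
  haveI := M.lb_isTorsionFree_BbarSub hT
  haveI : Module.Free (Algebra.adjoin k {M.xbar}) M.lb_BbarSub := inferInstance
  let bs := Module.Free.chooseBasis (Algebra.adjoin k {M.xbar}) M.lb_BbarSub
  let v : Module.Free.ChooseBasisIndex (Algebra.adjoin k {M.xbar}) M.lb_BbarSub → Fk :=
    fun i => ((bs i : M.lb_BbarSub) : Fk)
  have hliR : LinearIndependent (Algebra.adjoin k {M.xbar}) v :=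
    bs.linearIndependent.map' M.lb_BbarSub.subtype (Submodule.ker_subtype _)
  have hli : LinearIndependent k⟮M.xbar⟯ v :=
    (LinearIndependent.iff_fractionRing (Algebra.adjoin k {M.xbar}) k⟮M.xbar⟯).mp hliR
  have hspanR : ∀ y ∈ M.lb_BbarSub, y ∈ Submodule.span (Algebra.adjoin k {M.xbar}) (Set.range v) := by
    intro y hy
    have h1 : (⟨y, hy⟩ : M.lb_BbarSub) ∈ Submodule.span (Algebra.adjoin k {M.xbar}) (Set.range bs) := by
      rw [bs.span_eq]; trivial
    have h2 := Submodule.apply_mem_span_image_of_mem_span M.lb_BbarSub.subtype h1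
    rw [← Set.range_comp] at h2
    exact h2
  have hspan : ⊤ ≤ Submodule.span k⟮M.xbar⟯ (Set.range v) := by
    intro y _
    obtain ⟨r, hr0, hr⟩ := M.lb_exists_mul_mem_Bbar hT y
    have h1 := hspanR _ hr
    have h2 : r • y ∈ Submodule.span k⟮M.xbar⟯ (Set.range v) :=
      Submodule.span_le_restrictScalars (Algebra.adjoin k {M.xbar}) k⟮M.xbar⟯ _ h1
    have hr' : algebraMap (Algebra.adjoin k {M.xbar}) k⟮M.xbar⟯ r ≠ 0 := by
      intro h
      apply hr0
      exact (FaithfulSMul.algebraMap_injective (Algebra.adjoin k {M.xbar}) k⟮M.xbar⟯)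
        (by rw [h, map_zero])
    have h3 : y = (algebraMap (Algebra.adjoin k {M.xbar}) k⟮M.xbar⟯ r)⁻¹ • (r • y) := by
      rw [← algebraMap_smul k⟮M.xbar⟯ r y, smul_smul, inv_mul_cancel₀ hr', one_smul]
    rw [h3]
    exact Submodule.smul_mem _ _ h2
  let B : Module.Basis _ k⟮M.xbar⟯ Fk := Module.Basis.mk hli hspan
  have hcard : Fintype.card (Module.Free.ChooseBasisIndex (Algebra.adjoin k {M.xbar}) M.lb_BbarSub)
      = n := by
    rw [← hn, Module.finrank_eq_card_basis B]
  let e := Fintype.equivFinOfCardEq hcard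
  refine ⟨v ∘ e.symm, ⟨fun i => (bs (e.symm i)).2, ?_, ?_⟩⟩
  · exact hli.comp _ e.symm.injective
  · intro y hy
    have h1 := hspanR y hy
    rw [Submodule.mem_span_range_iff_exists_fun] at h1
    obtain ⟨c, hc⟩ := h1
    refine ⟨c ∘ e.symm, ?_⟩
    rw [← hc]
    exact (Equiv.sum_comp e.symm (fun i => c i • v i)).symm

end withT

end RedModel

/-- The Gram determinant of a basis of a finite separable extension is nonzero. -/
theorem lb_gramDet_ne_zero {Kx L : Type} [Field Kx] [Field L] [Algebra Kx L]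
    [FiniteDimensional Kx L] [Algebra.IsSeparable Kx L] {n : ℕ} (b : Fin n → L)
    (hli : LinearIndependent Kx b) (hn : Module.finrank Kx L = n) (hpos : 0 < n) :
    (Matrix.of fun i j => Algebra.trace Kx L (b i * b j)).det ≠ 0 := by
  classical
  haveI : Nonempty (Fin n) := ⟨⟨0, hpos⟩⟩
  let B : Module.Basis (Fin n) Kx L :=
    basisOfLinearIndependentOfCardEqFinrank hli (by rw [hn, Fintype.card_fin])
  have h := det_traceForm_ne_zero (K := Kx) (L := L) B
  rw [← Algebra.traceMatrix_of_basis] at h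
  have h2 : Algebra.traceMatrix Kx (⇑B) = Matrix.of fun i j => Algebra.trace Kx L (b i * b j) := by
    ext i j
    simp [Algebra.traceMatrix_apply, Algebra.traceForm_apply, B]
  rw [h2] at h
  exact h

/-- A family with nonzero Gram determinant is linearly independent. -/
theorem lb_linearIndependent_of_gramDet_ne_zero {Kx L : Type} [Field Kx] [Field L] [Algebra Kx L]
    {n : ℕ} (b : Fin n → L)
    (h : (Matrix.of fun i j => Algebra.trace Kx L (b i * b j)).det ≠ 0) :
    LinearIndependent Kx b := by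
  rw [Fintype.linearIndependent_iff]
  intro g hg
  have hv : Matrix.vecMul g (Matrix.of fun i j => Algebra.trace Kx L (b i * b j)) = 0 := by
    ext j
    simp only [Matrix.vecMul, dotProduct, Matrix.of_apply, Pi.zero_apply]
    have : ∑ i, g i * Algebra.trace Kx L (b i * b j)
        = Algebra.trace Kx L ((∑ i, g i • b i) * b j) := by
      rw [Finset.sum_mul, map_sum]
      apply Finset.sum_congr rfl
      intro i _
      rw [smul_mul_assoc, map_smul, smul_eq_mul]
    rw [this, hg, zero_mul, map_zero]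
  have := Matrix.eq_zero_of_vecMul_eq_zero h hv
  intro i
  exact congrFun this i

namespace RedModel

variable (M : RedModel K k F Fk)

theorem lb_toKx_ne_zero {D : M.A[X]} (hD : D.map M.res ≠ 0) : M.toKx D ≠ 0 := by
  intro h
  have h1 : aeval M.x (D.map M.A.subtype) = 0 := by
    rw [← M.lb_coe_toKx, h]; rfl
  have h2 : D.map M.A.subtype = 0 := by
    by_contra hne
    exact M.lb_x_transcendental ⟨_, hne, h1⟩
  have h3 : D = 0 := by
    apply Polynomial.map_injective M.A.subtype Subtype.val_injective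
    rw [h2, Polynomial.map_zero]
  exact hD (by rw [h3, Polynomial.map_zero])

/-- (L1) the lifted basis exists. -/
theorem liftBasisStep {n : ℕ} (hT : CharpolyRed M) (hdeg : DegData M n) : LiftBasisStep M n := by
  classical
  haveI : FiniteDimensional K⟮M.x⟯ F :=
    Module.finite_of_finrank_pos (by rw [hdeg.deg]; exact hdeg.pos)
  haveI : FiniteDimensional k⟮M.xbar⟯ Fk :=
    Module.finite_of_finrank_pos (by rw [hdeg.degk]; exact hdeg.pos)
  haveI := hdeg.sepk
  obtain ⟨bbar, hbbar⟩ := M.lb_exists_bbar_basis hT hdeg.degk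
  -- lifts
  have hlift : ∀ i, ∃ f : M.O, (f : F) ∈ intCl K M.x ∧ M.rho f = bbar i := fun i => hbbar.mem i
  choose f hfint hfrho using hlift
  -- trace polynomials
  have htr : ∀ i j, ∃ P : M.A[X], M.toKx P = Algebra.trace K⟮M.x⟯ F ((f i : F) * (f j : F)) ∧
      M.toKxbar P = Algebra.trace k⟮M.xbar⟯ Fk (bbar i * bbar j) := by
    intro i j
    obtain ⟨P, h1, h2⟩ := M.lb_exists_trace_poly hT (f i * f j)
      ((intCl K M.x).mul_mem (hfint i) (hfint j))
    refine ⟨P, h1, ?_⟩
    rw [h2, map_mul, hfrho, hfrho]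
  choose P hPK hPk using htr
  have hbar_eq : (fun i => M.rho ⟨(f i : F), (f i).2⟩) = bbar := by
    funext i
    exact hfrho i
  have hDK : M.toKx (Matrix.of P).det = gramDet K⟮M.x⟯ F (fun i => (f i : F)) := by
    rw [RingHom.map_det]
    unfold gramDet
    exact congrArg Matrix.det (Matrix.ext fun i j => hPK i j)
  have hDk : M.toKxbar (Matrix.of P).det = gramDet k⟮M.xbar⟯ Fk bbar := by
    rw [RingHom.map_det]
    unfold gramDet
    exact congrArg Matrix.det (Matrix.ext fun i j => hPk i j)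
  have hgk : gramDet k⟮M.xbar⟯ Fk bbar ≠ 0 :=
    lb_gramDet_ne_zero bbar hbbar.indep hdeg.degk hdeg.pos
  have hDbar : (Matrix.of P).det.map M.res ≠ 0 := by
    intro h
    apply hgk
    rw [← hDk]
    apply Subtype.ext
    rw [M.lb_coe_toKxbar, h, map_zero]
    rfl
  have hgK : gramDet K⟮M.x⟯ F (fun i => (f i : F)) ≠ 0 := by
    rw [← hDK]
    exact M.lb_toKx_ne_zero hDbar
  refine ⟨{
    b := fun i => (f i : F)
    mem_O := fun i => (f i).2
    mem_int := hfint
    basis := by rw [hbar_eq]; exact hbbar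
    indep := lb_linearIndependent_of_gramDet_ne_zero _ hgK
    D := (Matrix.of P).det
    D_gram := hDK
    D_gram_bar := by rw [hbar_eq]; exact hDk
    D_bar_ne := hDbar }⟩

end RedModel

end

end Fermat.Agent.GoodRed
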