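import Fermat.Agent.Lib.GoodRed.DiscLower
import Fermat.Agent.Lib.GoodRed.LiftBasis
import Fermat.Agent.Lib.GoodRed.EvalAt

/-!
# Cluster B / GoodRed WP C : the discriminant chain (helper37)

`discChain_of_steps`: DEGREE + BRANCH + (L) `LiftStep` + (P) `PointsStep` + (ALG-1) imply
(NORM) `NormalReduction M` and (FIB) `FibreBound M`.

Proof.  For `c̄ ∈ k` let `m = ord_{c̄} d̄` where `d̄` is the Gram determinant of the basis `b̄` of
`B̄` given by (L).  (ALG-1): `n ≤ m + #pts(B̄, c̄)`.  If a branch value `c ∈ S` reduces to `c̄`,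
(L) gives `m + #fibre(c) ≤ n` and (P) gives `#pts(B̄, c̄) ≤ #fibre(c)`; otherwise (L) gives `m = 0`
and (P), BRANCH give `#pts(B̄, c̄) ≤ #fibre(c) = n` for any lift `c`.  In both cases
`m + #pts(B̄, c̄) = n`, so by (ALG-1) `B̄` is integrally closed at `c̄`.  As `k` is algebraically
closed, every maximal ideal of `k[x̄]` is of the form `(x̄ - c̄)`, so `B̄` is integrally closed.
-/

set_option autoImplicit false

namespace Fermat.Agent.GoodRed

open Polynomial IntermediateField
open scoped IntermediateField.algebraAdjoinAdjoin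

noncomputable section

variable {K k F Fk : Type} [Field K] [Field k] [Field F] [Field Fk] [Algebra K F] [Algebra k Fk]

namespace RedModel

variable (M : RedModel K k F Fk)

/-- `B̄` as a subalgebra over `k[x̄]`. -/
def BbarR : Subalgebra (Algebra.adjoin k {M.xbar}) Fk := overAdjoin M.Bbar M.xbar_mem_Bbar

theorem mem_BbarR {y : Fk} : y ∈ M.BbarR ↔ y ∈ M.Bbar := Iff.rfl

end RedModel

/-- Elements of a subalgebra spanned by finitely many elements are integral. -/
theorem chain_isIntegral_of_span {R L : Type} [CommRing R] [Field L] [Algebra R L]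
    (B' : Subalgebra R L) {n : ℕ} (b : Fin n → L) (hb : ∀ i, b i ∈ B')
    (hspan : ∀ y ∈ B', ∃ c : Fin n → R, y = ∑ i, c i • b i) :
    ∀ y ∈ B', IsIntegral R y := by
  classical
  intro y hy
  have hfg : (Subalgebra.toSubmodule B').FG := by
    refine ⟨Finset.univ.image b, le_antisymm ?_ ?_⟩
    · rw [Submodule.span_le]
      intro z hz
      simp only [Finset.coe_image, Finset.coe_univ, Set.image_univ, Set.mem_range] at hz
      obtain ⟨i, rfl⟩ := hz
      exact hb i
    · intro z hz
      obtain ⟨c, rfl⟩ := hspan z hz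
      refine Submodule.sum_mem _ fun i _ => Submodule.smul_mem _ _ (Submodule.subset_span ?_)
      simp
  exact IsIntegral.of_mem_of_fg B' hfg y hy

/-- local step of the chain: at every `c̄` the ring `B̄` is integrally closed. -/
theorem chain_local [IsAlgClosed k] (M : RedModel K k F Fk) (n : ℕ)
    (hdeg : DegData M n) (BD : BranchData M n)
    (hL : LiftStep M n BD) (hP : PointsStep M) (cbar : k) (y : Fk)
    (hy : IsIntegral (Algebra.adjoin k {M.xbar}) y) :
    ∃ s : Algebra.adjoin k {M.xbar}, evalAt M.x_trans cbar s ≠ 0 ∧ s • y ∈ M.BbarR := by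
  classical
  obtain ⟨bbar, hbasis, dbar, hd, hd0, hbound⟩ := hL
  have hxk : Transcendental k M.xbar := M.x_trans
  have : IsPrincipalIdealRing (Algebra.adjoin k {M.xbar}) := lb_isPrincipalIdealRing_adjoin hxk
  have : FiniteDimensional k⟮M.xbar⟯ Fk :=
    Module.finite_of_finrank_pos (by rw [hdeg.degk]; exact hdeg.pos)
  have := hdeg.sepk
  have hmem : ∀ i, bbar i ∈ M.BbarR := hbasis.mem
  have hspan : ∀ y ∈ M.BbarR, ∃ c : Fin n → Algebra.adjoin k {M.xbar}, y = ∑ i, c i • bbar i :=
    hbasis.span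
  have hint := chain_isIntegral_of_span M.BbarR bbar hmem hspan
  -- the multiplicity
  have hprime : Prime (piAt k M.xbar cbar) := prime_piAt hxk cbar
  have hfin : FiniteMultiplicity (piAt k M.xbar cbar) dbar :=
    FiniteMultiplicity.of_prime_left hprime hd0
  set m := multiplicity (piAt k M.xbar cbar) dbar with hm
  have hpow : piAt k M.xbar cbar ^ m ∣ dbar := pow_multiplicity_dvd _ _
  have hnpow : ¬ piAt k M.xbar cbar ^ (m + 1) ∣ dbar :=
    hfin.not_pow_dvd_of_multiplicity_lt (Nat.lt_succ_self _)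
  obtain ⟨h1, h2⟩ := discLowerBound (Algebra.adjoin k {M.xbar}) k⟮M.xbar⟯ Fk n M.BbarR bbar hmem
    hint hbasis.indep hdeg.degk hspan k (evalAt hxk cbar).toRingHom (evalAt_surjective hxk cbar)
    (piAt k M.xbar cbar) (ker_evalAt hxk cbar) dbar m hd hpow hnpow
  have hnum : numPts (Algebra.adjoin k {M.xbar}) Fk M.BbarR (evalAt hxk cbar).toRingHom =
      numPtsBbar M cbar := numPts_overAdjoin hxk M.Bbar M.xbar_mem_Bbar cbar
  rw [hnum] at h1 h2
  refine h2 ?_ y hy
  by_cases hS : ∃ c ∈ BD.S, ∃ hc : c ∈ M.A, M.res ⟨c, hc⟩ = cbar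
  · obtain ⟨c, hcS, hc, hres⟩ := hS
    subst hres
    have hb1 := (hbound c hc m hpow).1 hcS
    have hb2 := hP c hc
    omega
  · obtain ⟨a, ha⟩ := M.res_surj cbar
    subst ha
    have hm0 : m = 0 := (hbound a.1 a.2 m hpow).2 (fun c' hc'S hc' hres => hS ⟨c', hc'S, hc', hres⟩)
    have hnS : (a : K) ∉ BD.S := fun haS => hS ⟨a.1, haS, a.2, rfl⟩
    have hb2 : numPtsBbar M (M.res a) ≤ fibreCard K M.x a := hP a.1 a.2
    rw [BD.unram _ hnS] at hb2
    omega

/-- (NORM) from the chain, in subalgebra form: `intCl k x̄ ≤ B̄`. -/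
theorem chain_intCl_le_Bbar [IsAlgClosed k] (M : RedModel K k F Fk) (n : ℕ)
    (hdeg : DegData M n) (BD : BranchData M n)
    (hL : LiftStep M n BD) (hP : PointsStep M) : intCl k M.xbar ≤ M.Bbar := by
  intro y hy
  have hy' : IsIntegral (Algebra.adjoin k {M.xbar}) y := hy
  have hxk : Transcendental k M.xbar := M.x_trans
  -- the conductor ideal of `y`
  let I : Ideal (Algebra.adjoin k {M.xbar}) :=
    (Subalgebra.toSubmodule M.BbarR).colon {y}
  have hI : ∀ s : Algebra.adjoin k {M.xbar}, s ∈ I ↔ s • y ∈ M.BbarR := fun s =>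
    Submodule.mem_colon_singleton
  have htop : I = ⊤ := by
    by_contra hne
    obtain ⟨𝔪, h𝔪, hle⟩ := Ideal.exists_le_maximal I hne
    obtain ⟨cbar, rfl⟩ := exists_piAt_of_isMaximal hxk 𝔪 h𝔪
    obtain ⟨s, hs, hsy⟩ := chain_local M n hdeg BD hL hP cbar y hy'
    have hsI : s ∈ I := (hI s).mpr hsy
    have := hle hsI
    rw [← ker_evalAt hxk cbar, RingHom.mem_ker] at this
    exact hs this
  have h1 : (1 : Algebra.adjoin k {M.xbar}) ∈ I := by rw [htop]; trivial
  have := (hI 1).mp h1
  rwa [one_smul] at this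

/-- `B̄ ≤ intCl k x̄` (needs only that `B̄` is a finite `k[x̄]`-module). -/
theorem chain_Bbar_le_intCl (M : RedModel K k F Fk) (n : ℕ) (bbar : Fin n → Fk)
    (hbasis : IsBbarBasis M n bbar) : M.Bbar ≤ intCl k M.xbar := by
  intro y hy
  exact chain_isIntegral_of_span M.BbarR bbar hbasis.mem hbasis.span y hy

theorem chain_Bbar_eq_intCl [IsAlgClosed k] (M : RedModel K k F Fk) (n : ℕ)
    (hdeg : DegData M n) (BD : BranchData M n)
    (hL : LiftStep M n BD) (hP : PointsStep M) : M.Bbar = intCl k M.xbar := by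
  obtain ⟨bbar, hbasis, -⟩ := id hL
  exact le_antisymm (chain_Bbar_le_intCl M n bbar hbasis)
    (chain_intCl_le_Bbar M n hdeg BD hL hP)

/-- transport of the point count along an equality of subalgebras -/
theorem chain_card_eq {B₁ B₂ : Subalgebra k Fk} (h : B₁ = B₂) (x : Fk) (h₁ : x ∈ B₁) (cbar : k) :
    Nat.card {χ : B₁ →ₐ[k] k // χ ⟨x, h₁⟩ = cbar} =
      Nat.card {χ : B₂ →ₐ[k] k // ∀ h₂ : x ∈ B₂, χ ⟨x, h₂⟩ = cbar} := by
  subst h
  refine Nat.card_congr (Equiv.subtypeEquivRight fun χ => ?_)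
  exact ⟨fun h _ => h, fun h => h h₁⟩

/-- **The discriminant chain** (finite part): (L) + (P) (+ ALG-1) imply (NORM) and (FIB). -/
theorem discChain_of_steps [IsAlgClosed k] (M : RedModel K k F Fk) (n : ℕ)
    (hdeg : DegData M n) (BD : BranchData M n)
    (hL : LiftStep M n BD) (hP : PointsStep M) :
    NormalReduction M ∧ FibreBound M := by
  have heq := chain_Bbar_eq_intCl M n hdeg BD hL hP
  refine ⟨fun y hy => ?_, fun c hc => ?_⟩
  · have : y ∈ M.Bbar := heq ▸ hy
    exact this
  · have h := hP c hc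
    unfold numPtsBbar at h
    rw [chain_card_eq heq M.xbar M.xbar_mem_Bbar] at h
    exact h

end

end Fermat.Agent.GoodRed
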