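import Mathlib
import Fermat.Agent.Lib.GoodRed.AlgStatements

/-!
# Cluster B / GoodRed : auxiliary lemmas for the discriminant bounds (helper59)

* `pow_dvd_det_of_ker` : if `ev : R → κ` is onto a field with kernel `(π)` and a subspace `W` of
  `κ^n` is killed by `M mod π`, then `π ^ dim W ∣ det M`.
-/

set_option autoImplicit false

namespace Fermat.Agent.GoodRed

open Matrix

section LinAlg

variable {R κ : Type} [CommRing R] [Field κ]

/-- An element of `R` whose image in the field `κ` is nonzero is coprime to any power of a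
generator of the kernel. -/
theorem isCoprime_pow_of_ev_ne_zero (ev : R →+* κ) (hev : Function.Surjective ev) (π : R)
    (hπ : RingHom.ker ev = Ideal.span {π}) {u : R} (hu : ev u ≠ 0) (k : ℕ) :
    IsCoprime (π ^ k) u := by
  obtain ⟨w, hw⟩ := hev (ev u)⁻¹
  have h1 : w * u - 1 ∈ RingHom.ker ev := by
    rw [RingHom.mem_ker, map_sub, map_mul, hw, inv_mul_cancel₀ hu, map_one, sub_self]
  rw [hπ, Ideal.mem_span_singleton'] at h1
  obtain ⟨t, ht⟩ := h1
  have : IsCoprime π u := ⟨-t, w, by linear_combination -ht⟩
  exact this.pow_left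

open Module in
/-- A basis of `κ^n` containing `dim W` vectors of the subspace `W`. -/
theorem exists_basis_mem_submodule {n : ℕ} (W : Submodule κ (Fin n → κ)) :
    ∃ (B : Basis (Fin n) κ (Fin n → κ)) (S : Finset (Fin n)),
      S.card = finrank κ W ∧ ∀ j ∈ S, B j ∈ W := by
  classical
  obtain ⟨W', hW'⟩ := Submodule.exists_isCompl W
  set c := finrank κ W with hc
  set c' := finrank κ W' with hc'
  have hsum : c + c' = n := by
    have := Submodule.finrank_add_eq_of_isCompl hW'
    simpa using this
  let bW : Basis (Fin c) κ W := finBasis κ W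
  let bW' : Basis (Fin c') κ W' := finBasis κ W'
  let b1 : Basis (Fin c ⊕ Fin c') κ (Fin n → κ) :=
    (bW.prod bW').map (Submodule.prodEquivOfIsCompl W W' hW')
  let e : Fin c ⊕ Fin c' ≃ Fin n := finSumFinEquiv.trans (finCongr hsum)
  let f : Fin c ↪ Fin n := ⟨fun i => e (Sum.inl i), fun i j h => Sum.inl_injective (e.injective h)⟩
  refine ⟨b1.reindex e, Finset.univ.map f, ?_, ?_⟩
  · simp
  · intro j hj
    simp only [Finset.mem_map, Finset.mem_univ, true_and] at hj
    obtain ⟨i, rfl⟩ := hj
    have h1 : (b1.reindex e) (f i) = ((bW i : W) : Fin n → κ) := by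
      have : e.symm (f i) = Sum.inl i := e.symm_apply_apply _
      rw [Basis.reindex_apply, this]
      simp [b1]
    rw [h1]
    exact (bW i).2

/-- If the subspace `W` of `κ^n` is killed by the reduction of `M`, then `π ^ dim W ∣ det M`. -/
theorem pow_dvd_det_of_ker (ev : R →+* κ) (hev : Function.Surjective ev) (π : R)
    (hπ : RingHom.ker ev = Ideal.span {π})
    {n : ℕ} (M : Matrix (Fin n) (Fin n) R) (W : Submodule κ (Fin n → κ))
    (hW : ∀ v ∈ W, (M.map ev) *ᵥ v = 0) : π ^ (Module.finrank κ W) ∣ M.det := by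
  classical
  obtain ⟨B, S, hScard, hBW⟩ := exists_basis_mem_submodule W
  set c := Module.finrank κ W with hc
  let Ubar : Matrix (Fin n) (Fin n) κ := (Pi.basisFun κ (Fin n)).toMatrix B
  have hUbar_apply : ∀ i j, Ubar i j = B j i := by
    intro i j
    simp [Ubar, Module.Basis.toMatrix_apply]
  have hUbar_det : Ubar.det ≠ 0 := by
    have h1 : Ubar * B.toMatrix (Pi.basisFun κ (Fin n)) = 1 :=
      Module.Basis.toMatrix_mul_toMatrix_flip _ _
    intro h0
    have := congrArg Matrix.det h1
    rw [Matrix.det_mul, h0, zero_mul, Matrix.det_one] at this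
    exact zero_ne_one this
  -- lift `Ubar`
  choose U0 hU0 using fun i j => hev (Ubar i j)
  let U : Matrix (Fin n) (Fin n) R := Matrix.of U0
  have hUmap : U.map ev = Ubar := by
    ext i j
    simp [U, hU0]
  have hUdet : ev U.det ≠ 0 := by
    rw [RingHom.map_det, RingHom.mapMatrix_apply, hUmap]
    exact hUbar_det
  -- columns in `S` of `M * U` vanish mod `π`
  have hcol : ∀ j ∈ S, ∀ i, ev ((M * U) i j) = 0 := by
    intro j hj i
    have h1 : (M * U).map ev = M.map ev * Ubar := by
      rw [Matrix.map_mul, hUmap]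
    have h2 : ((M * U).map ev) i j = (M.map ev *ᵥ (B j)) i := by
      rw [h1]
      simp only [Matrix.mul_apply, Matrix.mulVec, dotProduct, hUbar_apply]
    have h3 := hW (B j) (hBW j hj)
    have : ((M * U).map ev) i j = 0 := by rw [h2, h3]; rfl
    simpa using this
  have hdiv : ∀ j ∈ S, ∀ i, ∃ q : R, (M * U) i j = π * q := by
    intro j hj i
    have h1 : (M * U) i j ∈ RingHom.ker ev := hcol j hj i
    rw [hπ, Ideal.mem_span_singleton'] at h1
    obtain ⟨q, hq⟩ := h1
    exact ⟨q, by rw [← hq, mul_comm]⟩
  let N : Matrix (Fin n) (Fin n) R := Matrix.of fun i j =>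
    if h : j ∈ S then Classical.choose (hdiv j h i) else (M * U) i j
  let v : Fin n → R := fun j => if j ∈ S then π else 1
  have hMU : M * U = Matrix.of fun i j => v j * N i j := by
    ext i j
    by_cases h : j ∈ S
    · simp only [Matrix.of_apply, v, N, h, dif_pos, if_true]
      exact Classical.choose_spec (hdiv j h i)
    · simp [v, N, h]
  have hprod : ∏ j, v j = π ^ c := by
    simp only [v]
    rw [Finset.prod_ite, Finset.prod_const_one, mul_one, Finset.prod_const]
    congr 1
    rw [← hScard]
    congr 1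
    ext j
    simp
  have hdet : M.det * U.det = π ^ c * N.det := by
    rw [← Matrix.det_mul, hMU, Matrix.det_mul_row, hprod]
  have hcop : IsCoprime (π ^ c) U.det := isCoprime_pow_of_ev_ne_zero ev hev π hπ hUdet c
  exact hcop.dvd_of_dvd_mul_right ⟨N.det, hdet⟩

end LinAlg

end Fermat.Agent.GoodRed
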