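import Mathlib
import Fermat.Agent.Lib.GoodRed.DiscAux

/-!
# Cluster B / GoodRed : points of a finite free integral algebra and the rank of its trace form
(helper59)

`C` a finite free `R`-algebra with basis `c`, integral over `R`; `ev : R → κ` onto an algebraically
closed field with kernel `(π)`.  `Pts C ev` = ring homs `C → κ` over `ev`.

* `exists_pt_of_eigen` : every eigenvalue of the reduced regular representation is `χ w`.
* `trace_redRep_eq_zero` : if all `χ y = 0` then `Tr(y z) ≡ 0 mod π`.
* `pow_dvd_det_traceMatrix` : `π ^ (n - #Pts) ∣ det (Tr (c i * c j))`.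
-/

set_option autoImplicit false

namespace Fermat.Agent.GoodRed

open Matrix

section Order

variable {R κ : Type} [CommRing R] [Field κ]
variable {C : Type} [CommRing C] [Algebra R C]

/-- Points of `C` over `ev`. -/
abbrev Pts (C : Type) [CommRing C] [Algebra R C] (ev : R →+* κ) : Type :=
  {χ : C →+* κ // ∀ r : R, χ (algebraMap R C r) = ev r}

variable {n : ℕ} (c : Module.Basis (Fin n) R C) (ev : R →+* κ)

/-- The regular representation of `C` in the basis `c`, reduced along `ev`. -/
noncomputable def redRep : C →+* Matrix (Fin n) (Fin n) κ :=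
  (RingHom.mapMatrix ev).comp (Algebra.leftMulMatrix c).toRingHom

theorem redRep_apply (y : C) : redRep c ev y = (Algebra.leftMulMatrix c y).map ev := rfl

theorem redRep_algebraMap (r : R) : redRep c ev (algebraMap R C r) = Matrix.scalar (Fin n) (ev r) := by
  rw [redRep_apply, AlgHom.commutes]
  ext i j
  simp only [Matrix.map_apply, Matrix.algebraMap_matrix_apply, Matrix.scalar_apply,
    Matrix.diagonal_apply]
  split_ifs <;> simp

theorem trace_redRep (y : C) : (redRep c ev y).trace = ev (Algebra.trace R C y) := by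
  rw [Algebra.trace_eq_matrix_trace c, redRep_apply]
  simp [Matrix.trace, map_sum]

theorem pt_smul (χ : Pts C ev) (r : R) (y : C) : χ.1 (r • y) = ev r * χ.1 y := by
  rw [Algebra.smul_def, map_mul, χ.2]

variable {c ev}

/-- (E) every eigenvalue of the reduced regular representation of `w` is the value at `w` of a
point of `C` over `ev`. -/
theorem exists_pt_of_eigen [IsAlgClosed κ] [Algebra.IsIntegral R C]
    (hev : Function.Surjective ev) (w : C) (μ : κ) (v : Fin n → κ) (hv : v ≠ 0)
    (hw : redRep c ev w *ᵥ v = μ • v) : ∃ χ : Pts C ev, χ.1 w = μ := by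
  classical
  -- the annihilator of `v`
  let 𝔞 : Ideal C :=
    { carrier := {z | redRep c ev z *ᵥ v = 0}
      zero_mem' := by simp
      add_mem' := by
        intro x y hx hy
        simp only [Set.mem_ofPred_eq] at hx hy ⊢
        rw [map_add, Matrix.add_mulVec, hx, hy, add_zero]
      smul_mem' := by
        intro a z hz
        simp only [Set.mem_ofPred_eq, smul_eq_mul] at hz ⊢
        rw [map_mul, ← Matrix.mulVec_mulVec, hz, Matrix.mulVec_zero] }
  have h𝔞 : ∀ z, z ∈ 𝔞 ↔ redRep c ev z *ᵥ v = 0 := fun z => Iff.rfl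
  have h1 : 𝔞 ≠ ⊤ := by
    intro h
    have : (1 : C) ∈ 𝔞 := by rw [h]; trivial
    rw [h𝔞, map_one, Matrix.one_mulVec] at this
    exact hv this
  obtain ⟨𝔪, h𝔪, hle⟩ := Ideal.exists_le_maximal 𝔞 h1
  obtain ⟨μ', hμ'⟩ := hev μ
  have hwμ : w - algebraMap R C μ' ∈ 𝔪 := by
    apply hle
    rw [h𝔞, map_sub, Matrix.sub_mulVec, hw, redRep_algebraMap, hμ']
    simp
  have hker : ∀ r : R, ev r = 0 → algebraMap R C r ∈ 𝔪 := by
    intro r hr
    apply hle
    rw [h𝔞, redRep_algebraMap, hr]
    simp
  letI : Field (C ⧸ 𝔪) := Ideal.Quotient.field 𝔪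
  let q : C →+* C ⧸ 𝔪 := Ideal.Quotient.mk 𝔪
  let φ : R →+* C ⧸ 𝔪 := q.comp (algebraMap R C)
  have hφ : RingHom.ker ev ≤ RingHom.ker φ := by
    intro r hr
    rw [RingHom.mem_ker] at hr ⊢
    exact Ideal.Quotient.eq_zero_iff_mem.mpr (hker r hr)
  let ψ : κ →+* C ⧸ 𝔪 := ev.liftOfSurjective hev ⟨φ, hφ⟩
  have hψ : ∀ r, ψ (ev r) = φ r := fun r => ev.liftOfSurjective_comp_apply hev ⟨φ, hφ⟩ r
  letI : Algebra κ (C ⧸ 𝔪) := ψ.toAlgebra
  have hint : Algebra.IsIntegral κ (C ⧸ 𝔪) := by
    refine ⟨fun x => ?_⟩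
    obtain ⟨z, rfl⟩ := Ideal.Quotient.mk_surjective x
    obtain ⟨p, hp, hpz⟩ := Algebra.IsIntegral.isIntegral (R := R) z
    refine ⟨p.map ev, hp.map ev, ?_⟩
    rw [Polynomial.eval₂_map]
    have h2 : (algebraMap κ (C ⧸ 𝔪)).comp ev = q.comp (algebraMap R C) := by
      ext r
      exact hψ r
    rw [h2, ← Polynomial.hom_eval₂, hpz, map_zero]
  have hbij : Function.Bijective (algebraMap κ (C ⧸ 𝔪)) :=
    IsAlgClosed.algebraMap_bijective_of_isIntegral
  let E : κ ≃+* C ⧸ 𝔪 := RingEquiv.ofBijective (algebraMap κ (C ⧸ 𝔪)) hbij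
  have hE : ∀ x, E x = ψ x := fun x => rfl
  refine ⟨⟨E.symm.toRingHom.comp q, fun r => ?_⟩, ?_⟩
  · simp only [RingHom.coe_comp, Function.comp_apply, RingEquiv.toRingHom_eq_coe,
      RingHom.coe_coe]
    rw [RingEquiv.symm_apply_eq, hE, hψ]
    rfl
  · simp only [RingHom.coe_comp, Function.comp_apply, RingEquiv.toRingHom_eq_coe,
      RingHom.coe_coe]
    rw [RingEquiv.symm_apply_eq, hE, ← hμ', hψ]
    have := Ideal.Quotient.eq.mpr hwμ
    exact this

/-- (N) if `y` is killed by all points over `ev` then `Tr (y z) ≡ 0` modulo `ker ev`. -/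
theorem trace_redRep_eq_zero [IsAlgClosed κ] [Algebra.IsIntegral R C]
    (c : Module.Basis (Fin n) R C) (hev : Function.Surjective ev) (y : C) (hy : ∀ χ : Pts C ev, χ.1 y = 0) (z : C) :
    ev (Algebra.trace R C (y * z)) = 0 := by
  classical
  rw [← trace_redRep c ev, Matrix.trace_eq_sum_roots_charpoly]
  apply Multiset.sum_eq_zero
  intro μ hμ
  have hroot : (redRep c ev (y * z)).charpoly.eval μ = 0 := by
    have := (Polynomial.mem_roots'.mp hμ).2
    exact this
  rw [Matrix.eval_charpoly] at hroot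
  obtain ⟨v, hv, hv0⟩ := Matrix.exists_mulVec_eq_zero_iff.mpr hroot
  have hw : redRep c ev (y * z) *ᵥ v = μ • v := by
    rw [Matrix.sub_mulVec, sub_eq_zero] at hv0
    rw [← hv0]
    ext i
    simp [Matrix.mulVec, dotProduct, Matrix.scalar_apply, Matrix.diagonal_apply]
  obtain ⟨χ, hχ⟩ := exists_pt_of_eigen (c := c) hev (y * z) μ v hv hw
  rw [← hχ, map_mul, hy χ, zero_mul]

variable (c ev)

/-- The vector of values of a point on the basis. -/
noncomputable def ptVec (χ : Pts C ev) : Fin n → κ := fun i => χ.1 (c i)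

theorem pt_apply_eq_sum (χ : Pts C ev) (y : C) :
    χ.1 y = ∑ i, ev (c.repr y i) * χ.1 (c i) := by
  conv_lhs => rw [← c.sum_repr y]
  rw [map_sum]
  exact Finset.sum_congr rfl fun i _ => pt_smul ev χ _ _

theorem pt_sum_smul (χ : Pts C ev) (a : Fin n → R) :
    χ.1 (∑ i, a i • c i) = ∑ i, ev (a i) * χ.1 (c i) := by
  rw [map_sum]
  exact Finset.sum_congr rfl fun i _ => pt_smul ev χ _ _

theorem linearIndependent_ptVec : LinearIndependent κ (fun χ : Pts C ev => ptVec c ev χ) := by
  classical
  have hD : LinearIndependent κ (fun χ : Pts C ev => ((χ.1 : C →* κ) : C → κ)) := by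
    refine (linearIndependent_monoidHom C κ).comp (fun χ : Pts C ev => (χ.1 : C →* κ)) ?_
    intro χ χ' h
    apply Subtype.ext
    ext y
    exact DFunLike.congr_fun h y
  rw [linearIndependent_iff'] at hD ⊢
  intro s g hg χ hχ
  refine hD s g ?_ χ hχ
  funext y
  simp only [Finset.sum_apply, Pi.smul_apply, smul_eq_mul, Pi.zero_apply, MonoidHom.coe_coe]
  have h1 : ∀ i, ∑ χ ∈ s, g χ * χ.1 (c i) = 0 := by
    intro i
    have := congrFun hg i
    simpa [ptVec] using this
  calc ∑ χ ∈ s, g χ * χ.1 y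
      = ∑ χ ∈ s, ∑ i, ev (c.repr y i) * (g χ * χ.1 (c i)) := by
        refine Finset.sum_congr rfl fun χ _ => ?_
        rw [pt_apply_eq_sum c ev χ y, Finset.mul_sum]
        refine Finset.sum_congr rfl fun i _ => ?_
        ring
    _ = ∑ i, ev (c.repr y i) * ∑ χ ∈ s, g χ * χ.1 (c i) := by
        rw [Finset.sum_comm]
        refine Finset.sum_congr rfl fun i _ => ?_
        rw [Finset.mul_sum]
    _ = 0 := by simp [h1]

include c in
theorem finite_pts : Finite (Pts C ev) :=
  (linearIndependent_ptVec c ev).finite_of_isNoetherian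

include c in
theorem card_pts_le : Nat.card (Pts C ev) ≤ n := by
  haveI := finite_pts c ev
  haveI : Fintype (Pts C ev) := Fintype.ofFinite _
  rw [Nat.card_eq_fintype_card]
  simpa using (linearIndependent_ptVec c ev).fintype_card_le_finrank

/-- The vectors of `κ^n` orthogonal to all points. -/
def nilSub : Submodule κ (Fin n → κ) where
  carrier := {v | ∀ χ : Pts C ev, ∑ i, v i * χ.1 (c i) = 0}
  zero_mem' := by simp
  add_mem' := by
    intro v w hv hw χ
    simp only [Pi.add_apply, add_mul, Finset.sum_add_distrib]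
    rw [hv χ, hw χ, add_zero]
  smul_mem' := by
    intro a v hv χ
    simp only [Pi.smul_apply, smul_eq_mul, mul_assoc]
    rw [← Finset.mul_sum, hv χ, mul_zero]

theorem mem_nilSub {v : Fin n → κ} :
    v ∈ nilSub c ev ↔ ∀ χ : Pts C ev, ∑ i, v i * χ.1 (c i) = 0 := Iff.rfl

theorem finrank_nilSub_ge : n - Nat.card (Pts C ev) ≤ Module.finrank κ (nilSub c ev) := by
  classical
  haveI := finite_pts c ev
  haveI : Fintype (Pts C ev) := Fintype.ofFinite _
  let Φ : (Fin n → κ) →ₗ[κ] (Pts C ev → κ) :=
    Matrix.mulVecLin (Matrix.of fun (χ : Pts C ev) (i : Fin n) => χ.1 (c i))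
  have hker : LinearMap.ker Φ = nilSub c ev := by
    ext v
    rw [LinearMap.mem_ker, mem_nilSub]
    constructor
    · intro h χ
      have := congrFun h χ
      simp only [Φ, Matrix.mulVecLin_apply, Matrix.mulVec, dotProduct, Matrix.of_apply,
        Pi.zero_apply] at this
      rw [← this]
      exact Finset.sum_congr rfl fun i _ => mul_comm _ _
    · intro h
      funext χ
      simp only [Φ, Matrix.mulVecLin_apply, Matrix.mulVec, dotProduct, Matrix.of_apply,
        Pi.zero_apply]
      rw [← h χ]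
      exact Finset.sum_congr rfl fun i _ => mul_comm _ _
  have h1 := LinearMap.finrank_range_add_finrank_ker Φ
  have h2 : Module.finrank κ (LinearMap.range Φ) ≤ Fintype.card (Pts C ev) := by
    have := Submodule.finrank_le (LinearMap.range Φ)
    simpa using this
  rw [hker] at h1
  rw [Nat.card_eq_fintype_card]
  have h3 : Module.finrank κ (Fin n → κ) = n := by simp
  omega

variable {c ev}

theorem traceMatrix_mulVec_nilSub [IsAlgClosed κ] [Algebra.IsIntegral R C]
    (hev : Function.Surjective ev) (v : Fin n → κ) (hv : v ∈ nilSub c ev) :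
    ((Algebra.traceMatrix R c).map ev) *ᵥ v = 0 := by
  classical
  choose a ha using fun i => hev (v i)
  set y : C := ∑ j, a j • c j with hy
  have hχ : ∀ χ : Pts C ev, χ.1 y = 0 := by
    intro χ
    rw [hy, pt_sum_smul]
    have := (mem_nilSub c ev).mp hv χ
    simpa [ha] using this
  funext i
  simp only [Matrix.mulVec, dotProduct, Matrix.map_apply, Algebra.traceMatrix_apply,
    Algebra.traceForm_apply, Pi.zero_apply]
  have h1 : ∑ j, ev (Algebra.trace R C (c i * c j)) * v j
      = ev (Algebra.trace R C (y * c i)) := by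
    have h2 : y * c i = ∑ j, a j • (c i * c j) := by
      rw [hy, Finset.sum_mul]
      refine Finset.sum_congr rfl fun j _ => ?_
      rw [smul_mul_assoc, mul_comm]
    rw [h2, map_sum, map_sum]
    refine Finset.sum_congr rfl fun j _ => ?_
    rw [LinearMap.map_smul, smul_eq_mul, map_mul ev, ha, mul_comm]
  rw [h1]
  exact trace_redRep_eq_zero c hev y hχ (c i)

/-- **Claim 1** (abstract form): `π ^ (n - #points)` divides the discriminant of the basis. -/
theorem pow_dvd_det_traceMatrix [IsAlgClosed κ] [Algebra.IsIntegral R C]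
    (hev : Function.Surjective ev) (π : R) (hπ : RingHom.ker ev = Ideal.span {π}) :
    π ^ (n - Nat.card (Pts C ev)) ∣ (Algebra.traceMatrix R c).det := by
  have h1 := pow_dvd_det_of_ker ev hev π hπ (Algebra.traceMatrix R c) (nilSub c ev)
    (fun v hv => traceMatrix_mulVec_nilSub hev v hv)
  exact (pow_dvd_pow π (finrank_nilSub_ge c ev)).trans h1

end Order

section Compare

variable {R κ : Type} [CommRing R] [Field κ]
variable {C' C : Type} [CommRing C'] [Algebra R C'] [CommRing C] [Algebra R C]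
variable {n : ℕ} (c' : Module.Basis (Fin n) R C') (c : Module.Basis (Fin n) R C)
variable (ev : R →+* κ) (f : C' →ₐ[R] C)

/-- Restriction of a point along an algebra hom. -/
def Pts.comap (χ : Pts C ev) : Pts C' ev :=
  ⟨χ.1.comp f.toRingHom, fun r => by simp [χ.2 r]⟩

/-- If `f (c' j) = ∑ i, P i j • c i` then `π ^ (#pts C - #pts C') ∣ det P`. -/
theorem pow_dvd_det_of_pts (hev : Function.Surjective ev) (π : R)
    (hπ : RingHom.ker ev = Ideal.span {π}) (P : Matrix (Fin n) (Fin n) R)
    (hP : ∀ j, f (c' j) = ∑ i, P i j • c i) :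
    π ^ (Nat.card (Pts C ev) - Nat.card (Pts C' ev)) ∣ P.det := by
  classical
  haveI := finite_pts c ev
  haveI := finite_pts c' ev
  haveI : Fintype (Pts C ev) := Fintype.ofFinite _
  haveI : Fintype (Pts C' ev) := Fintype.ofFinite _
  let T : (Fin n → κ) →ₗ[κ] (Fin n → κ) := Matrix.mulVecLin (Pᵀ.map ev)
  have hT : ∀ χ : Pts C ev, T (ptVec c ev χ) = ptVec c' ev (Pts.comap ev f χ) := by
    intro χ
    funext j
    simp only [T, Matrix.mulVecLin_apply, Matrix.mulVec, dotProduct, Matrix.map_apply,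
      Matrix.transpose_apply, ptVec, Pts.comap, RingHom.coe_comp, Function.comp_apply]
    have : (f.toRingHom (c' j)) = ∑ i, P i j • c i := hP j
    rw [this, pt_sum_smul]
  let VB : Submodule κ (Fin n → κ) := Submodule.span κ (Set.range (ptVec c ev))
  let V : Submodule κ (Fin n → κ) := Submodule.span κ (Set.range (ptVec c' ev))
  have hVB : Module.finrank κ VB = Fintype.card (Pts C ev) :=
    finrank_span_eq_card (linearIndependent_ptVec c ev)
  have hV : Module.finrank κ V = Fintype.card (Pts C' ev) :=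
    finrank_span_eq_card (linearIndependent_ptVec c' ev)
  let Ψ : VB →ₗ[κ] (Fin n → κ) := T.domRestrict VB
  have hrange : LinearMap.range Ψ ≤ V := by
    rintro _ ⟨w, rfl⟩
    have hw : (w : Fin n → κ) ∈ VB := w.2
    simp only [Ψ, LinearMap.domRestrict_apply]
    refine Submodule.span_induction (p := fun v _ => T v ∈ V) ?_ ?_ ?_ ?_ hw
    · rintro _ ⟨χ, rfl⟩
      rw [hT]
      exact Submodule.subset_span ⟨_, rfl⟩
    · simp
    · intro x y _ _ hx hy
      rw [map_add]
      exact V.add_mem hx hy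
    · intro a x _ hx
      rw [map_smul]
      exact V.smul_mem a hx
  have h1 := LinearMap.finrank_range_add_finrank_ker Ψ
  have h2 : Module.finrank κ (LinearMap.range Ψ) ≤ Fintype.card (Pts C' ev) :=
    hV ▸ Submodule.finrank_mono hrange
  let W : Submodule κ (Fin n → κ) := (LinearMap.ker Ψ).map VB.subtype
  have hWrank : Module.finrank κ W = Module.finrank κ (LinearMap.ker Ψ) :=
    Submodule.finrank_map_subtype_eq VB (LinearMap.ker Ψ)
  have hW : ∀ v ∈ W, (Pᵀ.map ev) *ᵥ v = 0 := by
    rintro _ ⟨w, hw, rfl⟩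
    have := LinearMap.mem_ker.mp hw
    simpa [Ψ, T] using this
  have h3 := pow_dvd_det_of_ker ev hev π hπ Pᵀ W hW
  rw [Matrix.det_transpose] at h3
  refine (pow_dvd_pow π ?_).trans h3
  rw [hWrank, Nat.card_eq_fintype_card, Nat.card_eq_fintype_card]
  omega

end Compare

end Fermat.Agent.GoodRed
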