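import Mathlib
import Fermat.Agent.Lib.GoodRed.DiscChar

/-!
# Cluster B / GoodRed WP A1 : `discLowerBound : DiscLowerBound R Kx L` (helper59)

Proof (no different ideal needed):
* the Gram matrix `G` of the trace form on the `R`-basis `b` of `B'` reduces mod `π` to a matrix
  killed by every vector orthogonal to all points of `B'` over `ev`
  (`Fermat.Agent.GoodRed.pow_dvd_det_traceMatrix`), so `π ^ (n - #pts) ∣ d`;
* for the integral closure `B ⊇ B'` with basis `β` and `b = β P`: `d = det P ^ 2 * disc β`,
  `π ^ (n - #pts B) ∣ disc β`, `π ^ (#pts B - #pts B') ∣ det P`; in the equality case `π ∤ det P`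
  and `det P • B ⊆ B'`.
-/

set_option autoImplicit false

namespace Fermat.Agent.GoodRed

open Matrix

section

variable (R : Type) [CommRing R] [IsDomain R]
variable (Kx : Type) [Field Kx] [Algebra R Kx] [IsFractionRing R Kx]
variable (L : Type) [Field L] [Algebra Kx L] [Algebra R L] [IsScalarTower R Kx L]

/-- Trace of a finite free subalgebra of full rank = trace of `L / Kx`. -/
theorem trace_subalgebra_eq [FiniteDimensional Kx L] (C : Subalgebra R L) {n : ℕ}
    (cB : Module.Basis (Fin n) R C) (hn : Module.finrank Kx L = n) (y : C) :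
    algebraMap R Kx (Algebra.trace R C y) = Algebra.trace Kx L (y : L) := by
  classical
  have hliR : LinearIndependent R (fun i => ((cB i : C) : L)) :=
    cB.linearIndependent.map' C.val.toLinearMap
      (LinearMap.ker_eq_bot.mpr Subtype.val_injective)
  have hliK : LinearIndependent Kx (fun i => ((cB i : C) : L)) :=
    (LinearIndependent.iff_fractionRing R Kx).mp hliR
  haveI : Nonempty (Fin n) := by
    have h0 : 0 < Module.finrank Kx L := Module.finrank_pos
    rw [hn] at h0
    exact ⟨⟨0, h0⟩⟩
  let cL : Module.Basis (Fin n) Kx L :=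
    basisOfLinearIndependentOfCardEqFinrank hliK (by simp [hn])
  have hcL : ∀ i, cL i = ((cB i : C) : L) := fun i => by
    simp [cL]
  have hrepr : ∀ (z : C) (i : Fin n), cL.repr (z : L) i = algebraMap R Kx (cB.repr z i) := by
    intro z i
    have h1 : (z : L) = ∑ j, (algebraMap R Kx (cB.repr z j)) • cL j := by
      have h2 : (z : L) = C.val (∑ j, cB.repr z j • cB j) := by rw [cB.sum_repr z]; rfl
      rw [h2, map_sum]
      refine Finset.sum_congr rfl fun j _ => ?_
      rw [hcL, algebraMap_smul, map_smul]
      rfl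
    rw [h1, cL.repr_sum_self]
  rw [Algebra.trace_eq_matrix_trace cB, Algebra.trace_eq_matrix_trace cL, Matrix.trace,
    Matrix.trace, map_sum]
  refine Finset.sum_congr rfl fun i _ => ?_
  simp only [Matrix.diag_apply, Algebra.leftMulMatrix_eq_repr_mul]
  rw [hcL, ← hrepr]
  rfl

/-- An `R`-basis of the subalgebra `B'` from the data of `DiscLowerBound`. -/
theorem exists_basis_subalgebra (B' : Subalgebra R L) {n : ℕ} (b : Fin n → L)
    (hb : ∀ i, b i ∈ B') (hli : LinearIndependent Kx b)
    (hspan : ∀ y ∈ B', ∃ c : Fin n → R, y = ∑ i, c i • b i) :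
    ∃ bB : Module.Basis (Fin n) R B', ∀ i, ((bB i : B') : L) = b i := by
  have hliR : LinearIndependent R b :=
    hli.restrict_scalars (by
      intro r s hrs
      simp only [Algebra.smul_def, mul_one] at hrs
      exact IsFractionRing.injective R Kx hrs)
  let b' : Fin n → B' := fun i => ⟨b i, hb i⟩
  have hli' : LinearIndependent R b' := by
    apply LinearIndependent.of_comp B'.val.toLinearMap
    exact hliR
  have hsp' : ⊤ ≤ Submodule.span R (Set.range b') := by
    intro y _
    obtain ⟨c, hc⟩ := hspan y y.2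
    have : y = ∑ i, c i • b' i := by
      apply Subtype.ext
      rw [hc]
      have h2 : ((∑ i, c i • b' i : B') : L) = B'.val (∑ i, c i • b' i) := rfl
      rw [h2, map_sum]
      refine Finset.sum_congr rfl fun i _ => ?_
      rw [map_smul]
      rfl
    rw [this]
    exact Submodule.sum_mem _ fun i _ =>
      Submodule.smul_mem _ _ (Submodule.subset_span ⟨i, rfl⟩)
  exact ⟨Module.Basis.mk hli' hsp', fun i => by simp [b']⟩

/-- The discriminant `d` of the data is the determinant of the trace matrix of the family,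
computed in any finite free subalgebra of full rank containing it. -/
theorem gramDet_eq_det_traceMatrix [FiniteDimensional Kx L] (B' : Subalgebra R L) {n : ℕ}
    (b : Fin n → L) (bB : Module.Basis (Fin n) R B') (x : Fin n → B')
    (hx : ∀ i, ((x i : B') : L) = b i)
    (hn : Module.finrank Kx L = n) :
    gramDet Kx L b = algebraMap R Kx (Algebra.traceMatrix R x).det := by
  rw [RingHom.map_det, gramDet]
  congr 1
  ext i j
  simp only [Matrix.of_apply, RingHom.mapMatrix_apply, Matrix.map_apply,
    Algebra.traceMatrix_apply, Algebra.traceForm_apply]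
  rw [trace_subalgebra_eq R Kx L B' bB hn]
  simp [hx]

variable [IsPrincipalIdealRing R]

/-- **WP A1, first half**: `π ^ (n - #pts)` divides the discriminant. -/
theorem pow_dvd_disc [FiniteDimensional Kx L] (n : ℕ) (B' : Subalgebra R L)
    (b : Fin n → L) (hb : ∀ i, b i ∈ B') (hint : ∀ y ∈ B', IsIntegral R y)
    (hli : LinearIndependent Kx b) (hn : Module.finrank Kx L = n)
    (hspan : ∀ y ∈ B', ∃ c : Fin n → R, y = ∑ i, c i • b i)
    (κ : Type) [Field κ] [IsAlgClosed κ] (ev : R →+* κ) (hev : Function.Surjective ev)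
    (π : R) (hπ : RingHom.ker ev = Ideal.span {π})
    (d : R) (hd : algebraMap R Kx d = gramDet Kx L b) :
    π ^ (n - numPts R L B' ev) ∣ d := by
  obtain ⟨bB, hbB⟩ := exists_basis_subalgebra R Kx L B' b hb hli hspan
  haveI : Algebra.IsIntegral R B' :=
    ⟨fun y => (isIntegral_algHom_iff B'.val Subtype.val_injective).mp (hint y y.2)⟩
  have h1 : d = (Algebra.traceMatrix R bB).det := by
    apply IsFractionRing.injective R Kx
    rw [hd, gramDet_eq_det_traceMatrix R Kx L B' b bB (fun i => bB i) hbB hn]
  rw [h1]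
  exact pow_dvd_det_traceMatrix (c := bB) hev π hπ

/-- **WP A1, second half**: in the equality case `B'` is integrally closed at `π`. -/
theorem exists_smul_mem_of_eq [FiniteDimensional Kx L] [Algebra.IsSeparable Kx L] (n : ℕ)
    (B' : Subalgebra R L)
    (b : Fin n → L) (hb : ∀ i, b i ∈ B') (hint : ∀ y ∈ B', IsIntegral R y)
    (hli : LinearIndependent Kx b) (hn : Module.finrank Kx L = n)
    (hspan : ∀ y ∈ B', ∃ c : Fin n → R, y = ∑ i, c i • b i)
    (κ : Type) [Field κ] [IsAlgClosed κ] (ev : R →+* κ) (hev : Function.Surjective ev)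
    (π : R) (hπ : RingHom.ker ev = Ideal.span {π})
    (d : R) (hd : algebraMap R Kx d = gramDet Kx L b) (m : ℕ) (hm : ¬ π ^ (m + 1) ∣ d)
    (heq : m + numPts R L B' ev = n) :
    ∃ s : R, ev s ≠ 0 ∧ ∀ y : L, IsIntegral R y → s • y ∈ B' := by
  classical
  obtain ⟨bB, hbB⟩ := exists_basis_subalgebra R Kx L B' b hb hli hspan
  -- the integral closure and its basis
  let B : Subalgebra R L := integralClosure R L
  haveI : Module.IsTorsionFree R L := .trans_faithfulSMul R Kx L
  haveI : Module.Free R B := IsIntegralClosure.module_free R Kx L B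
  haveI : Module.Finite R B := IsIntegralClosure.finite R Kx L B
  have hrank : Module.finrank R B = n := by
    rw [IsIntegralClosure.rank R Kx L B, hn]
  let βB : Module.Basis (Fin n) R B := Module.finBasisOfFinrankEq R B hrank
  have hle : B' ≤ B := fun y hy => hint y hy
  let ι : B' →ₐ[R] B := Subalgebra.inclusion hle
  let x : Fin n → B := fun j => ι (bB j)
  have hxb : ∀ j, ((x j : B) : L) = b j := fun j => by
    rw [← hbB j]
    rfl
  let P : Matrix (Fin n) (Fin n) R := Matrix.of fun i j => βB.repr (x j) i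
  have hP : ∀ j, ι (bB j) = ∑ i, P i j • βB i := fun j => (βB.sum_repr (x j)).symm
  have hx : x = (βB : Fin n → B) ᵥ* P.map (algebraMap R B) := by
    funext j
    rw [show x j = ι (bB j) from rfl, hP j]
    simp only [Matrix.vecMul, dotProduct, Matrix.map_apply]
    refine Finset.sum_congr rfl fun i _ => ?_
    rw [Algebra.smul_def, mul_comm]
  have hdisc : Algebra.discr R x = P.det ^ 2 * Algebra.discr R βB := by
    rw [hx, Algebra.discr_of_matrix_vecMul]
  have hd' : d = P.det ^ 2 * (Algebra.traceMatrix R βB).det := by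
    rw [← Algebra.discr_def, ← hdisc, Algebra.discr_def]
    apply IsFractionRing.injective R Kx
    rw [hd, gramDet_eq_det_traceMatrix R Kx L B b βB x hxb hn]
  have h1 : π ^ (n - Nat.card (Pts B ev)) ∣ (Algebra.traceMatrix R βB).det :=
    pow_dvd_det_traceMatrix (c := βB) hev π hπ
  have h2 : π ^ (Nat.card (Pts B ev) - Nat.card (Pts B' ev)) ∣ P.det :=
    pow_dvd_det_of_pts bB βB ev ι hev π hπ P hP
  have hN' : numPts R L B' ev = Nat.card (Pts B' ev) := rfl
  rw [hN'] at heq
  have hs : ev P.det ≠ 0 := by
    intro h0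
    have h3 : π ∣ P.det := by
      have : P.det ∈ RingHom.ker ev := h0
      rw [hπ] at this
      exact Ideal.mem_span_singleton.mp this
    apply hm
    rw [hd']
    by_cases ha : Nat.card (Pts B ev) - Nat.card (Pts B' ev) = 0
    · have h4 : π ^ (2 + (n - Nat.card (Pts B ev))) ∣ P.det ^ 2 * (Algebra.traceMatrix R βB).det := by
        rw [pow_add]
        exact mul_dvd_mul (pow_dvd_pow_of_dvd h3 2) h1
      refine (pow_dvd_pow π ?_).trans h4
      omega
    · have h4 : π ^ (2 * (Nat.card (Pts B ev) - Nat.card (Pts B' ev)) + (n - Nat.card (Pts B ev)))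
          ∣ P.det ^ 2 * (Algebra.traceMatrix R βB).det := by
        rw [pow_add, mul_comm 2, pow_mul]
        exact mul_dvd_mul (pow_dvd_pow_of_dvd h2 2) h1
      refine (pow_dvd_pow π ?_).trans h4
      omega
  refine ⟨P.det, hs, fun y hy => ?_⟩
  -- Cramer
  have hcr : ∀ i, P.det • βB i = ∑ j, (Matrix.adjugate P) j i • x j := by
    intro i
    have h5 : ∀ j, x j = ∑ k, P k j • βB k := hP
    calc P.det • βB i = ∑ k, (P * Matrix.adjugate P) k i • βB k := by
          rw [Matrix.mul_adjugate]
          simp [Matrix.smul_apply, Matrix.one_apply, ite_smul, Finset.sum_ite_eq']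
      _ = ∑ k, ∑ j, (P k j * Matrix.adjugate P j i) • βB k := by
          refine Finset.sum_congr rfl fun k _ => ?_
          rw [Matrix.mul_apply, Finset.sum_smul]
      _ = ∑ j, ∑ k, (P k j * Matrix.adjugate P j i) • βB k := Finset.sum_comm
      _ = ∑ j, (Matrix.adjugate P) j i • x j := by
          refine Finset.sum_congr rfl fun j _ => ?_
          rw [h5 j, Finset.smul_sum]
          refine Finset.sum_congr rfl fun k _ => ?_
          rw [smul_smul, mul_comm]
  have hmem : ∀ i, P.det • ((βB i : B) : L) ∈ B' := by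
    intro i
    have h6 : P.det • ((βB i : B) : L) = B.val (P.det • βB i) := by
      rw [map_smul]; rfl
    rw [h6, hcr i, map_sum]
    refine B'.sum_mem fun j _ => ?_
    rw [map_smul]
    have : B.val (x j) = b j := hxb j
    rw [this]
    exact B'.smul_mem (hb j) _
  let yB : B := ⟨y, hy⟩
  have hy1 : y = B.val (∑ i, βB.repr yB i • βB i) := by
    rw [βB.sum_repr yB]; rfl
  rw [hy1, map_sum, Finset.smul_sum]
  refine B'.sum_mem fun i _ => ?_
  rw [map_smul, smul_comm]
  exact B'.smul_mem (hmem i) _

/-- **WP A1** (cluster B / GoodRed, helper37's blueprint). -/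
theorem discLowerBound : DiscLowerBound R Kx L := by
  intro _ _ n B' b hb hint hli hn hspan κ _ _ ev hev π hπ d m hd hm hm'
  have h1 := pow_dvd_disc R Kx L n B' b hb hint hli hn hspan κ ev hev π hπ d hd
  have h2 : n - numPts R L B' ev ≤ m := by
    by_contra hlt
    rw [not_le] at hlt
    exact hm' ((pow_dvd_pow π hlt).trans h1)
  refine ⟨by omega, fun heq y hy => ?_⟩
  obtain ⟨s, hs, hsy⟩ := exists_smul_mem_of_eq R Kx L n B' b hb hint hli hn hspan κ ev hev π hπ
    d hd m hm' heq
  exact ⟨s, hs, hsy y hy⟩

end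

end Fermat.Agent.GoodRed
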