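import Mathlib
import Fermat.Agent.Lib.GoodRed.AlgStatements

/-!
# GoodRed A1, first half (helper31): `n ≤ m + numPts` without the different

`DLData.le_add_numPts`: the rank of the trace form modulo `π` is at most the number of points
(every element vanishing at all points is nilpotent modulo `π`, hence has trace `0` modulo `π`),
and `π ^ corank ∣ det`.
-/

set_option autoImplicit false

namespace Fermat.Agent.GoodRed

open Polynomial

section MatrixLemmas

/-- Leibniz: if all entries in the columns of `S` are divisible by `π`, then `π ^ #S ∣ det M`. -/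
theorem dl_pow_dvd_det_of_cols {R : Type*} [CommRing R] {n : ℕ} (M : Matrix (Fin n) (Fin n) R)
    (π : R) (S : Finset (Fin n)) (h : ∀ i, ∀ j ∈ S, π ∣ M i j) : π ^ S.card ∣ M.det := by
  rw [Matrix.det_apply']
  refine Finset.dvd_sum fun σ _ => Dvd.dvd.mul_left ?_ _
  rw [← Finset.prod_mul_prod_compl S]
  refine Dvd.dvd.mul_right ?_ _
  calc π ^ S.card = ∏ _i ∈ S, π := by simp
    _ ∣ ∏ i ∈ S, M (σ i) i := Finset.prod_dvd_prod_of_dvd _ _ fun i hi => h _ i hi

/-- cancelling a factor prime to `π` (the ideal `(π)` being prime, `π = 0` allowed). -/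
theorem dl_pow_dvd_of_mul {R κ : Type*} [CommRing R] [IsDomain R] [Field κ] (ev : R →+* κ)
    (π : R) (hker : RingHom.ker ev = Ideal.span {π}) (k : ℕ) {a u : R} (hu : ev u ≠ 0)
    (h : π ^ k ∣ a * u) : π ^ k ∣ a := by
  have hπu : ¬ π ∣ u := by
    intro hdvd
    apply hu
    have : u ∈ RingHom.ker ev := by rw [hker]; exact Ideal.mem_span_singleton.mpr hdvd
    exact this
  rcases eq_or_ne π 0 with h0 | h0
  · rcases Nat.eq_zero_or_pos k with hk | hk
    · subst hk; simp
    · rw [h0, zero_pow hk.ne', zero_dvd_iff] at h ⊢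
      rcases mul_eq_zero.mp h with h | h
      · exact h
      · exact absurd (by rw [h]; exact dvd_zero _) hπu
  · have hprime : Prime π := by
      have : (RingHom.ker ev).IsPrime := RingHom.ker_isPrime ev
      rw [hker] at this
      exact (Ideal.span_singleton_prime h0).mp this
    exact hprime.pow_dvd_of_dvd_mul_right k hπu h

/-- If the reduction of `G` kills `k` linearly independent vectors, then `π ^ k ∣ det G`. -/
theorem dl_pow_dvd_det_of_ker {R κ : Type*} [CommRing R] [IsDomain R] [Field κ] (ev : R →+* κ)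
    (hev : Function.Surjective ev) (π : R) (hker : RingHom.ker ev = Ideal.span {π})
    {n k : ℕ} (G : Matrix (Fin n) (Fin n) R) (v : Fin k → Fin n → κ)
    (hv : LinearIndependent κ v) (hGv : ∀ a, (G.map ev).mulVec (v a) = 0) : π ^ k ∣ G.det := by
  classical
  -- extend to a basis indexed by `Fin n`
  have hs : LinearIndepOn κ id (Set.range v) := hv.linearIndepOn_id
  let B₀ := Module.Basis.extend hs
  have : Finite (hs.extend (Set.subset_univ _)) := Module.Finite.finite_basis B₀
  let _ : Fintype (hs.extend (Set.subset_univ _)) := Fintype.ofFinite _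
  have hcard : Fintype.card (hs.extend (Set.subset_univ _)) = Fintype.card (Fin n) := by
    rw [← Module.finrank_eq_card_basis B₀, Module.finrank_fintype_fun_eq_card]
  let e : (hs.extend (Set.subset_univ _)) ≃ Fin n := Fintype.equivOfCardEq hcard
  let B := B₀.reindex e
  let vv : Fin k → hs.extend (Set.subset_univ _) := fun a =>
    ⟨v a, Module.Basis.subset_extend hs (Set.mem_range_self a)⟩
  have hvv : Function.Injective vv := fun a a' h => hv.injective (congrArg Subtype.val h)
  have hBv : ∀ a, B (e (vv a)) = v a := by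
    intro a
    simp only [B, Module.Basis.reindex_apply, Equiv.symm_apply_apply, B₀,
      Module.Basis.coe_extend, vv]
  let Ubar : Matrix (Fin n) (Fin n) κ := (Pi.basisFun κ (Fin n)).toMatrix B
  have hUbar : ∀ i j, Ubar i j = B j i := fun i j => by
    simp [Ubar, Module.Basis.toMatrix_apply]
  have hUdet : Ubar.det ≠ 0 := by
    have : IsUnit Ubar.det := by
      have h1 := Module.Basis.invertibleToMatrix (Pi.basisFun κ (Fin n)) B
      exact (Matrix.isUnit_iff_isUnit_det _).mp (isUnit_of_invertible _)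
    exact this.ne_zero
  choose U hU using fun i j => hev (Ubar i j)
  let UR : Matrix (Fin n) (Fin n) R := Matrix.of U
  have hURmap : UR.map ev = Ubar := by
    ext i j; simp [UR, hU]
  let S : Finset (Fin n) := Finset.univ.image (fun a : Fin k => e (vv a))
  have hScard : S.card = k := by
    have hinj : Function.Injective (fun a : Fin k => e (vv a)) :=
      e.injective.comp hvv
    rw [Finset.card_image_of_injective _ hinj]
    simp
  have hcols : ∀ i, ∀ j ∈ S, π ∣ (G * UR) i j := by
    intro i j hj
    obtain ⟨a, -, rfl⟩ := Finset.mem_image.mp hj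
    have : ev ((G * UR) i (e (vv a))) = 0 := by
      have h1 : ((G * UR).map ev) = G.map ev * Ubar := by
        rw [Matrix.map_mul, hURmap]
      have h2 : ((G * UR).map ev) i (e (vv a)) = ((G.map ev).mulVec (v a)) i := by
        rw [h1, Matrix.mul_apply, Matrix.mulVec, dotProduct]
        refine Finset.sum_congr rfl fun l _ => ?_
        rw [hUbar]
        congr 1
        rw [hBv a]
      rw [hGv a] at h2
      simpa using h2
    have hmem : (G * UR) i (e (vv a)) ∈ RingHom.ker ev := this
    rw [hker] at hmem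
    exact Ideal.mem_span_singleton.mp hmem
  have h1 := dl_pow_dvd_det_of_cols (G * UR) π S hcols
  rw [hScard, Matrix.det_mul] at h1
  refine dl_pow_dvd_of_mul ev π hker k ?_ h1
  rw [RingHom.map_det, RingHom.mapMatrix_apply, hURmap]
  exact hUdet

end MatrixLemmas

section Points

variable {R : Type} [CommRing R]
variable {L : Type} [Field L] [Algebra R L]
variable {κ : Type} [Field κ] [IsAlgClosed κ]

/-- If every point of `B'` over `ev` vanishes at `y`, then a power of `y` lies in `π B'`. -/
theorem dl_exists_pow_eq_smul (B' : Subalgebra R L) (hint : ∀ y ∈ B', IsIntegral R y)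
    (ev : R →+* κ) (hev : Function.Surjective ev) (π : R)
    (hker : RingHom.ker ev = Ideal.span {π})
    {y : L} (hy : y ∈ B')
    (hχ : ∀ χ : B' →+* κ, (∀ r : R, χ (algebraMap R B' r) = ev r) → χ ⟨y, hy⟩ = 0) :
    ∃ (k : ℕ) (z : L), z ∈ B' ∧ y ^ k = π • z := by
  set I : Ideal B' := Ideal.span {algebraMap R B' π} with hI
  have hrad : (⟨y, hy⟩ : B') ∈ I.radical := by
    rw [Ideal.radical_eq_sInf, Ideal.mem_sInf]
    rintro 𝔮 ⟨hI𝔮, h𝔮⟩
    let q : B' →+* B' ⧸ 𝔮 := Ideal.Quotient.mk 𝔮
    let g : R →+* B' ⧸ 𝔮 := q.comp (algebraMap R B')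
    have hgπ : g π = 0 := by
      show q (algebraMap R B' π) = 0
      exact Ideal.Quotient.eq_zero_iff_mem.mpr (hI𝔮 (Ideal.subset_span rfl))
    have hle : RingHom.ker ev ≤ RingHom.ker g := by
      rw [hker, Ideal.span_le]
      rintro r hr
      rw [Set.mem_singleton_iff] at hr
      rw [hr]
      exact hgπ
    let φ : κ →+* B' ⧸ 𝔮 := RingHom.liftOfSurjective ev hev ⟨g, hle⟩
    have hφ : ∀ r, φ (ev r) = g r := fun r => RingHom.liftOfSurjective_comp_apply ev hev ⟨g, hle⟩ r
    have hφint : φ.IsIntegral := by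
      intro x
      obtain ⟨a, rfl⟩ := Ideal.Quotient.mk_surjective x
      obtain ⟨p, hpm, hp⟩ := hint a a.2
      refine ⟨p.map ev, hpm.map ev, ?_⟩
      rw [Polynomial.eval₂_map]
      have h1 : φ.comp ev = g := RingHom.ext hφ
      rw [h1]
      have h2 : Polynomial.eval₂ (algebraMap R B') a p = 0 := by
        apply Subtype.ext
        have := Polynomial.hom_eval₂ p (algebraMap R B') (B'.val : B' →+* L) a
        rw [ZeroMemClass.coe_zero]
        have h3 : (B'.val : B' →+* L).comp (algebraMap R B') = algebraMap R L := by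
          ext r; rfl
        rw [h3] at this
        exact this.trans hp
      have h4 := Polynomial.hom_eval₂ p (algebraMap R B') q a
      rw [h2, map_zero] at h4
      exact h4.symm
    have hbij := IsAlgClosed.ringHom_bijective_of_isIntegral φ hφint
    let ψ : κ ≃+* B' ⧸ 𝔮 := RingEquiv.ofBijective φ hbij
    let χ : B' →+* κ := (ψ.symm : B' ⧸ 𝔮 →+* κ).comp q
    have hχr : ∀ r : R, χ (algebraMap R B' r) = ev r := by
      intro r
      show ψ.symm (q (algebraMap R B' r)) = ev r
      rw [RingEquiv.symm_apply_eq]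
      exact (hφ r).symm
    have h0 := hχ χ hχr
    have h1 : ψ.symm (q ⟨y, hy⟩) = 0 := h0
    rw [RingEquiv.symm_apply_eq, map_zero] at h1
    exact Ideal.Quotient.eq_zero_iff_mem.mp h1
  obtain ⟨k, hk⟩ := hrad
  rw [hI, Ideal.mem_span_singleton] at hk
  obtain ⟨z, hz⟩ := hk
  refine ⟨k, z, z.2, ?_⟩
  have := congrArg (Subtype.val) hz
  simpa [Algebra.smul_def] using this

end Points

section Lattice

variable {R : Type} [CommRing R] [IsDomain R]
variable {Kx : Type} [Field Kx] [Algebra R Kx] [IsFractionRing R Kx]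
variable {L : Type} [Field L] [Algebra Kx L] [Algebra R L] [IsScalarTower R Kx L]
  [FiniteDimensional Kx L]

/-- The data of an `R`-basis `b` of an integral `R`-subalgebra `B'` of `L` which is also a
`Kx`-basis of `L`. -/
structure DLData (n : ℕ) (B' : Subalgebra R L) (b : Fin n → L) : Prop where
  mem : ∀ i, b i ∈ B'
  integral : ∀ y ∈ B', IsIntegral R y
  li : LinearIndependent Kx b
  rank : Module.finrank Kx L = n
  span : ∀ y ∈ B', ∃ c : Fin n → R, y = ∑ i, c i • b i

variable {n : ℕ} {B' : Subalgebra R L} {b : Fin n → L}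

/-- the `Kx`-basis of `L` given by `b`. -/
noncomputable def DLData.basis (h : DLData (Kx := Kx) n B' b) : Module.Basis (Fin n) Kx L :=
  haveI : Nonempty (Fin n) := by
    have h0 : 0 < Module.finrank Kx L := Module.finrank_pos
    rw [h.rank] at h0
    exact ⟨⟨0, h0⟩⟩
  basisOfLinearIndependentOfCardEqFinrank h.li (by rw [h.rank, Fintype.card_fin])

@[simp] theorem DLData.basis_apply (h : DLData (Kx := Kx) n B' b) (i : Fin n) :
    h.basis i = b i := by
  simp [DLData.basis]

theorem DLData.sum_mem (h : DLData (Kx := Kx) n B' b) (c : Fin n → R) :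
    ∑ i, c i • b i ∈ B' :=
  Subalgebra.sum_mem _ fun i _ => Subalgebra.smul_mem _ (h.mem i) _

theorem DLData.repr_eq (h : DLData (Kx := Kx) n B' b) (c : Fin n → R) (i : Fin n) :
    h.basis.repr (∑ i, c i • b i) i = algebraMap R Kx (c i) := by
  have : ∑ i, c i • b i = ∑ i, (algebraMap R Kx (c i)) • h.basis i := by
    refine Finset.sum_congr rfl fun i _ => ?_
    rw [h.basis_apply, algebraMap_smul]
  rw [this, Module.Basis.repr_sum_self]

/-- the matrix of multiplication by `y ∈ B'` has entries in `R`. -/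
theorem DLData.exists_leftMulMatrix (h : DLData (Kx := Kx) n B' b) {y : L} (hy : y ∈ B') :
    ∃ M : Matrix (Fin n) (Fin n) R,
      M.map (algebraMap R Kx) = Algebra.leftMulMatrix h.basis y := by
  have key : ∀ j, ∃ c : Fin n → R, y * b j = ∑ i, c i • b i :=
    fun j => h.span _ (Subalgebra.mul_mem _ hy (h.mem j))
  choose c hc using key
  refine ⟨Matrix.of fun i j => c j i, ?_⟩
  ext i j
  rw [Matrix.map_apply, Matrix.of_apply, Algebra.leftMulMatrix_eq_repr_mul, h.basis_apply, hc j,
    h.repr_eq]

/-- the trace of an element of `B'` lies in `R`. -/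
theorem DLData.exists_trace (h : DLData (Kx := Kx) n B' b) {y : L} (hy : y ∈ B') :
    ∃ t : R, algebraMap R Kx t = Algebra.trace Kx L y := by
  obtain ⟨M, hM⟩ := h.exists_leftMulMatrix hy
  refine ⟨M.trace, ?_⟩
  rw [Algebra.trace_eq_matrix_trace h.basis, ← hM, Matrix.trace, Matrix.trace, map_sum]
  rfl

/-- If a power of `y ∈ B'` lies in `π B'`, then the trace of `y` is divisible by `π`
(all in terms of `ev`). -/
theorem DLData.ev_trace_eq_zero {κ : Type} [Field κ] (h : DLData (Kx := Kx) n B' b)
    (ev : R →+* κ) (π : R) (hπ : ev π = 0) {y z : L} (hy : y ∈ B') (hz : z ∈ B') (k : ℕ)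
    (hyz : y ^ k = π • z) {t : R} (ht : algebraMap R Kx t = Algebra.trace Kx L y) :
    ev t = 0 := by
  obtain ⟨M, hM⟩ := h.exists_leftMulMatrix hy
  obtain ⟨Mz, hMz⟩ := h.exists_leftMulMatrix hz
  have hinj : Function.Injective (algebraMap R Kx) := IsFractionRing.injective R Kx
  have hmapinj : Function.Injective
      (fun A : Matrix (Fin n) (Fin n) R => A.map (algebraMap R Kx)) :=
    fun A A' hAA' => by
      ext i j
      exact hinj (by simpa using congrFun (congrFun hAA' i) j)
  have hpow : M ^ k = π • Mz := by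
    apply hmapinj
    show (M ^ k).map (algebraMap R Kx) = (π • Mz).map (algebraMap R Kx)
    have h1 : (M ^ k).map (algebraMap R Kx) = (M.map (algebraMap R Kx)) ^ k := by
      rw [← RingHom.mapMatrix_apply, map_pow, RingHom.mapMatrix_apply]
    have h2 : (π • Mz).map (algebraMap R Kx) = algebraMap R Kx π • Mz.map (algebraMap R Kx) := by
      ext i j
      rw [Matrix.map_apply, Matrix.smul_apply, Matrix.smul_apply, Matrix.map_apply, smul_eq_mul,
        map_mul, smul_eq_mul]
    rw [h1, h2, hM, hMz, ← map_pow, hyz, ← algebraMap_smul Kx π z, map_smul]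
  have htM : t = M.trace := by
    apply hinj
    rw [ht, Algebra.trace_eq_matrix_trace h.basis, ← hM, Matrix.trace, Matrix.trace, map_sum]
    rfl
  have hnil : IsNilpotent (M.map ev) := by
    refine ⟨k, ?_⟩
    have h1 : (M.map ev) ^ k = (M ^ k).map ev := by
      rw [← RingHom.mapMatrix_apply, ← RingHom.mapMatrix_apply, map_pow]
    rw [h1, hpow]
    ext i j
    simp [hπ]
  have htr : (M.map ev).trace = 0 :=
    (Matrix.isNilpotent_trace_of_isNilpotent hnil).eq_zero
  rw [htM]
  have : ev M.trace = (M.map ev).trace := by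
    rw [Matrix.trace, Matrix.trace, map_sum]; rfl
  rw [this, htr]

end Lattice

section Points1

variable {R : Type} [CommRing R] [IsDomain R]
variable {Kx : Type} [Field Kx] [Algebra R Kx] [IsFractionRing R Kx]
variable {L : Type} [Field L] [Algebra Kx L] [Algebra R L] [IsScalarTower R Kx L]
  [FiniteDimensional Kx L]
variable {n : ℕ} {B' : Subalgebra R L} {b : Fin n → L}
variable {κ : Type} [Field κ]

/-- The points of `B'` over `ev`. -/
abbrev DLPts (B' : Subalgebra R L) (ev : R →+* κ) : Type :=
  {χ : B' →+* κ // ∀ r : R, χ (algebraMap R B' r) = ev r}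

theorem numPts_eq_card (B' : Subalgebra R L) (ev : R →+* κ) :
    numPts R L B' ev = Nat.card (DLPts B' ev) := rfl

/-- the vector of values of a point on the basis. -/
def DLData.ptVec (h : DLData (Kx := Kx) n B' b) (ev : R →+* κ) (χ : DLPts B' ev) : Fin n → κ :=
  fun i => χ.1 ⟨b i, h.mem i⟩

theorem DLData.point_apply (h : DLData (Kx := Kx) n B' b) (ev : R →+* κ) (χ : DLPts B' ev)
    (c : Fin n → R) :
    χ.1 ⟨∑ i, c i • b i, h.sum_mem c⟩ = ∑ i, ev (c i) * h.ptVec ev χ i := by
  have : (⟨∑ i, c i • b i, h.sum_mem c⟩ : B') =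
      ∑ i, algebraMap R B' (c i) * ⟨b i, h.mem i⟩ := by
    apply Subtype.ext
    simp only [AddSubmonoidClass.coe_finsetSum, MulMemClass.coe_mul, Algebra.smul_def]
    rfl
  rw [this, map_sum]
  refine Finset.sum_congr rfl fun i _ => ?_
  rw [map_mul, χ.2]
  rfl

theorem DLData.ptVec_li (h : DLData (Kx := Kx) n B' b) (ev : R →+* κ) :
    LinearIndependent κ (h.ptVec ev) := by
  classical
  have hmon : LinearIndependent κ (fun χ : DLPts B' ev => ((χ.1 : B' →* κ) : B' → κ)) := by
    have h1 := linearIndependent_monoidHom B' κ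
    refine h1.comp (fun χ : DLPts B' ev => (χ.1 : B' →* κ)) ?_
    intro χ χ' hχ
    apply Subtype.ext
    ext y
    exact DFunLike.congr_fun hχ y
  rw [linearIndependent_iff'] at hmon ⊢
  intro s g hg χ hχs
  refine hmon s g ?_ χ hχs
  funext y
  obtain ⟨c, hc⟩ := h.span y.1 y.2
  have hy : y = ⟨∑ i, c i • b i, h.sum_mem c⟩ := Subtype.ext hc
  simp only [Finset.sum_apply, Pi.smul_apply, smul_eq_mul, Pi.zero_apply]
  have h2 : ∀ χ : DLPts B' ev, ((χ.1 : B' →* κ) : B' → κ) y =
      ∑ i, ev (c i) * h.ptVec ev χ i := by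
    intro χ
    rw [hy]
    exact h.point_apply ev χ c
  simp only [h2, Finset.mul_sum]
  rw [Finset.sum_comm]
  have h3 : ∀ i, ∑ χ ∈ s, g χ * h.ptVec ev χ i = 0 := by
    intro i
    have := congrFun hg i
    simpa using this
  refine Finset.sum_eq_zero fun i _ => ?_
  have : ∑ χ ∈ s, g χ * (ev (c i) * h.ptVec ev χ i) =
      ev (c i) * ∑ χ ∈ s, g χ * h.ptVec ev χ i := by
    rw [Finset.mul_sum]
    refine Finset.sum_congr rfl fun χ _ => by ring
  rw [this, h3, mul_zero]

theorem DLData.finite_pts (h : DLData (Kx := Kx) n B' b) (ev : R →+* κ) :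
    Finite (DLPts B' ev) :=
  (h.ptVec_li ev).finite

theorem DLData.card_pts_le (h : DLData (Kx := Kx) n B' b) (ev : R →+* κ) :
    numPts R L B' ev ≤ n := by
  have := h.finite_pts ev
  let _ : Fintype (DLPts B' ev) := Fintype.ofFinite _
  rw [numPts_eq_card, Nat.card_eq_fintype_card]
  have := (h.ptVec_li ev).fintype_card_le_finrank
  simpa using this


variable [IsAlgClosed κ]

/-- **(ALG-1), first half.** -/
theorem DLData.le_add_numPts (h : DLData (Kx := Kx) n B' b) (ev : R →+* κ)
    (hev : Function.Surjective ev) (π : R) (hker : RingHom.ker ev = Ideal.span {π})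
    (d : R) (m : ℕ) (hd : algebraMap R Kx d = gramDet Kx L b) (hndvd : ¬ π ^ (m + 1) ∣ d) :
    n ≤ m + numPts R L B' ev := by
  classical
  have hinj : Function.Injective (algebraMap R Kx) := IsFractionRing.injective R Kx
  have hπ : ev π = 0 := by
    have : π ∈ RingHom.ker ev := by rw [hker]; exact Ideal.subset_span rfl
    exact this
  -- the trace matrix over `R`
  choose t ht using fun i j => h.exists_trace (Subalgebra.mul_mem _ (h.mem i) (h.mem j))
  have htsymm : ∀ i j, t i j = t j i := fun i j => hinj (by rw [ht, ht, mul_comm])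
  let GR : Matrix (Fin n) (Fin n) R := Matrix.of t
  have hdet : GR.det = d := by
    apply hinj
    rw [hd, RingHom.map_det, gramDet]
    congr 1
    ext i j
    simp [GR, ht]
  -- the points
  have hfin := h.finite_pts ev
  let _ : Fintype (DLPts B' ev) := Fintype.ofFinite _
  have hr : numPts R L B' ev = Fintype.card (DLPts B' ev) := by
    rw [numPts_eq_card, Nat.card_eq_fintype_card]
  let Xmat : Matrix (DLPts B' ev) (Fin n) κ := Matrix.of (h.ptVec ev)
  have hrank : Xmat.rank = Fintype.card (DLPts B' ev) :=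
    LinearIndependent.rank_matrix (h.ptVec_li ev)
  have hrn := LinearMap.finrank_range_add_finrank_ker Xmat.mulVecLin
  rw [Module.finrank_fintype_fun_eq_card, Fintype.card_fin] at hrn
  have hrange : Module.finrank κ (LinearMap.range Xmat.mulVecLin) = Xmat.rank := rfl
  rw [hrange, hrank] at hrn
  -- a basis of the kernel
  set k := Module.finrank κ (LinearMap.ker Xmat.mulVecLin) with hk
  let vK := Module.finBasis κ (LinearMap.ker Xmat.mulVecLin)
  let v : Fin k → Fin n → κ := fun a => (vK a : Fin n → κ)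
  have hv : LinearIndependent κ v :=
    vK.linearIndependent.map' (LinearMap.ker Xmat.mulVecLin).subtype
      (Submodule.ker_subtype _)
  have hGv : ∀ a, (GR.map ev).mulVec (v a) = 0 := by
    intro a
    have hker_a : Xmat.mulVec (v a) = 0 := (vK a).2
    choose c hc using fun i => hev (v a i)
    have hy : ∑ i, c i • b i ∈ B' := h.sum_mem c
    have hχy : ∀ χ : DLPts B' ev, χ.1 ⟨∑ i, c i • b i, hy⟩ = 0 := by
      intro χ
      rw [h.point_apply ev χ c]
      have := congrFun hker_a χ
      simp only [Matrix.mulVec, dotProduct, Xmat, Matrix.of_apply, Pi.zero_apply] at this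
      rw [← this]
      refine Finset.sum_congr rfl fun i _ => ?_
      rw [hc, mul_comm]
    funext j
    have hyj : (∑ i, c i • b i) * b j ∈ B' := Subalgebra.mul_mem _ hy (h.mem j)
    have hχyj : ∀ χ : B' →+* κ, (∀ r : R, χ (algebraMap R B' r) = ev r) →
        χ ⟨(∑ i, c i • b i) * b j, hyj⟩ = 0 := by
      intro χ hχ
      have : (⟨(∑ i, c i • b i) * b j, hyj⟩ : B') = ⟨∑ i, c i • b i, hy⟩ * ⟨b j, h.mem j⟩ := rfl
      rw [this, map_mul, hχy ⟨χ, hχ⟩, zero_mul]
    obtain ⟨k', z, hz, hkz⟩ := dl_exists_pow_eq_smul B' h.integral ev hev π hker hyj hχyj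
    have htr : algebraMap R Kx (∑ i, c i * t i j) =
        Algebra.trace Kx L ((∑ i, c i • b i) * b j) := by
      rw [Finset.sum_mul, map_sum, map_sum]
      refine Finset.sum_congr rfl fun i _ => ?_
      rw [map_mul, ht, smul_mul_assoc, ← algebraMap_smul Kx (c i) (b i * b j), map_smul,
        smul_eq_mul]
    have h0 := h.ev_trace_eq_zero ev π hπ hyj hz k' hkz htr
    rw [map_sum] at h0
    simp only [Matrix.mulVec, dotProduct, Matrix.map_apply, GR, Matrix.of_apply, Pi.zero_apply]
    rw [← h0]
    refine Finset.sum_congr rfl fun i _ => ?_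
    rw [map_mul, hc, htsymm j i, mul_comm]
  have hdvd := dl_pow_dvd_det_of_ker ev hev π hker GR v hv hGv
  rw [hdet] at hdvd
  have hkm : k ≤ m := by
    by_contra hlt
    push Not at hlt
    exact hndvd ((pow_dvd_pow π hlt).trans hdvd)
  rw [hr]
  omega

end Points1

end Fermat.Agent.GoodRed
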