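import Mathlib

/-!
# Cluster B / GoodRed, step (L3): roots of a polynomial over a valuation ring and its reduction
(helper7).  Pure algebra.

`A` a valuation subring of an algebraically closed field `K`, `res : A → k` a ring homomorphism
whose kernel is the set of non-units.  For `D ∈ A[X]` with `D̄ := D.map res ≠ 0`:
the multiplicity of `c̄` as a root of `D̄` is the number of roots `r ∈ A` of `D`
(counted with multiplicity) with `res r = c̄`.
-/

set_option autoImplicit false

namespace Fermat.Agent.GoodRed

open Polynomial

noncomputable section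

variable {K k : Type} [Field K] [Field k] (A : ValuationSubring K) (res : A →+* k)

/-- division by `1 - s X` stays in `A[X]`. -/
theorem exists_of_one_sub_mul (D : A[X]) (s : A) (Q : K[X])
    (h : D.map A.subtype = (1 - C (s : K) * X) * Q) : ∃ D' : A[X], D'.map A.subtype = Q := by
  have hcoef : ∀ n, Q.coeff n ∈ Set.range A.subtype := by
    intro n
    induction n with
    | zero =>
      have h0 := congrArg (fun p => p.coeff 0) h
      simp only [coeff_map, sub_mul, one_mul, coeff_sub, mul_assoc, coeff_C_mul,
        coeff_X_mul_zero, mul_zero, sub_zero] at h0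
      exact ⟨D.coeff 0, h0⟩
    | succ n ih =>
      obtain ⟨a, ha⟩ := ih
      have h1 := congrArg (fun p => p.coeff (n + 1)) h
      simp only [coeff_map, sub_mul, one_mul, coeff_sub, mul_assoc, coeff_C_mul,
        coeff_X_mul] at h1
      refine ⟨D.coeff (n + 1) + s * a, ?_⟩
      rw [map_add, map_mul, ha, h1]
      simp
  exact (Polynomial.lifts_iff_coeff_lifts Q).mpr hcoef

variable {A res}

theorem map_subtype_injective : Function.Injective (Polynomial.map (A.subtype : A →+* K)) :=
  Polynomial.map_injective _ Subtype.val_injective

open Classical in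
/-- **(L3)**, multiset form, by induction on the degree. -/
theorem rootMultiplicity_map_res_aux [IsAlgClosed K] (hres : ∀ a : A, res a = 0 ↔ ¬ IsUnit a) :
    ∀ (n : ℕ) (D : A[X]), D.natDegree = n → D.map res ≠ 0 → ∀ cbar : k,
      (D.map res).rootMultiplicity cbar =
        Multiset.card (D.roots.filter fun r => res r = cbar) := by
  intro n
  induction n with
  | zero =>
    intro D hD hDbar cbar
    obtain ⟨a, rfl⟩ : ∃ a, D = C a := ⟨_, Polynomial.eq_C_of_natDegree_eq_zero hD⟩
    rw [Polynomial.map_C, Polynomial.rootMultiplicity_C, Polynomial.roots_C]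
    simp
  | succ n ih =>
    intro D hD hDbar cbar
    have hD0 : D ≠ 0 := by
      rintro rfl
      simp at hD
    have hDK : (D.map A.subtype).degree ≠ 0 := by
      rw [Polynomial.degree_map_eq_of_injective Subtype.val_injective,
        Polynomial.degree_eq_natDegree hD0, hD]
      exact_mod_cast Nat.succ_ne_zero n
    obtain ⟨ρ, hρ⟩ := IsAlgClosed.exists_root (D.map A.subtype) hDK
    by_cases hρA : ρ ∈ A
    · -- a root in `A`
      have hroot : D.IsRoot ⟨ρ, hρA⟩ := by
        rw [Polynomial.IsRoot.def]
        apply Subtype.val_injective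
        have := hρ
        rw [Polynomial.IsRoot.def, Polynomial.eval_map] at this
        have h2 : A.subtype (D.eval ⟨ρ, hρA⟩) = D.eval₂ A.subtype ρ := by
          rw [Polynomial.eval, Polynomial.hom_eval₂, RingHom.comp_id]
          rfl
        show A.subtype (D.eval ⟨ρ, hρA⟩) = A.subtype 0
        rw [h2, this, map_zero]
      obtain ⟨D', hD'⟩ := Polynomial.dvd_iff_isRoot.mpr hroot
      have hD'0 : D' ≠ 0 := by
        rintro rfl
        rw [mul_zero] at hD'
        exact hD0 hD'
      have hdeg : D'.natDegree = n := by
        have := congrArg Polynomial.natDegree hD'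
        rw [Polynomial.natDegree_mul (Polynomial.X_sub_C_ne_zero _) hD'0,
          Polynomial.natDegree_X_sub_C, hD] at this
        omega
      have hmap : D.map res = (X - C (res ⟨ρ, hρA⟩)) * D'.map res := by
        rw [hD', Polynomial.map_mul, Polynomial.map_sub, Polynomial.map_X, Polynomial.map_C]
      have hD'bar : D'.map res ≠ 0 := by
        intro h0
        rw [hmap, h0, mul_zero] at hDbar
        exact hDbar rfl
      have ih' := ih D' hdeg hD'bar cbar
      have hne : (X - C (res ⟨ρ, hρA⟩)) * D'.map res ≠ 0 := by
        rw [← hmap]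
        exact hDbar
      rw [hmap, Polynomial.rootMultiplicity_mul hne, ih', Polynomial.rootMultiplicity_X_sub_C]
      have hroots : D.roots = {(⟨ρ, hρA⟩ : A)} + D'.roots := by
        conv_lhs => rw [hD']
        rw [Polynomial.roots_mul (by rw [← hD']; exact hD0), Polynomial.roots_X_sub_C]
      rw [hroots, Multiset.filter_add, Multiset.card_add, Multiset.filter_singleton]
      by_cases hc : res ⟨ρ, hρA⟩ = cbar
      · rw [if_pos hc.symm, if_pos hc]
        simp
      · rw [if_neg (fun h => hc h.symm), if_neg hc]
        simp
    · -- a root outside `A`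
      have hρ0 : ρ ≠ 0 := by
        rintro rfl
        exact hρA (zero_mem _)
      have hsA : ρ⁻¹ ∈ A := (A.mem_or_inv_mem ρ).resolve_left hρA
      set s : A := ⟨ρ⁻¹, hsA⟩ with hs
      have hsnu : ¬ IsUnit s := by
        intro hu
        obtain ⟨t, ht⟩ := isUnit_iff_exists_inv.mp hu
        have h1 : ρ⁻¹ * (t : K) = 1 := by
          have := congrArg Subtype.val ht
          simpa using this
        have h2 : (t : K) = ρ := by
          field_simp at h1
          exact h1
        exact hρA (h2 ▸ t.2)
      have hress : res s = 0 := (hres s).mpr hsnu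
      obtain ⟨Q, hQ⟩ := Polynomial.dvd_iff_isRoot.mpr hρ
      have hfac : D.map A.subtype = (1 - C ((s : A) : K) * X) * (C (-ρ) * Q) := by
        rw [hQ]
        have : (X - C ρ : K[X]) = (1 - C ((s : A) : K) * X) * C (-ρ) := by
          have h1 : ((s : A) : K) = ρ⁻¹ := rfl
          rw [h1, sub_mul, one_mul, mul_assoc, mul_comm X (C (-ρ)), ← mul_assoc, ← C_mul,
            mul_neg, inv_mul_cancel₀ hρ0]
          simp only [C_neg, C_1, neg_mul, one_mul, sub_neg_eq_add]
          ring
        rw [this, mul_assoc]
      obtain ⟨D', hD'⟩ := exists_of_one_sub_mul A D s (C (-ρ) * Q) hfac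
      set U : A[X] := 1 - C s * X with hU
      have hUmap : U.map A.subtype = 1 - C ((s : A) : K) * X := by
        rw [hU, Polynomial.map_sub, Polynomial.map_one, Polynomial.map_mul, Polynomial.map_C,
          Polynomial.map_X]
        rfl
      have hDU : D = U * D' := by
        apply map_subtype_injective
        rw [Polynomial.map_mul, hUmap, hD', hfac]
      have hs0 : s ≠ 0 := by
        intro h0
        have : ρ⁻¹ = 0 := congrArg Subtype.val h0
        exact inv_ne_zero hρ0 this
      have hU0 : U ≠ 0 := by
        intro h0
        rw [hDU, h0, zero_mul] at hD0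
        exact hD0 rfl
      have hD'0 : D' ≠ 0 := by
        rintro rfl
        rw [mul_zero] at hDU
        exact hD0 hDU
      have hUdeg : U.natDegree = 1 := by
        have h1 : U = C (-s) * X + C 1 := by
          rw [hU]
          simp only [C_neg, C_1]
          ring
        rw [h1]
        exact Polynomial.natDegree_linear (neg_ne_zero.mpr hs0)
      have hdeg : D'.natDegree = n := by
        have := congrArg Polynomial.natDegree hDU
        rw [Polynomial.natDegree_mul hU0 hD'0, hUdeg, hD] at this
        omega
      have hUbar : U.map res = 1 := by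
        rw [hU, Polynomial.map_sub, Polynomial.map_one, Polynomial.map_mul, Polynomial.map_C,
          hress]
        simp
      have hmap : D.map res = D'.map res := by
        rw [hDU, Polynomial.map_mul, hUbar, one_mul]
      have hUroots : U.roots = 0 := by
        apply Multiset.eq_zero_of_forall_notMem
        intro r hr
        rw [Polynomial.mem_roots hU0, Polynomial.IsRoot.def, hU] at hr
        simp only [eval_sub, eval_one, eval_mul, eval_C, eval_X] at hr
        apply hsnu
        exact isUnit_iff_exists_inv.mpr ⟨r, (sub_eq_zero.mp hr).symm⟩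
      have hroots : D.roots = D'.roots := by
        conv_lhs => rw [hDU]
        rw [Polynomial.roots_mul (by rw [← hDU]; exact hD0), hUroots, zero_add]
      rw [hmap, hroots]
      exact ih D' hdeg (by rw [← hmap]; exact hDbar) cbar

open Classical in
/-- **(L3)**, multiset form: the multiplicity of `c̄` in the reduction is the number of roots in
`A` (with multiplicity) reducing to `c̄`. -/
theorem rootMultiplicity_map_res [IsAlgClosed K] (hres : ∀ a : A, res a = 0 ↔ ¬ IsUnit a)
    (D : A[X]) (hD : D.map res ≠ 0) (cbar : k) :
    (D.map res).rootMultiplicity cbar =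
      Multiset.card (D.roots.filter fun r => res r = cbar) :=
  rootMultiplicity_map_res_aux hres _ D rfl hD cbar

open Classical in
/-- **(L3)**, sum form. -/
theorem rootMultiplicity_map_res_eq_sum [IsAlgClosed K] (hres : ∀ a : A, res a = 0 ↔ ¬ IsUnit a)
    (D : A[X]) (hD : D.map res ≠ 0) (cbar : k) :
    (D.map res).rootMultiplicity cbar =
      ∑ r ∈ D.roots.toFinset.filter (fun r => res r = cbar), D.rootMultiplicity r := by
  rw [rootMultiplicity_map_res hres D hD cbar, ← Multiset.toFinset_sum_count_eq,
    Multiset.toFinset_filter]
  refine Finset.sum_congr rfl fun r hr => ?_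
  rw [Finset.mem_filter] at hr
  rw [Multiset.count_filter, if_pos hr.2, Polynomial.count_roots]

/-- consequence: if no root of `D` in `A` reduces to `c̄`, then `c̄` is not a root of `D̄`. -/
theorem not_isRoot_map_res [IsAlgClosed K] (hres : ∀ a : A, res a = 0 ↔ ¬ IsUnit a)
    (D : A[X]) (hD : D.map res ≠ 0) (cbar : k)
    (h : ∀ r : A, D.IsRoot r → res r ≠ cbar) : ¬ (D.map res).IsRoot cbar := by
  classical
  intro hroot
  have h1 : 0 < (D.map res).rootMultiplicity cbar :=
    (Polynomial.rootMultiplicity_pos hD).mpr hroot
  rw [rootMultiplicity_map_res hres D hD cbar] at h1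
  obtain ⟨r, hr⟩ := Multiset.card_pos_iff_exists_mem.mp h1
  rw [Multiset.mem_filter] at hr
  have hD0 : D ≠ 0 := by
    rintro rfl
    simp at hD
  exact h r ((Polynomial.mem_roots hD0).mp hr.1) hr.2

end

end Fermat.Agent.GoodRed
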